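/-
S28 helper library (T1): gluing.
-/
import Mathlib
import Fermat.Prelude.Def_ModularCurve_IgusaScheme

set_option autoImplicit false

namespace Fermat.Agent.S28Aux

open AlgebraicGeometry CategoryTheory CategoryTheory.Limits ModularCurve ModularCurve.IgusaScheme
open scoped TensorProduct

noncomputable section

/-- A space covered by two irreducible open subsets which meet is irreducible. -/
theorem irreducibleSpace_of_two {Y : Type*} [TopologicalSpace Y] {U V : Set Y}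
    (hU : IsIrreducible U) (hV : IsIrreducible V) (hUo : IsOpen U)
    (hcov : ∀ y, y ∈ U ∨ y ∈ V) (hne : (U ∩ V).Nonempty) : IrreducibleSpace Y := by
  have key : ∀ u : Set Y, IsOpen u → u.Nonempty → (U ∩ u).Nonempty := by
    intro u hu ⟨y, hy⟩
    rcases hcov y with h | h
    · exact ⟨y, h, hy⟩
    · have h1 : (V ∩ (u ∩ U)).Nonempty :=
        hV.2 u U hu hUo ⟨y, h, hy⟩ (by rwa [Set.inter_comm] at hne)
      obtain ⟨z, _, hz2, hz3⟩ := h1
      exact ⟨z, hz3, hz2⟩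
  have hpre : PreirreducibleSpace Y := by
    constructor
    intro u v hu hv ⟨y, _, hy⟩ ⟨z, _, hz⟩
    obtain ⟨w, _, hw⟩ := hU.2 u v hu hv (key u hu ⟨y, hy⟩) (key v hv ⟨z, hz⟩)
    exact ⟨w, trivial, hw⟩
  exact { hpre with toNonempty := ⟨hne.some⟩ }

theorem isIntegral_of_two {Y U1 U2 M : Scheme.{0}} (j1 : U1 ⟶ Y) (j2 : U2 ⟶ Y)
    [IsOpenImmersion j1] [IsOpenImmersion j2] [IsIntegral U1] [IsIntegral U2]
    (hcov : ∀ y : Y, y ∈ Set.range j1 ∨ y ∈ Set.range j2) [Nonempty M]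
    (a1 : M ⟶ U1) (a2 : M ⟶ U2) (h : a1 ≫ j1 = a2 ≫ j2) : IsIntegral Y := by
  have hred : IsReduced Y := by
    let 𝒰 : Y.OpenCover := Scheme.Cover.mkOfCovers Bool (fun b => cond b U1 U2)
      (fun b => match b with
        | true => j1
        | false => j2)
      (fun y => by
        rcases hcov y with ⟨x, hx⟩ | ⟨x, hx⟩
        · exact ⟨true, x, hx⟩
        · exact ⟨false, x, hx⟩)
      (fun b => by
        cases b
        · exact (inferInstance : IsOpenImmersion j2)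
        · exact (inferInstance : IsOpenImmersion j1))
    have : ∀ i, IsReduced (𝒰.X i) := by
      intro i
      cases i
      · exact (inferInstance : IsReduced U2)
      · exact (inferInstance : IsReduced U1)
    exact IsReduced.of_openCover Y 𝒰
  have hirr : IrreducibleSpace Y := by
    refine irreducibleSpace_of_two (U := Set.range j1) (V := Set.range j2) ?_ ?_
      j1.isOpenEmbedding.isOpen_range hcov ?_
    · rw [← Set.image_univ]
      exact (IrreducibleSpace.isIrreducible_univ U1).image _ j1.continuous.continuousOn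
    · rw [← Set.image_univ]
      exact (IrreducibleSpace.isIrreducible_univ U2).image _ j2.continuous.continuousOn
    · obtain ⟨m⟩ := ‹Nonempty M›
      refine ⟨j1 (a1 m), ⟨_, rfl⟩, a2 m, ?_⟩
      rw [← Scheme.Hom.comp_apply, ← Scheme.Hom.comp_apply, h]
  exact isIntegral_of_irreducibleSpace_of_isReduced Y

theorem isIntegral_pullback_of_two {X S T X1 X2 X0 : Scheme.{0}} (f : X ⟶ S) (g : T ⟶ S)
    (ι1 : X1 ⟶ X) (ι2 : X2 ⟶ X) [IsOpenImmersion ι1] [IsOpenImmersion ι2]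
    (hcov : ∀ x : X, x ∈ Set.range ι1 ∨ x ∈ Set.range ι2)
    (f1 : X0 ⟶ X1) (f2 : X0 ⟶ X2) (hglue : f1 ≫ ι1 = f2 ≫ ι2)
    [IsIntegral (pullback (ι1 ≫ f) g)] [IsIntegral (pullback (ι2 ≫ f) g)]
    [Nonempty ↥(pullback (f1 ≫ ι1 ≫ f) g)] : IsIntegral (pullback f g) := by
  let 𝒰 : X.OpenCover := Scheme.Cover.mkOfCovers Bool (fun b => cond b X1 X2)
    (fun b => match b with
      | true => ι1
      | false => ι2)
    (fun y => by
      rcases hcov y with ⟨x, hx⟩ | ⟨x, hx⟩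
      · exact ⟨true, x, hx⟩
      · exact ⟨false, x, hx⟩)
    (fun b => by
      cases b
      · exact (inferInstance : IsOpenImmersion ι2)
      · exact (inferInstance : IsOpenImmersion ι1))
  let j1 : pullback (ι1 ≫ f) g ⟶ pullback f g :=
    pullback.map (ι1 ≫ f) g f g ι1 (𝟙 T) (𝟙 S) (by simp) (by simp)
  let j2 : pullback (ι2 ≫ f) g ⟶ pullback f g :=
    pullback.map (ι2 ≫ f) g f g ι2 (𝟙 T) (𝟙 S) (by simp) (by simp)
  have hglue' : f1 ≫ ι1 ≫ f = f2 ≫ ι2 ≫ f := by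
    rw [← Category.assoc, hglue, Category.assoc]
  let a1 : pullback (f1 ≫ ι1 ≫ f) g ⟶ pullback (ι1 ≫ f) g :=
    pullback.map _ _ _ _ f1 (𝟙 T) (𝟙 S) (by simp) (by simp)
  let a2 : pullback (f1 ≫ ι1 ≫ f) g ⟶ pullback (ι2 ≫ f) g :=
    pullback.map _ _ _ _ f2 (𝟙 T) (𝟙 S) (by simp [hglue']) (by simp)
  refine isIntegral_of_two j1 j2 ?_ a1 a2 ?_
  · intro y
    obtain ⟨i, x, hx⟩ := (Scheme.Pullback.openCoverOfLeft 𝒰 f g).exists_eq y
    cases i
    · exact Or.inr ⟨x, hx⟩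
    · exact Or.inl ⟨x, hx⟩
  · apply pullback.hom_ext
    · simp only [j1, j2, a1, a2, pullback.map, Category.assoc, pullback.lift_fst,
        pullback.lift_fst_assoc, hglue]
    · simp only [j1, j2, a1, a2, pullback.map, Category.assoc, pullback.lift_snd,
        pullback.lift_snd_assoc]

set_option maxHeartbeats 4000000 in
set_option synthInstance.maxHeartbeats 400000 in
theorem isIntegral_pullback (N : ℕ) [NeZero N] (ℓ : ℕ) [Fact ℓ.Prime]
    (K : Type) [Field K] [Algebra ↥(GaloisRep.ratLocalizedAt ℓ) K]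
    (h1 : IsDomain (↥(chartAlgFin N ℓ) ⊗[↥(GaloisRep.ratLocalizedAt ℓ)] K))
    (h2 : IsDomain (↥(chartAlgInf N ℓ) ⊗[↥(GaloisRep.ratLocalizedAt ℓ)] K))
    (h3 : Nontrivial (↥(chartAlgMid N ℓ) ⊗[↥(GaloisRep.ratLocalizedAt ℓ)] K)) :
    IsIntegral ↑(pullback (igusaTo N ℓ)
      (Spec.map (CommRingCat.ofHom (algebraMap ↥(GaloisRep.ratLocalizedAt ℓ) K)))) := by
  have i1 : IsIntegral (pullback (ιFin N ℓ ≫ igusaTo N ℓ)
      (Spec.map (CommRingCat.ofHom (algebraMap ↥(GaloisRep.ratLocalizedAt ℓ) K)))) := by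
    rw [ιFin_igusaTo]
    have : IsDomain ↑(CommRingCat.of (↥(chartAlgFin N ℓ) ⊗[↥(GaloisRep.ratLocalizedAt ℓ)] K)) := h1
    exact IsIntegral.of_isIso
      (pullbackSpecIso ↥(GaloisRep.ratLocalizedAt ℓ) ↥(chartAlgFin N ℓ) K).inv
  have i2 : IsIntegral (pullback (ιInf N ℓ ≫ igusaTo N ℓ)
      (Spec.map (CommRingCat.ofHom (algebraMap ↥(GaloisRep.ratLocalizedAt ℓ) K)))) := by
    rw [ιInf_igusaTo]
    have : IsDomain ↑(CommRingCat.of (↥(chartAlgInf N ℓ) ⊗[↥(GaloisRep.ratLocalizedAt ℓ)] K)) := h2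
    exact IsIntegral.of_isIso
      (pullbackSpecIso ↥(GaloisRep.ratLocalizedAt ℓ) ↥(chartAlgInf N ℓ) K).inv
  have i3 : Nonempty ↥(pullback (fFin N ℓ ≫ ιFin N ℓ ≫ igusaTo N ℓ)
      (Spec.map (CommRingCat.ofHom (algebraMap ↥(GaloisRep.ratLocalizedAt ℓ) K)))) := by
    have e : fFin N ℓ ≫ ιFin N ℓ ≫ igusaTo N ℓ = Spec.map (CommRingCat.ofHom
        (algebraMap ↥(GaloisRep.ratLocalizedAt ℓ) ↥(chartAlgMid N ℓ))) := by
      rw [ιFin_igusaTo, ← Spec.map_comp, ← CommRingCat.ofHom_comp]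
      congr 2
    rw [e]
    have : Nonempty ↥(Spec (CommRingCat.of
        (↥(chartAlgMid N ℓ) ⊗[↥(GaloisRep.ratLocalizedAt ℓ)] K))) :=
      inferInstanceAs (Nonempty (PrimeSpectrum
        (↥(chartAlgMid N ℓ) ⊗[↥(GaloisRep.ratLocalizedAt ℓ)] K)))
    exact this.map (pullbackSpecIso ↥(GaloisRep.ratLocalizedAt ℓ) ↥(chartAlgMid N ℓ) K).inv
  exact isIntegral_pullback_of_two (igusaTo N ℓ) _ (ιFin N ℓ) (ιInf N ℓ)
    (mem_range_ιFin_or_mem_range_ιInf N ℓ) (fFin N ℓ) (fInf N ℓ) (glue_condition N ℓ)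

end

end Fermat.Agent.S28Aux
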