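import Fermat.Agent.S28.Defs

/-!
# S28: arithmetic identities for the orders of the eta quotient at the cusps
-/

set_option autoImplicit false

open Finset ArithmeticFunction
open scoped ArithmeticFunction.Moebius

namespace Fermat.Agent.S28Aux

/-- Jordan's totient `J₂`, in a form which makes positivity obvious. -/
def jordanTwo (L : ℕ) : ℤ :=
  ∑ x ∈ (L.divisors ×ˢ L.divisors) with Nat.lcm x.1 x.2 = L, (Nat.totient x.1 : ℤ) * Nat.totient x.2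

theorem jordanTwo_pos {L : ℕ} (hL : 0 < L) : 0 < jordanTwo L := by
  unfold jordanTwo
  refine Finset.sum_pos' (fun x _ => by positivity) ⟨(L, L), ?_, ?_⟩
  · simp [hL.ne']
  · have : 0 < Nat.totient L := Nat.totient_pos.mpr hL
    positivity

theorem sum_jordanTwo {n : ℕ} (_hn : 0 < n) : ∑ L ∈ n.divisors, jordanTwo L = (n : ℤ) ^ 2 := by
  have h1 : ∑ x ∈ n.divisors ×ˢ n.divisors, (Nat.totient x.1 : ℤ) * Nat.totient x.2 =
      (n : ℤ) ^ 2 := by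
    have : ∑ i ∈ n.divisors, (Nat.totient i : ℤ) = n := by exact_mod_cast Nat.sum_totient n
    rw [Finset.sum_product]
    simp only []
    rw [← Finset.sum_mul_sum, this]; ring
  rw [← h1, ← Finset.sum_fiberwise_of_maps_to (s := n.divisors ×ˢ n.divisors) (t := n.divisors)
    (g := fun x => Nat.lcm x.1 x.2)]
  · refine Finset.sum_congr rfl fun L hL => ?_
    unfold jordanTwo
    refine Finset.sum_congr ?_ fun _ _ => rfl
    ext ⟨e, e'⟩
    simp only [Finset.mem_filter, Finset.mem_product, Nat.mem_divisors] at hL ⊢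
    constructor
    · rintro ⟨⟨⟨h1, -⟩, ⟨h2, -⟩⟩, h3⟩
      exact ⟨⟨⟨h1.trans hL.1, hL.2⟩, ⟨h2.trans hL.1, hL.2⟩⟩, h3⟩
    · rintro ⟨-, h3⟩
      have hL0 : L ≠ 0 := fun h => hL.2 (by rw [h] at hL; exact Nat.eq_zero_of_zero_dvd hL.1)
      exact ⟨⟨⟨h3 ▸ Nat.dvd_lcm_left e e', hL0⟩, ⟨h3 ▸ Nat.dvd_lcm_right e e', hL0⟩⟩, h3⟩
  · rintro ⟨e, e'⟩ hx
    simp only [Finset.mem_product, Nat.mem_divisors] at hx ⊢
    exact ⟨Nat.lcm_dvd hx.1.1 hx.2.1, hx.1.2⟩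

theorem sum_ite_jordanTwo (c : ℤ) {d : ℕ} (hd : 0 < d) :
    ∑ e ∈ d.divisors, (if (e : ℤ) ∣ c then jordanTwo e else 0) = ((Int.gcd d c : ℕ) : ℤ) ^ 2 := by
  have hg : 0 < Int.gcd d c := Int.gcd_pos_of_ne_zero_left _ (by exact_mod_cast hd.ne')
  rw [← sum_jordanTwo hg, ← Finset.sum_filter]
  refine Finset.sum_congr ?_ fun _ _ => rfl
  ext e
  simp only [Finset.mem_filter, Nat.mem_divisors]
  constructor
  · rintro ⟨⟨h1, -⟩, h2⟩
    exact ⟨Int.natCast_dvd_natCast.mp (Int.dvd_coe_gcd (Int.natCast_dvd_natCast.mpr h1) h2), hg.ne'⟩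
  · rintro ⟨h1, -⟩
    have h2 : (e : ℤ) ∣ (Int.gcd d c : ℕ) := Int.natCast_dvd_natCast.mpr h1
    exact ⟨⟨Int.natCast_dvd_natCast.mp (h2.trans (Int.gcd_dvd_left _ _)), hd.ne'⟩,
      h2.trans (Int.gcd_dvd_right _ _)⟩

/-- `∑_{d ∣ N} μ(N/d) gcd(d,c)² = J₂(N)` if `N ∣ c` and `0` otherwise. -/
theorem sum_moebius_gcd_sq_ite (c : ℤ) {N : ℕ} (hN : 0 < N) :
    ∑ d ∈ N.divisors, (μ (N / d) : ℤ) * ((Int.gcd d c : ℕ) : ℤ) ^ 2 =
      if (N : ℤ) ∣ c then jordanTwo N else 0 := by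
  have h := (sum_eq_iff_sum_mul_moebius_eq (R := ℤ)
    (f := fun e => if (e : ℤ) ∣ c then jordanTwo e else 0)
    (g := fun d => ((Int.gcd d c : ℕ) : ℤ) ^ 2)).mp (fun d hd => sum_ite_jordanTwo c hd) N hN
  rw [← h]
  exact (Nat.sum_divisorsAntidiagonal' (fun a b => ((μ a : ℤ) : ℤ) * ((Int.gcd b c : ℕ) : ℤ) ^ 2)).symm

/-- `∑_{d ∣ N} μ(N/d) d = φ(N)`. -/
theorem sum_moebius_mul_self {N : ℕ} (hN : 0 < N) :
    ∑ d ∈ N.divisors, (μ (N / d) : ℤ) * (d : ℤ) = Nat.totient N := by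
  have h := (sum_eq_iff_sum_mul_moebius_eq (R := ℤ)
    (f := fun e => (Nat.totient e : ℤ)) (g := fun d => (d : ℤ))).mp
    (fun d _ => by exact_mod_cast Nat.sum_totient d) N hN
  rw [← h]
  exact (Nat.sum_divisorsAntidiagonal' (fun a b => ((μ a : ℤ) : ℤ) * (b : ℤ))).symm

/-- `∑_{d ∣ N} μ(N/d) gcd(c,d)² = 0` unless `N ∣ c`. -/
theorem sum_moebius_gcd_sq (N : ℕ) (hN : N ≠ 0) (c : ℤ) (hc : ¬ (N : ℤ) ∣ c) :
    ∑ d ∈ N.divisors, (moebius (N / d) : ℤ) * ((Int.gcd c d : ℕ) : ℤ) ^ 2 = 0 := by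
  have h := sum_moebius_gcd_sq_ite c (Nat.pos_of_ne_zero hN)
  rw [if_neg hc] at h
  rw [← h]
  refine Finset.sum_congr rfl fun d _ => ?_
  rw [Int.gcd_comm]

/-- weight zero: `∑_{d ∣ N} r_d = 0`. -/
theorem sum_rExp (N : ℕ) (hN : N ≠ 0) : ∑ d ∈ N.divisors, rExp N d = 0 := by
  unfold rExp
  rw [Finset.sum_sub_distrib, Finset.sum_ite_eq' N.divisors 1 (fun _ => (Nat.totient N : ℤ)),
    if_pos (by simp [hN]), ← sum_moebius_mul_self (Nat.pos_of_ne_zero hN), sub_eq_zero]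
  exact Finset.sum_congr rfl fun d _ => mul_comm _ _

/-- the order of `g|γ` in `t = q^(1/N)`, for `e d * d = N * gcd(c,d)²`. -/
theorem sum_rExp_mul (N : ℕ) (hN : N ≠ 0) (c : ℤ) (hc : ¬ (N : ℤ) ∣ c) (e : ℕ → ℤ)
    (he : ∀ d ∈ N.divisors, e d * d = N * ((Int.gcd c d : ℕ) : ℤ) ^ 2) :
    ∑ d ∈ N.divisors, rExp N d * e d = N * Nat.totient N := by
  have h1 : (1 : ℕ) ∈ N.divisors := by simp [hN]
  have he1 : e 1 = N := by
    have := he 1 h1
    simpa using this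
  have h2 : ∀ d ∈ N.divisors, rExp N d * e d =
      (if d = 1 then (N : ℤ) * Nat.totient N else 0) -
        N * ((moebius (N / d) : ℤ) * ((Int.gcd c d : ℕ) : ℤ) ^ 2) := by
    intro d hd
    unfold rExp
    have := he d hd
    split_ifs with hd1
    · subst hd1
      rw [he1] at this ⊢
      linear_combination (-(moebius (N / 1) : ℤ)) * this
    · linear_combination (-(moebius (N / d) : ℤ)) * this
  rw [Finset.sum_congr rfl h2, Finset.sum_sub_distrib,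
    Finset.sum_ite_eq' N.divisors 1 (fun _ => (N : ℤ) * Nat.totient N), if_pos h1,
    ← Finset.mul_sum, sum_moebius_gcd_sq N hN c hc, mul_zero, sub_zero]

theorem neg_N_le_rExp (N d : ℕ) (hd : d ∈ N.divisors) : -(N : ℤ) ≤ rExp N d := by
  unfold rExp
  have h1 : (d : ℤ) ≤ N := by exact_mod_cast Nat.divisor_le hd
  have h2 : (moebius (N / d) : ℤ) ≤ 1 := (abs_le.mp (abs_moebius_le_one)).2
  have h3 : (0 : ℤ) ≤ if d = 1 then (Nat.totient N : ℤ) else 0 := by split_ifs <;> positivity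
  have h4 : (d : ℤ) * moebius (N / d) ≤ d * 1 := mul_le_mul_of_nonneg_left h2 (by positivity)
  linarith

end Fermat.Agent.S28Aux
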