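/-
S28 helper library: basic definitions (the eta quotient `g`).
-/
import Mathlib
import Fermat.Prelude.Def_ModularCurve_IgusaScheme
import Fermat.Prelude.Def_ModularCurve_X0ModL

set_option autoImplicit false
set_option linter.unusedSectionVars false
set_option linter.style.haveILetI false

namespace Fermat.Agent.S28Aux

open ModularCurve

noncomputable section

variable (R : Type*) [CommRing R]

/-- power series with integer coefficients, as Laurent series over `R` -/
def psL (p : PowerSeries ℤ) : LaurentSeries R :=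
  HahnSeries.ofPowerSeries ℤ R (p.map (Int.castRingHom R))

theorem psL_mul (p r : PowerSeries ℤ) : psL R (p * r) = psL R p * psL R r := by
  simp [psL]

theorem psL_one : psL R 1 = 1 := by
  simp [psL]

/-- `Δ(q) = q ∏ (1 - q^n)^24` as a unit of `R((q))`. -/
def DeltaU : (LaurentSeries R)ˣ where
  val := HahnSeries.single (1 : ℤ) 1 * psL R dedekindEtaUnit
  inv := HahnSeries.single (-1 : ℤ) 1 * psL R dedekindEtaUnitInv
  val_inv := by
    rw [mul_mul_mul_comm, ← psL_mul, dedekindEtaUnit_mul_inv, psL_one, HahnSeries.single_mul_single]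
    simp
  inv_val := by
    rw [mul_mul_mul_comm, ← psL_mul, mul_comm dedekindEtaUnitInv, dedekindEtaUnit_mul_inv, psL_one,
      HahnSeries.single_mul_single]
    simp

/-- `Δ(q^d)` as a unit of `R((q))` (junk for `d = 0`). -/
def DdU (d : ℕ) : (LaurentSeries R)ˣ :=
  if h : d = 0 then 1 else
    haveI : NeZero d := ⟨h⟩
    Units.map (qExpand R d : LaurentSeries R →* LaurentSeries R) (DeltaU R)

/-- the exponents of the eta quotient: `g = Δ(q)^φ(N) / ∏_{d ∣ N} Δ(q^d)^(d μ(N/d))`. -/
def rExp (N d : ℕ) : ℤ :=
  (if d = 1 then (Nat.totient N : ℤ) else 0) - (d : ℤ) * ArithmeticFunction.moebius (N / d)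

/-- the eta quotient `g = Δ(q)^φ(N) / ∏_{d ∣ N} Δ(q^d)^(d μ(N/d))`: it is a modular unit on
`Γ₀(N)`, with a pole at the cusp `∞` and a zero (of order `φ(N)` in `q`) at all the other cusps. -/
def gU (N : ℕ) : (LaurentSeries R)ˣ := ∏ d ∈ N.divisors, DdU R d ^ rExp N d

variable {R}
variable {S : Type*} [CommRing S]

theorem coeffMap_psL (f : R →+* S) (p : PowerSeries ℤ) : coeffMap f (psL R p) = psL S p := by
  rw [psL, coeffMap_ofPowerSeries, psL]
  congr 1
  ext n
  simp

theorem map_DeltaU (f : R →+* S) :
    Units.map (coeffMap f : LaurentSeries R →* LaurentSeries S) (DeltaU R) = DeltaU S := by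
  ext1
  simp [DeltaU, coeffMap_psL]

theorem map_DdU (f : R →+* S) (d : ℕ) :
    Units.map (coeffMap f : LaurentSeries R →* LaurentSeries S) (DdU R d) = DdU S d := by
  unfold DdU
  split_ifs with h
  · simp
  · haveI : NeZero d := ⟨h⟩
    ext1
    simp only [Units.coe_map, MonoidHom.coe_coe]
    rw [coeffMap_qExpand]
    congr 1
    exact congrArg Units.val (map_DeltaU f)

theorem map_gU (f : R →+* S) (N : ℕ) :
    Units.map (coeffMap f : LaurentSeries R →* LaurentSeries S) (gU R N) = gU S N := by
  simp [gU, map_prod, map_zpow, map_DdU]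

theorem coeffMap_gU (f : R →+* S) (N : ℕ) :
    coeffMap f (gU R N : LaurentSeries R) = (gU S N : LaurentSeries S) :=
  congrArg Units.val (map_gU f N)

end

end Fermat.Agent.S28Aux
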