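/-
S28 helper library (T5a): "nice" Laurent series `κ t^m (1 + …)` with coefficients in a subring.
-/
import Fermat.Agent.S28.Defs

set_option autoImplicit false
set_option linter.unusedSectionVars false

namespace Fermat.Agent.S28Aux

open ModularCurve

noncomputable section

/-- `x = κ t^m u` with `κ ∈ Aˣ`, `u ∈ 1 + t A[[t]]`. -/
def IsNice (A : Subring ℂ) (x : LaurentSeries ℂ) (m : ℤ) : Prop :=
  ∃ (κ : ℂ) (u : PowerSeries ℂ), κ ∈ A ∧ κ⁻¹ ∈ A ∧ κ ≠ 0 ∧ (∀ n, u.coeff n ∈ A) ∧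
    PowerSeries.constantCoeff u = 1 ∧
    x = HahnSeries.single m κ * HahnSeries.ofPowerSeries ℤ ℂ u

variable {A : Subring ℂ}

theorem IsNice.one : IsNice A 1 0 := by
  refine ⟨1, 1, A.one_mem, by simp, one_ne_zero, fun n => ?_, by simp, by simp⟩
  rw [PowerSeries.coeff_one]
  split_ifs
  · exact A.one_mem
  · exact A.zero_mem

theorem IsNice.mul {x y : LaurentSeries ℂ} {m n : ℤ} (hx : IsNice A x m) (hy : IsNice A y n) :
    IsNice A (x * y) (m + n) := by
  obtain ⟨κ, u, h1, h2, h3, h4, h5, rfl⟩ := hx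
  obtain ⟨κ', u', h1', h2', h3', h4', h5', rfl⟩ := hy
  refine ⟨κ * κ', u * u', A.mul_mem h1 h1', ?_, mul_ne_zero h3 h3', fun k => ?_, ?_, ?_⟩
  · rw [mul_inv]
    exact A.mul_mem h2 h2'
  · rw [PowerSeries.coeff_mul]
    exact A.sum_mem fun i _ => A.mul_mem (h4 _) (h4' _)
  · rw [map_mul, h5, h5', one_mul]
  · rw [← HahnSeries.single_mul_single, (HahnSeries.ofPowerSeries ℤ ℂ).map_mul]
    ring

theorem coeff_inv_mem_of_constantCoeff_eq_one {u : PowerSeries ℂ} (h4 : ∀ n, u.coeff n ∈ A)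
    (h5 : PowerSeries.constantCoeff u = 1) : ∀ n, (u⁻¹).coeff n ∈ A := by
  intro n
  induction n using Nat.strong_induction_on with
  | _ n ih =>
    rw [PowerSeries.coeff_inv, h5]
    split_ifs with hn
    · simp
    · simp only [inv_one, neg_mul, one_mul]
      apply A.neg_mem
      apply A.sum_mem
      intro i _
      split_ifs with hi
      · exact A.mul_mem (h4 _) (ih _ hi)
      · exact A.zero_mem

theorem IsNice.inv {x : LaurentSeries ℂ} {m : ℤ} (hx : IsNice A x m) : IsNice A x⁻¹ (-m) := by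
  obtain ⟨κ, u, h1, h2, h3, h4, h5, rfl⟩ := hx
  refine ⟨κ⁻¹, u⁻¹, h2, by rwa [inv_inv], inv_ne_zero h3,
    coeff_inv_mem_of_constantCoeff_eq_one h4 h5, ?_, ?_⟩
  · rw [PowerSeries.constantCoeff_inv, h5, inv_one]
  · symm
    apply eq_inv_of_mul_eq_one_left
    have hu : u⁻¹ * u = 1 := PowerSeries.inv_mul_cancel u (by rw [h5]; exact one_ne_zero)
    calc HahnSeries.single (-m) κ⁻¹ * HahnSeries.ofPowerSeries ℤ ℂ u⁻¹ *
          (HahnSeries.single m κ * HahnSeries.ofPowerSeries ℤ ℂ u)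
        = (HahnSeries.single (-m) κ⁻¹ * HahnSeries.single m κ) *
          (HahnSeries.ofPowerSeries ℤ ℂ u⁻¹ * HahnSeries.ofPowerSeries ℤ ℂ u) := by ring
      _ = 1 := by
        rw [← map_mul, hu, map_one, HahnSeries.single_mul_single, neg_add_cancel,
          inv_mul_cancel₀ h3, mul_one]
        rfl

theorem IsNice.pow {x : LaurentSeries ℂ} {m : ℤ} (hx : IsNice A x m) (r : ℕ) :
    IsNice A (x ^ r) (r * m) := by
  induction r with
  | zero => simpa using IsNice.one
  | succ r ih =>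
    rw [pow_succ]
    have := ih.mul hx
    have e : ((r + 1 : ℕ) : ℤ) * m = r * m + m := by push_cast; ring
    rwa [e]

theorem IsNice.zpow {x : LaurentSeries ℂ} {m : ℤ} (hx : IsNice A x m) (r : ℤ) :
    IsNice A (x ^ r) (r * m) := by
  obtain ⟨n, rfl | rfl⟩ := r.eq_nat_or_neg
  · rw [zpow_natCast]
    exact hx.pow n
  · rw [zpow_neg, zpow_natCast, neg_mul]
    exact (hx.pow n).inv

theorem IsNice.prod {ι : Type*} (s : Finset ι) (x : ι → LaurentSeries ℂ) (m : ι → ℤ)
    (h : ∀ i ∈ s, IsNice A (x i) (m i)) : IsNice A (∏ i ∈ s, x i) (∑ i ∈ s, m i) := by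
  classical
  induction s using Finset.induction_on with
  | empty => simpa using IsNice.one
  | insert a s ha ih =>
    rw [Finset.prod_insert ha, Finset.sum_insert ha]
    exact (h a (Finset.mem_insert_self a s)).mul (ih fun i hi => h i (Finset.mem_insert_of_mem hi))

end

end Fermat.Agent.S28Aux
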