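/-
S28 helper library (T5c): expansions in `t = q^(1/N)` of the conjugates of `Δ(dτ)` and of `g`.
-/
import Fermat.Agent.S28.Nice
import Fermat.Agent.S28.Arith
import Fermat.Agent.S24.ModInf

set_option autoImplicit false
set_option linter.unusedSectionVars false

namespace Fermat.Agent.S28Aux

open UpperHalfPlane ModularForm CongruenceSubgroup ModularCurve
open scoped MatrixGroups Manifold
open Fermat.Agent.DimAux Fermat.Agent.S23Aux Fermat.Agent.S24Aux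

noncomputable section

variable (N : ℕ) [NeZero N]

/-- the expansion of the conjugate `Δ(dτ)|s` in `t = q^(1/N)` -/
def Tsd (s : XN N) (d : ℕ) : LaurentSeries ℂ :=
  PS ((infExpn N).E (cj (Gamma0 N) 12 (rs d discriminant) s))

/-- the expansion of the conjugate `g|s` -/
def gs (s : XN N) : LaurentSeries ℂ := ∏ d ∈ N.divisors, Tsd N s d ^ rExp N d

/-- the base coset -/
def s0 : XN N := ((1 : SL(2, ℤ)) : SL(2, ℤ) ⧸ Gamma0 N)

/-- a twisted series `c ∑ D_n ζ^n t^(e n)` with `D = t + …` is nice of order `e` -/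
theorem isNice_smul_twist (A : Subring ℂ) {D : PowerSeries ℂ} (hD0 : D.coeff 0 = 0)
    (hD1 : D.coeff 1 = 1) (hDA : ∀ n, D.coeff n ∈ A) {e : ℕ} (he : 0 < e) {c ζ : ℂ} (hc : c ∈ A)
    (hc' : c⁻¹ ∈ A) (hc0 : c ≠ 0) (hζ : ζ ∈ A) (hζ' : ζ⁻¹ ∈ A) (hζ0 : ζ ≠ 0) :
    IsNice A (PS (c • twist D e ζ)) e := by
  set u : PowerSeries ℂ :=
    PowerSeries.mk fun m => if e ∣ m then D.coeff (m / e + 1) * ζ ^ (m / e) else 0 with hu
  have hid : c • twist D e ζ = PowerSeries.C (c * ζ) * (PowerSeries.X ^ e * u) := by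
    ext m
    rw [PowerSeries.coeff_smul, PowerSeries.coeff_C_mul, PowerSeries.coeff_X_pow_mul', coeff_twist,
      smul_eq_mul]
    by_cases hme : e ≤ m
    · rw [if_pos hme, hu, PowerSeries.coeff_mk]
      by_cases hdvd : e ∣ m
      · obtain ⟨k, rfl⟩ := hdvd
        have hk : 1 ≤ k := by
          rcases Nat.eq_zero_or_pos k with rfl | hk
          · simp at hme; omega
          · exact hk
        obtain ⟨j, rfl⟩ : ∃ j, k = j + 1 := ⟨k - 1, by omega⟩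
        have e1 : e * (j + 1) - e = e * j := by rw [mul_add, mul_one, Nat.add_sub_cancel]
        rw [if_pos (dvd_mul_right e _), e1, if_pos (dvd_mul_right e _),
          Nat.mul_div_cancel_left _ he, Nat.mul_div_cancel_left _ he, pow_succ]
        ring
      · have : ¬ e ∣ m - e := fun h => hdvd ((Nat.dvd_sub_iff_left hme (dvd_refl e)).1 h)
        rw [if_neg hdvd, if_neg this]
        simp
    · rw [if_neg hme]
      by_cases hdvd : e ∣ m
      · have hm0 : m = 0 := Nat.eq_zero_of_dvd_of_lt hdvd (not_le.1 hme)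
        rw [if_pos hdvd, hm0]
        simp [hD0]
      · rw [if_neg hdvd]
        simp
  refine ⟨c * ζ, u, A.mul_mem hc hζ, by rw [mul_inv]; exact A.mul_mem hc' hζ',
    mul_ne_zero hc0 hζ0, fun n => ?_, ?_, ?_⟩
  · rw [hu, PowerSeries.coeff_mk]
    split_ifs
    · exact A.mul_mem (hDA _) (A.pow_mem hζ _)
    · exact A.zero_mem
  · rw [← PowerSeries.coeff_zero_eq_constantCoeff_apply, hu, PowerSeries.coeff_mk,
      if_pos (dvd_zero e)]
    simp [hD1]
  · rw [hid]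
    show HahnSeries.ofPowerSeries ℤ ℂ _ = _
    rw [(HahnSeries.ofPowerSeries ℤ ℂ).map_mul, (HahnSeries.ofPowerSeries ℤ ℂ).map_mul,
      HahnSeries.ofPowerSeries_C, HahnSeries.ofPowerSeries_X_pow, ← mul_assoc, HahnSeries.C_apply,
      HahnSeries.single_mul_single]
    simp

/-- the invariant `a` of the Hermite decomposition is a gcd -/
theorem gcd_eq_of_decomp {d a d' : ℕ} {γ γ' : SL(2, ℤ)} (had : a * d' = d)
    (h00 : (d : ℤ) * γ 0 0 = γ' 0 0 * a) (h10 : γ 1 0 = γ' 1 0 * a) : Int.gcd (γ 1 0) d = a := by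
  have hdet' : γ' 0 0 * γ' 1 1 - γ' 0 1 * γ' 1 0 = 1 := by
    have := γ'.det_coe
    rwa [Matrix.det_fin_two] at this
  apply Nat.dvd_antisymm
  · -- `g ∣ a`
    have h1 : ((Int.gcd (γ 1 0) d : ℕ) : ℤ) ∣ γ 1 0 := Int.gcd_dvd_left _ _
    have h2 : ((Int.gcd (γ 1 0) d : ℕ) : ℤ) ∣ (d : ℤ) := Int.gcd_dvd_right _ _
    have h3 : ((Int.gcd (γ 1 0) d : ℕ) : ℤ) ∣ (a : ℤ) := by
      have e : (a : ℤ) = γ' 1 1 * ((d : ℤ) * γ 0 0) - γ' 0 1 * γ 1 0 := by
        rw [h00, h10]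
        linear_combination (-(a : ℤ)) * hdet'
      rw [e]
      exact dvd_sub (Dvd.dvd.mul_left (Dvd.dvd.mul_right h2 _) _) (Dvd.dvd.mul_left h1 _)
    exact_mod_cast h3
  · apply Nat.dvd_gcd
    · rw [h10, Int.natAbs_mul, Int.natAbs_natCast]
      exact dvd_mul_left _ _
    · rw [Int.natAbs_natCast, ← had]
      exact dvd_mul_right _ _

theorem coeff_D_mem (A : Subring ℂ) (n : ℕ) : (qExpansion 1 discriminant).coeff n ∈ A := by
  rw [qExpansion_discriminant, PowerSeries.coeff_map]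
  exact intCast_mem A _

theorem coeff_D_zero : (qExpansion 1 discriminant).coeff 0 = 0 := by
  rw [qExpansion_discriminant, PowerSeries.coeff_map, PowerSeries.coeff_zero_X_mul, map_zero]

theorem coeff_D_one : (qExpansion 1 discriminant).coeff 1 = 1 := by
  rw [qExpansion_discriminant, PowerSeries.coeff_map,
    show (1 : ℕ) = 0 + 1 from rfl, PowerSeries.coeff_succ_X_mul,
    PowerSeries.coeff_zero_eq_constantCoeff_apply]
  have := constantCoeff_dedekindEtaUnit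
  rw [dedekindEtaUnit] at this
  rw [this, map_one]

/-- the expansion of `Δ(dτ)|γ` in `t = q^(1/N)` -/
theorem hasQExp_rs_slash {d : ℕ} (hd : d ∣ N) (γ : SL(2, ℤ)) :
    ∃ (d' e : ℕ) (ζ : ℂ), d' ∣ N ∧ 0 < d' ∧ 0 < e ∧ ζ ^ d' = 1 ∧
      (e : ℤ) * d = N * ((Int.gcd (γ 1 0) d : ℕ) : ℤ) ^ 2 ∧
      HasQExp (N : ℝ) (rs d discriminant ∣[(12 : ℤ)] γ)
        (((d' : ℂ) ^ (-(12 : ℤ))) • twist (qExpansion 1 discriminant) e ζ) := by
  have hN0 : 0 < N := Nat.pos_of_ne_zero (NeZero.ne N)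
  have hd0 : d ≠ 0 := fun h => NeZero.ne N (by rw [h] at hd; exact Nat.eq_zero_of_zero_dvd hd)
  haveI : NeZero d := ⟨hd0⟩
  obtain ⟨γ', a, d', b, had', had, h, -⟩ := exists_decomp d (N_mul_one_ne_zero d) γ
  have ha : 0 < a := Nat.pos_of_ne_zero fun h0 => had' (by simp [h0])
  have hd' : 0 < d' := Nat.pos_of_ne_zero fun h0 => had' (by simp [h0])
  have e00 : (d : ℝ) * (γ 0 0 : ℝ) = (γ' 0 0 : ℝ) * a := by
    have := congr_arg (fun M : GL (Fin 2) ℝ => M 0 0) h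
    simpa [upperT, Matrix.GeneralLinearGroup.mkOfDetNeZero, Matrix.mul_apply,
      Fin.sum_univ_two] using this
  have e10 : (γ 1 0 : ℝ) = (γ' 1 0 : ℝ) * a := by
    have := congr_arg (fun M : GL (Fin 2) ℝ => M 1 0) h
    simpa [upperT, Matrix.GeneralLinearGroup.mkOfDetNeZero, Matrix.mul_apply,
      Fin.sum_univ_two] using this
  have hgcd : Int.gcd (γ 1 0) d = a :=
    gcd_eq_of_decomp had (by exact_mod_cast e00) (by exact_mod_cast e10)
  have hd'N : d' ∣ N := (Dvd.intro_left a had).trans hd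
  set G : ModularForm 𝒮ℒ 12 := toMF1 (SFun_le_MFun Delta_mem) with hG
  have hGc : (G : ℍ → ℂ) = discriminant := coe_toMF1 _
  have hrs : rs d discriminant = raiseFun d G := by rw [← rs_eq_raiseFun, hGc]
  have he : a * (N / d') * d' = a * N := by rw [mul_assoc, Nat.div_mul_cancel hd'N]
  refine ⟨d', a * (N / d'), Complex.exp (2 * Real.pi * Complex.I * b / d'), hd'N, hd',
    Nat.mul_pos ha (Nat.div_pos (Nat.le_of_dvd hN0 hd'N) hd'), ?_, ?_, ?_⟩
  · rw [← Complex.exp_nat_mul]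
    have hd'' : (d' : ℂ) ≠ 0 := by exact_mod_cast hd'.ne'
    have : (d' : ℂ) * (2 * Real.pi * Complex.I * b / d') = b * (2 * Real.pi * Complex.I) := by
      field_simp
    rw [this, Complex.exp_int_mul_two_pi_mul_I]
  · rw [hgcd, ← had]
    have : ((a * (N / d') * d' : ℕ) : ℤ) = ((a * N : ℕ) : ℤ) := by rw [he]
    push_cast at this ⊢
    linear_combination (a : ℤ) * this
  · rw [hrs, raiseFun_slash d G γ γ' a d' b had' h]
    have h1 := ((hasQExp_levelOne G).slash_upperT 12 a d' b had' N (a * (N / d')) hN0 he).smul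
      ((d : ℂ) ^ ((1 : ℤ) - 12))
    rw [smul_smul, const_simp d a d' had, hGc] at h1
    exact h1

variable (A : Subring ℂ) (hA1 : ∀ (ζ : ℂ) (n : ℕ), 0 < n → ζ ^ n = 1 → ζ ∈ A)
  (hA2 : ∀ d : ℕ, d ∣ N → ((d : ℂ))⁻¹ ∈ A)

include hA1 hA2 in
/-- `Δ(dτ)|γ = d'^(-12) Δ((aτ+b)/d')`, `a = gcd(c,d)`, `a d' = d`, has the expansion
`d'^(-12) ζ t^e (1 + …)`, `e = a N / d' = N gcd(c,d)² / d`. -/
theorem isNice_Tsd (s : XN N) (d : ℕ) (hd : d ∣ N) :
    ∃ e : ℕ, (e : ℤ) * d = N * ((Int.gcd (((Quotient.out s : SL(2, ℤ))⁻¹ : SL(2, ℤ)) 1 0) d : ℕ) : ℤ) ^ 2 ∧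
      IsNice A (Tsd N s d) e := by
  obtain ⟨d', e, ζ, hd'N, hd', he, hζ, hed, H⟩ :=
    hasQExp_rs_slash N hd ((Quotient.out s : SL(2, ℤ))⁻¹)
  refine ⟨e, hed, ?_⟩
  have hT : Tsd N s d = PS (((d' : ℂ) ^ (-(12 : ℤ))) • twist (qExpansion 1 discriminant) e ζ) := by
    rw [Tsd, infExpn_E]
    congr 1
    exact H.qExpansion_eq (N_pos' N)
  rw [hT]
  have hd'' : (d' : ℂ) ≠ 0 := by exact_mod_cast hd'.ne'
  have hζ0 : ζ ≠ 0 := by
    intro h0
    rw [h0, zero_pow hd'.ne'] at hζ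
    exact zero_ne_one hζ
  refine isNice_smul_twist A coeff_D_zero coeff_D_one (coeff_D_mem A) he ?_ ?_
    (zpow_ne_zero _ hd'') (hA1 ζ d' hd' hζ) (hA1 ζ⁻¹ d' hd' (by rw [inv_pow, hζ, inv_one])) hζ0
  · rw [zpow_neg, ← inv_zpow]
    exact A.pow_mem (hA2 d' hd'N) 12
  · rw [zpow_neg, inv_inv]
    exact A.pow_mem (natCast_mem A d') 12

theorem not_dvd_of_ne_s0 {s : XN N} (hs : s ≠ s0 N) :
    ¬ (N : ℤ) ∣ ((Quotient.out s : SL(2, ℤ))⁻¹ : SL(2, ℤ)) 1 0 := by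
  intro h
  apply hs
  have hmem : (Quotient.out s : SL(2, ℤ))⁻¹ ∈ Gamma0 N := by
    rw [Gamma0_mem, ZMod.intCast_zmod_eq_zero_iff_dvd]
    exact h
  rw [s0, ← QuotientGroup.out_eq' s, QuotientGroup.eq, mul_one]
  exact hmem

include hA1 hA2 in
theorem isNice_gs (s : XN N) : ∃ m : ℤ, IsNice A (gs N s) m ∧ (s ≠ s0 N → 0 < m) := by
  classical
  have h := fun d (hd : d ∈ N.divisors) =>
    isNice_Tsd N A hA1 hA2 s d (Nat.dvd_of_mem_divisors hd)
  choose! e he using h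
  refine ⟨∑ d ∈ N.divisors, rExp N d * e d, ?_, ?_⟩
  · exact IsNice.prod _ _ _ fun d hd => ((he d hd).2).zpow (rExp N d)
  · intro hs
    rw [sum_rExp_mul N (NeZero.ne N) _ (not_dvd_of_ne_s0 N hs) (fun d => (e d : ℤ))
      (fun d hd => (he d hd).1)]
    have h1 : 0 < N := Nat.pos_of_ne_zero (NeZero.ne N)
    have h2 : 0 < Nat.totient N := Nat.totient_pos.2 h1
    positivity

theorem PS_D_eq : PS (qExpansion 1 discriminant) = (DeltaU ℂ : LaurentSeries ℂ) := by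
  rw [qExpansion_discriminant]
  show HahnSeries.ofPowerSeries ℤ ℂ _ = HahnSeries.single (1 : ℤ) 1 * psL ℂ dedekindEtaUnit
  rw [(PowerSeries.map (Int.castRingHom ℂ)).map_mul, (HahnSeries.ofPowerSeries ℤ ℂ).map_mul,
    PowerSeries.map_X, HahnSeries.ofPowerSeries_X]
  rfl

theorem Tsd_s0 {d : ℕ} (hd : d ∣ N) :
    Tsd N (s0 N) d = qExpand ℂ N (DdU ℂ d : LaurentSeries ℂ) := by
  have hd0 : d ≠ 0 := fun h => NeZero.ne N (by rw [h] at hd; exact Nat.eq_zero_of_zero_dvd hd)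
  haveI : NeZero d := ⟨hd0⟩
  rw [Tsd, infExpn_E, s0, cj_one (rs_mem_MFun hd (SFun_le_MFun Delta_mem)).2.1,
    (HasQExp.toN N (hasQExp_rs_discriminant hd0)).qExpansion_eq (N_pos' N)]
  show HahnSeries.ofPowerSeries ℤ ℂ _ = _
  rw [ofPowerSeries_twist, ofPowerSeries_twist]
  congr 1
  rw [DdU, dif_neg hd0]
  show _ = qExpand ℂ d (DeltaU ℂ : LaurentSeries ℂ)
  rw [← PS_D_eq]

theorem gs_s0 : gs N (s0 N) = qExpand ℂ N (gU ℂ N : LaurentSeries ℂ) := by
  rw [gs, gU, Units.coe_prod, map_prod]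
  refine Finset.prod_congr rfl fun d hd => ?_
  rw [Tsd_s0 N (Nat.dvd_of_mem_divisors hd), Units.val_zpow_eq_zpow_val, map_zpow₀]

end

end Fermat.Agent.S28Aux
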