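/-
S28 helper library (T4): `∏_s (U - g|s)` has coefficients in `ℂ[j]`.
-/
import Fermat.Agent.S28.Expansion
import Fermat.Agent.S24.Final

set_option autoImplicit false
set_option linter.unusedSectionVars false

namespace Fermat.Agent.S28Aux

open UpperHalfPlane ModularForm CongruenceSubgroup ModularCurve Polynomial
open scoped MatrixGroups Manifold
open Fermat.Agent.DimAux Fermat.Agent.S23Aux Fermat.Agent.S24Aux

noncomputable section

namespace CP

/-! ### products of conjugates -/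

theorem prod_slash_SL {ι : Type*} (s : Finset ι) (F : ι → ℍ → ℂ) (k : ℤ) (γ : SL(2, ℤ)) :
    (∏ i ∈ s, F i) ∣[k * s.card] γ = ∏ i ∈ s, (F i ∣[k] γ) := by
  classical
  induction s using Finset.induction_on with
  | empty =>
    simp only [Finset.prod_empty, Finset.card_empty, Nat.cast_zero, mul_zero]
    exact (one_mem_MFun (Γ := ⊤)).2.1 γ (Subgroup.mem_top _)
  | insert a s ha ih =>
    rw [Finset.prod_insert ha, Finset.prod_insert ha, Finset.card_insert_of_notMem ha, ← ih,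
      ← mul_slash_SL2]
    congr 1
    push_cast
    ring

theorem isBoundedAtImInfty_prod {ι : Type*} (s : Finset ι) (F : ι → ℍ → ℂ)
    (h : ∀ i ∈ s, IsBoundedAtImInfty (F i)) : IsBoundedAtImInfty (∏ i ∈ s, F i) := by
  classical
  induction s using Finset.induction_on with
  | empty => simpa using bdd_of_mem (one_mem_MFun (Γ := ⊤))
  | insert a s ha ih =>
    rw [Finset.prod_insert ha]
    exact (h a (Finset.mem_insert_self a s)).mul
      (ih fun i hi => h i (Finset.mem_insert_of_mem hi))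

theorem mdiff_prod {ι : Type*} (s : Finset ι) (F : ι → ℍ → ℂ)
    (h : ∀ i ∈ s, MDiff (F i)) : MDiff (∏ i ∈ s, F i) := by
  classical
  induction s using Finset.induction_on with
  | empty => simpa using (one_mem_MFun (Γ := ⊤)).1
  | insert a s ha ih =>
    rw [Finset.prod_insert ha]
    exact (h a (Finset.mem_insert_self a s)).mul
      (ih fun i hi => h i (Finset.mem_insert_of_mem hi))

/-- the norm of a modular form is a modular form of level one -/
theorem prod_cj_mem {Γ : Subgroup SL(2, ℤ)} [Fintype (SL(2, ℤ) ⧸ Γ)] {k : ℤ} {f : ℍ → ℂ}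
    (hf : f ∈ MFun Γ k) :
    ∏ s : SL(2, ℤ) ⧸ Γ, cj Γ k f s ∈ MFun ⊤ (k * Fintype.card (SL(2, ℤ) ⧸ Γ)) := by
  have hinv : ∀ γ : SL(2, ℤ), (∏ s : SL(2, ℤ) ⧸ Γ, cj Γ k f s) ∣[k * Fintype.card (SL(2, ℤ) ⧸ Γ)] γ
      = ∏ s : SL(2, ℤ) ⧸ Γ, cj Γ k f s := by
    intro γ
    rw [← Finset.card_univ, prod_slash_SL]
    simp only [cj_slash hf.2.1]
    exact Equiv.prod_comp (MulAction.toPerm γ⁻¹) (fun s => cj Γ k f s)
  refine ⟨mdiff_prod _ _ fun s _ => cj_mdiff hf s, fun γ _ => hinv γ, fun γ => ?_⟩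
  rw [hinv]
  exact isBoundedAtImInfty_prod _ _ fun s _ => cj_bdd hf s

theorem prod_mem_MFun' {Γ : Subgroup SL(2, ℤ)} {ι : Type*} (s : Finset ι) (f : ι → ℍ → ℂ)
    (k : ι → ℤ) (h : ∀ i ∈ s, f i ∈ MFun Γ (k i)) : ∏ i ∈ s, f i ∈ MFun Γ (∑ i ∈ s, k i) := by
  classical
  induction s using Finset.induction_on with
  | empty => simpa using one_mem_MFun
  | insert a s ha ih =>
    rw [Finset.prod_insert ha, Finset.sum_insert ha]
    exact mul_mem_MFun (h a (Finset.mem_insert_self a s))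
      (ih fun i hi => h i (Finset.mem_insert_of_mem hi))

theorem cj_prod {Γ : Subgroup SL(2, ℤ)} {ι : Type*} (t : Finset ι) (k : ι → ℤ) (f : ι → ℍ → ℂ)
    (x : SL(2, ℤ) ⧸ Γ) :
    cj Γ (∑ i ∈ t, k i) (∏ i ∈ t, f i) x = ∏ i ∈ t, cj Γ (k i) (f i) x := by
  classical
  induction t using Finset.induction_on with
  | empty =>
    simp only [Finset.prod_empty, Finset.sum_empty]
    exact cj_const 1 x
  | insert a s ha ih =>
    rw [Finset.prod_insert ha, Finset.sum_insert ha, Finset.prod_insert ha, cj_mul, ih]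

theorem Expn_H_prod {N : ℕ} (P : Expn N) {ι : Type*} (t : Finset ι) (f : ι → ℍ → ℂ)
    (h : ∀ i ∈ t, P.H (f i)) : P.H (∏ i ∈ t, f i) := by
  classical
  induction t using Finset.induction_on with
  | empty => rw [Finset.prod_empty]; exact P.H_const 1
  | insert a s ha ih =>
    rw [Finset.prod_insert ha]
    exact P.H_mul _ _ (h a (Finset.mem_insert_self a s))
      (ih fun i hi => h i (Finset.mem_insert_of_mem hi))

theorem Expn_E_prod {N : ℕ} (P : Expn N) {ι : Type*} (t : Finset ι) (f : ι → ℍ → ℂ)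
    (h : ∀ i ∈ t, P.H (f i)) : P.E (∏ i ∈ t, f i) = ∏ i ∈ t, P.E (f i) := by
  classical
  induction t using Finset.induction_on with
  | empty =>
    rw [Finset.prod_empty, Finset.prod_empty]
    have := P.E_const 1
    rw [map_one] at this
    exact this
  | insert a s ha ih =>
    rw [Finset.prod_insert ha, Finset.prod_insert ha,
      P.E_mul _ _ (h a (Finset.mem_insert_self a s))
        (Expn_H_prod P s f fun i hi => h i (Finset.mem_insert_of_mem hi)),
      ih fun i hi => h i (Finset.mem_insert_of_mem hi)]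

theorem Expn_H_smul {N : ℕ} (P : Expn N) (c : ℂ) {f : ℍ → ℂ} (hf : P.H f) : P.H (c • f) :=
  P.H_mul _ _ (P.H_const c) hf

theorem Expn_E_smul {N : ℕ} (P : Expn N) (c : ℂ) {f : ℍ → ℂ} (hf : P.H f) :
    P.E (c • f) = PowerSeries.C c * P.E f := by
  have : c • f = (fun _ => c) * f := rfl
  rw [this, P.E_mul _ _ (P.H_const c) hf, P.E_const]

/-! ### interpolation -/

theorem mem_of_forall_sum_smul_mem {V : Type*} [AddCommGroup V] [Module ℂ V] (M : Submodule ℂ V)
    (n : ℕ) (q : ℕ → V) (h : ∀ u : ℂ, ∑ k ∈ Finset.range n, u ^ k • q k ∈ M) :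
    ∀ k < n, q k ∈ M := by
  intro k hk
  rw [← Submodule.Quotient.mk_eq_zero, ← Module.forall_dual_apply_eq_zero_iff ℂ]
  intro φ
  set p : ℂ[X] := ∑ i ∈ Finset.range n, Polynomial.monomial i (φ (Submodule.Quotient.mk (q i)))
    with hp
  have hp0 : p = 0 := by
    apply Polynomial.funext
    intro u
    have h1 := (Submodule.Quotient.mk_eq_zero M).2 (h u)
    have h2 := congrArg φ h1
    rw [map_zero] at h2
    rw [Polynomial.eval_zero, ← h2, hp, Polynomial.eval_finsetSum]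
    have h3 : (Submodule.Quotient.mk (∑ k ∈ Finset.range n, u ^ k • q k) : V ⧸ M) =
        ∑ k ∈ Finset.range n, u ^ k • (Submodule.Quotient.mk (q k) : V ⧸ M) := by
      rw [← Submodule.mkQ_apply, map_sum]
      rfl
    rw [h3, map_sum]
    apply Finset.sum_congr rfl
    intro i _
    rw [Polynomial.eval_monomial, map_smul, smul_eq_mul, mul_comm]
  have h4 := congrArg (fun r => Polynomial.coeff r k) hp0
  simp only [hp, Polynomial.finsetSum_coeff, Polynomial.coeff_monomial, Polynomial.coeff_zero]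
    at h4
  rw [Finset.sum_ite_eq' (Finset.range n) k, if_pos (Finset.mem_range.2 hk)] at h4
  exact h4


variable (N : ℕ) [NeZero N]

/-- the expansion of `Δ` in `t = q^(1/N)` -/
def dT : LaurentSeries ℂ := PS ((infExpn N).E discriminant)

/-- the expansion of `j` in `t = q^(1/N)` -/
def jT : LaurentSeries ℂ := qExpand ℂ N (jqModC ℂ)

theorem dT_ne_zero : dT N ≠ 0 := fun h =>
  E_discriminant_ne_zero (infExpn N) (PS_injective (h.trans PS_zero.symm))

theorem E4_cube_eq : PS ((infExpn N).E E₄) ^ 3 = jT N * dT N := by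
  have h1 : HasQExp 1 (E₄ : ℍ → ℂ) (qExpansion 1 E₄) := hasQExp_levelOne E₄
  have h2 : HasQExp 1 (discriminant : ℍ → ℂ) (qExpansion 1 discriminant) :=
    HasQExp.of_periodic one_pos (by exact_mod_cast RFun_periodic (SFun_le_MFun Delta_mem))
      Delta_mem.1 (bdd_of_mem (SFun_le_MFun Delta_mem))
  have h3 : coeffEmb ℂ (qExpand ℚ N jq) = jT N := by
    rw [jT, coeffEmb, coeffMap_qExpand, ← jqModC_rat, coeffMap_jqModC]
  rw [dT, infExpn_E, infExpn_E, (HasQExp.toN N h1).qExpansion_eq (N_pos' N),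
    (HasQExp.toN N h2).qExpansion_eq (N_pos' N), ← h3]
  exact jq_rel_twist N

theorem PS_C_eq (c : ℂ) : PS (PowerSeries.C c) = algebraMap ℂ (LaurentSeries ℂ) c := by
  rw [algebraMap_laurent_eq_single]
  exact HahnSeries.ofPowerSeries_C _

/-- a modular form of level one and weight `12 L` is `Δ^L p(j)`. -/
theorem exists_poly_of_levelOne (L : ℕ) : ∀ f : ℍ → ℂ, f ∈ RFun (12 * (L : ℤ)) →
    ∃ p : ℂ[X], (∀ τ, f τ = discriminant τ ^ L * p.eval (jFun τ)) ∧
      PS ((infExpn N).E f) = dT N ^ L * aeval (jT N) p := by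
  induction L with
  | zero =>
    intro f hf
    obtain ⟨c, rfl⟩ := RFun_zero_const (MFun_cast (by simp) hf)
    refine ⟨C c, fun τ => by simp, ?_⟩
    rw [(infExpn N).E_const, PS_C_eq]
    simp
  | succ L ih =>
    intro f hf
    have hE : (E₄ : ℍ → ℂ) ^ (3 * (L + 1)) ∈ RFun (12 * ((L + 1 : ℕ) : ℤ)) :=
      MFun_cast (by push_cast; ring) (pow_mem_MFun E4_mem (3 * (L + 1)))
    set c := vInf f with hc
    set g : ℍ → ℂ := f - c • (E₄ : ℍ → ℂ) ^ (3 * (L + 1)) with hg
    have hgm : g ∈ RFun (12 * ((L + 1 : ℕ) : ℤ)) :=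
      Submodule.sub_mem _ hf (Submodule.smul_mem _ _ hE)
    have hg0 : vInf g = 0 := by
      have h1 := tendsto_vInf hgm
      have h2 : Filter.Tendsto g atImInfty (nhds (c - c • (1 : ℂ) ^ (3 * (L + 1)))) :=
        (tendsto_vInf hf).sub ((tendsto_E4.pow (3 * (L + 1))).const_smul c)
      have h3 := tendsto_nhds_unique h1 h2
      rw [h3]
      simp
    have hgS := mem_SFun_top_of_vInf hgm hg0
    have hq : g / discriminant ∈ RFun (12 * (L : ℤ)) :=
      MFun_cast (by push_cast; ring) (levelOne_div_Delta hgS)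
    obtain ⟨p, hp1, hp2⟩ := ih _ hq
    have hfe : f = c • (E₄ : ℍ → ℂ) ^ (3 * (L + 1)) + discriminant * (g / discriminant) := by
      rw [mul_div_Delta, hg]
      ring
    refine ⟨C c * X ^ (L + 1) + p, fun τ => ?_, ?_⟩
    · have h1 := congrFun hfe τ
      simp only [Pi.add_apply, Pi.smul_apply, Pi.mul_apply, Pi.pow_apply, smul_eq_mul] at h1
      rw [h1, hp1 τ]
      simp only [eval_add, eval_mul, eval_C, eval_pow, eval_X]
      rw [jFun_apply, div_pow, pow_mul]
      have := discriminant_ne_zero τ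
      field_simp
      ring
    · have H4 : (infExpn N).H E₄ := (infExpn N).H_levelOne E4_mem
      have HD : (infExpn N).H discriminant := (infExpn N).H_levelOne (SFun_le_MFun Delta_mem)
      have Hq : (infExpn N).H (g / discriminant) := (infExpn N).H_levelOne hq
      have H4p := (infExpn N).H_pow H4 (3 * (L + 1))
      rw [hfe, (infExpn N).E_add _ _ (Expn_H_smul _ c H4p) ((infExpn N).H_mul _ _ HD Hq),
        Expn_E_smul _ c H4p, (infExpn N).E_pow H4, (infExpn N).E_mul _ _ HD Hq, PS_add, PS_mul,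
        PS_mul, PS_pow, hp2, PS_C_eq, pow_mul, E4_cube_eq]
      simp only [map_add, map_mul, aeval_C, map_pow, aeval_X]
      rw [← dT]
      ring


/-! ### numerator and denominator of `g` -/

/-- the exponents, shifted by `N` -/
def aExp (d : ℕ) : ℕ := (rExp N d + N).toNat

theorem aExp_cast {d : ℕ} (hd : d ∈ N.divisors) : (aExp N d : ℤ) = rExp N d + N :=
  Int.toNat_of_nonneg (by have := neg_N_le_rExp N d hd; omega)

/-- the numerator of `g` -/
def nuF : ℍ → ℂ := ∏ d ∈ N.divisors, rs d discriminant ^ aExp N d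

theorem sum_aExp : ∑ d ∈ N.divisors, 12 * (aExp N d : ℤ) = kB N * N := by
  rw [← Finset.mul_sum, Finset.sum_congr rfl fun d hd => aExp_cast N hd, Finset.sum_add_distrib,
    sum_rExp N (NeZero.ne N), Finset.sum_const, kB]
  simp
  ring

theorem rsD_mem {d : ℕ} (hd : d ∈ N.divisors) : rs d discriminant ∈ MFun (Gamma0 N) 12 :=
  rs_mem_MFun (Nat.dvd_of_mem_divisors hd) (SFun_le_MFun Delta_mem)

theorem nuF_mem : nuF N ∈ MFun (Gamma0 N) (kB N * N) := by
  rw [← sum_aExp]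
  exact prod_mem_MFun' _ _ _ fun d hd => MFun_cast (mul_comm _ _) (pow_mem_MFun (rsD_mem N hd) _)

theorem betaF_mem : Bf N ^ N ∈ MFun (Gamma0 N) (kB N * N) :=
  MFun_cast (mul_comm _ _) (pow_mem_MFun Bf_mem N)

theorem H_cj_rsD (s : XN N) {d : ℕ} (hd : d ∈ N.divisors) :
    (infExpn N).H (cj (Gamma0 N) 12 (rs d discriminant) s) :=
  (infExpn N).H_cj _ _ (rsD_mem N hd) s

theorem PS_E_cj_nuF (s : XN N) : PS ((infExpn N).E (cj (Gamma0 N) (kB N * N) (nuF N) s)) =
    ∏ d ∈ N.divisors, Tsd N s d ^ aExp N d := by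
  rw [cj_congr_weight (sum_aExp N).symm, nuF, cj_prod]
  simp only [cj_pow]
  rw [Expn_E_prod _ _ _ fun d hd => (infExpn N).H_pow (H_cj_rsD N s hd) _, PS_prod]
  apply Finset.prod_congr rfl
  intro d hd
  rw [(infExpn N).E_pow (H_cj_rsD N s hd), PS_pow, Tsd]

theorem PS_E_cj_Bf (s : XN N) : PS ((infExpn N).E (cj (Gamma0 N) (kB N) (Bf N) s)) =
    ∏ d ∈ N.divisors, Tsd N s d := by
  have h : kB N = ∑ d ∈ N.divisors, (12 : ℤ) := by
    rw [Finset.sum_const, kB]
    simp
    ring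
  rw [cj_congr_weight h, Bf, cj_prod, Expn_E_prod _ _ _ fun d hd => H_cj_rsD N s hd, PS_prod]
  rfl

theorem PS_E_cj_betaF (s : XN N) : PS ((infExpn N).E (cj (Gamma0 N) (kB N * N) (Bf N ^ N) s)) =
    ∏ d ∈ N.divisors, Tsd N s d ^ N := by
  rw [cj_pow, (infExpn N).E_pow ((infExpn N).H_cj _ _ Bf_mem s), PS_pow, PS_E_cj_Bf,
    Finset.prod_pow]

theorem Tsd_ne_zero (s : XN N) {d : ℕ} (hd : d ∈ N.divisors) : Tsd N s d ≠ 0 := by
  intro h
  have h1 : (infExpn N).E (cj (Gamma0 N) 12 (rs d discriminant) s) = 0 :=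
    PS_injective (h.trans PS_zero.symm)
  have h2 := cj_eq_zero ((infExpn N).E_inj _ (H_cj_rsD N s hd) h1)
  have h3 := congrFun h2 UpperHalfPlane.I
  exact discriminant_ne_zero _ h3

theorem gs_eq_div (s : XN N) : gs N s =
    PS ((infExpn N).E (cj (Gamma0 N) (kB N * N) (nuF N) s)) /
      PS ((infExpn N).E (cj (Gamma0 N) (kB N * N) (Bf N ^ N) s)) := by
  rw [PS_E_cj_nuF, PS_E_cj_betaF, ← Finset.prod_div_distrib, gs]
  apply Finset.prod_congr rfl
  intro d hd
  have h : rExp N d = (aExp N d : ℤ) - (N : ℤ) := by rw [aExp_cast N hd]; ring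
  rw [h, zpow_sub₀ (Tsd_ne_zero N s hd), zpow_natCast, zpow_natCast]

theorem PS_E_cj_betaF_ne_zero (s : XN N) :
    PS ((infExpn N).E (cj (Gamma0 N) (kB N * N) (Bf N ^ N) s)) ≠ 0 := by
  rw [PS_E_cj_betaF]
  exact Finset.prod_ne_zero_iff.2 fun d hd => pow_ne_zero _ (Tsd_ne_zero N s hd)

/-- the exponent of `Δ` in the norm -/
def Lexp : ℕ := N.divisors.card * N * Fintype.card (XN N)

theorem weight_eq : kB N * N * (Fintype.card (XN N) : ℤ) = 12 * (Lexp N : ℤ) := by
  rw [kB, Lexp]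
  push_cast
  ring

/-- the norm of a form of weight `kB N * N`, as a series -/
theorem exists_poly_norm {F : ℍ → ℂ} (hF : F ∈ MFun (Gamma0 N) (kB N * N)) :
    ∃ p : ℂ[X], (∀ τ, (∏ s : XN N, cj (Gamma0 N) (kB N * N) F s) τ =
        discriminant τ ^ Lexp N * p.eval (jFun τ)) ∧
      ∏ s : XN N, PS ((infExpn N).E (cj (Gamma0 N) (kB N * N) F s)) =
        dT N ^ Lexp N * aeval (jT N) p := by
  obtain ⟨p, h1, h2⟩ := exists_poly_of_levelOne N (Lexp N) _
    (MFun_cast (weight_eq N) (prod_cj_mem hF))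
  refine ⟨p, h1, ?_⟩
  rw [← h2, Expn_E_prod _ _ _ fun s _ => (infExpn N).H_cj _ _ hF s, PS_prod]

theorem smul_eq_algebraMap_mul (c : ℂ) (x : LaurentSeries ℂ) :
    c • x = algebraMap ℂ (LaurentSeries ℂ) c * x := by
  rw [algebraMap_laurent_eq_single, HahnSeries.single_zero_mul_eq_smul]
  rfl

/-- the space `Δ^L ℂ[j]` -/
def Mspace : Submodule ℂ (LaurentSeries ℂ) where
  carrier := {x | ∃ p : ℂ[X], x = dT N ^ Lexp N * aeval (jT N) p}
  add_mem' := by
    rintro _ _ ⟨p, rfl⟩ ⟨q, rfl⟩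
    exact ⟨p + q, by rw [map_add, mul_add]⟩
  zero_mem' := ⟨0, by simp⟩
  smul_mem' := by
    rintro c _ ⟨p, rfl⟩
    exact ⟨C c * p, by rw [map_mul, aeval_C, smul_eq_algebraMap_mul]; ring⟩

theorem mem_Mspace {x : LaurentSeries ℂ} :
    x ∈ Mspace N ↔ ∃ p : ℂ[X], x = dT N ^ Lexp N * aeval (jT N) p := Iff.rfl

/-- abbreviations -/
def nS (s : XN N) : LaurentSeries ℂ := PS ((infExpn N).E (cj (Gamma0 N) (kB N * N) (nuF N) s))

def bS (s : XN N) : LaurentSeries ℂ := PS ((infExpn N).E (cj (Gamma0 N) (kB N * N) (Bf N ^ N) s))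

theorem prod_sub_mem (u : ℂ) :
    ∏ s : XN N, (bS N s * algebraMap ℂ (LaurentSeries ℂ) u - nS N s) ∈ Mspace N := by
  have hF : u • Bf N ^ N + (-1 : ℂ) • nuF N ∈ MFun (Gamma0 N) (kB N * N) :=
    Submodule.add_mem _ (Submodule.smul_mem _ _ (betaF_mem N))
      (Submodule.smul_mem _ _ (nuF_mem N))
  obtain ⟨p, -, h2⟩ := exists_poly_norm N hF
  rw [mem_Mspace]
  refine ⟨p, ?_⟩
  rw [← h2]
  apply Finset.prod_congr rfl
  intro s _
  have Hb := (infExpn N).H_cj _ _ (betaF_mem N) s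
  have Hn := (infExpn N).H_cj _ _ (nuF_mem N) s
  rw [cj_add, cj_smul, cj_smul, (infExpn N).E_add _ _ (Expn_H_smul _ _ Hb) (Expn_H_smul _ _ Hn),
    Expn_E_smul _ _ Hb, Expn_E_smul _ _ Hn, PS_add, PS_mul, PS_mul, PS_C_eq, PS_C_eq, bS, nS]
  simp only [map_neg, map_one]
  ring

/-- the polynomial `∏ (b_s U - n_s)` -/
def Qpoly : (LaurentSeries ℂ)[X] := ∏ s : XN N, (C (bS N s) * X - C (nS N s))

theorem Qpoly_coeff_mem (k : ℕ) : (Qpoly N).coeff k ∈ Mspace N := by
  by_cases hk : k < (Qpoly N).natDegree + 1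
  · refine mem_of_forall_sum_smul_mem (Mspace N) ((Qpoly N).natDegree + 1)
      (fun k => (Qpoly N).coeff k) (fun u => ?_) k hk
    have h1 := prod_sub_mem N u
    have h2 : ∏ s : XN N, (bS N s * algebraMap ℂ (LaurentSeries ℂ) u - nS N s) =
        (Qpoly N).eval (algebraMap ℂ (LaurentSeries ℂ) u) := by
      rw [Qpoly, eval_prod]
      simp
    rw [h2, eval_eq_sum_range] at h1
    convert h1 using 2 with i _
    rw [smul_eq_algebraMap_mul, map_pow, mul_comm]
  · rw [coeff_eq_zero_of_natDegree_lt (by omega)]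
    exact Submodule.zero_mem _

theorem exists_prod_bS : ∃ c : ℂ, c ≠ 0 ∧
    ∏ s : XN N, bS N s = dT N ^ Lexp N * algebraMap ℂ (LaurentSeries ℂ) c := by
  obtain ⟨p, h1, h2⟩ := exists_poly_norm N (betaF_mem N)
  have hne : ∀ z : ℂ, p.eval z ≠ 0 := by
    intro z hz
    obtain ⟨τ, rfl⟩ := jFun_surjective z
    have h3 := h1 τ
    rw [hz, mul_zero, Finset.prod_apply] at h3
    obtain ⟨s, -, hs⟩ := Finset.prod_eq_zero_iff.1 h3
    rw [cj_pow] at hs
    exact cj_Bf_apply_ne_zero s τ (pow_eq_zero_iff (NeZero.ne N) |>.1 hs)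
  have hdeg : p.degree = 0 := by
    by_contra h
    obtain ⟨x, hx⟩ := IsAlgClosed.exists_root p h
    exact hne x hx
  have hp := eq_C_of_degree_eq_zero hdeg
  refine ⟨p.coeff 0, ?_, ?_⟩
  · intro h0
    apply hne 0
    rw [hp, h0]
    simp
  · have : ∏ s : XN N, bS N s = dT N ^ Lexp N * aeval (jT N) p := h2
    rw [this, hp, aeval_C]
    simp

theorem Qpoly_eq : Qpoly N = C (∏ s : XN N, bS N s) * ∏ s : XN N, (X - C (gs N s)) := by
  rw [map_prod, ← Finset.prod_mul_distrib, Qpoly]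
  apply Finset.prod_congr rfl
  intro s _
  have hb : bS N s ≠ 0 := PS_E_cj_betaF_ne_zero N s
  have hg : gs N s = nS N s / bS N s := gs_eq_div N s
  have h1 : C (bS N s) * (X - C (gs N s)) = C (bS N s) * X - C (bS N s * gs N s) := by
    rw [C_mul]
    ring
  rw [h1, hg, mul_div_cancel₀ _ hb]

end CP

variable (N : ℕ) [NeZero N]

/-- the characteristic polynomial of `g` over `ℂ(j)` has coefficients in `ℂ[j]`. -/
theorem exists_charPoly : ∃ P : ℂ[X][X], P.Monic ∧
    P.map (aeval (qExpand ℂ N (jqModC ℂ))).toRingHom = ∏ s : XN N, (X - C (gs N s)) := by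
  obtain ⟨c, hc, hb⟩ := CP.exists_prod_bS N
  have hl : (∏ s : XN N, (X - C (gs N s))) ∈
      lifts (aeval (CP.jT N) : ℂ[X] →ₐ[ℂ] LaurentSeries ℂ).toRingHom := by
    rw [lifts_iff_coeff_lifts]
    intro k
    obtain ⟨p, hp⟩ := (CP.mem_Mspace N).1 (CP.Qpoly_coeff_mem N k)
    rw [CP.Qpoly_eq, coeff_C_mul, hb] at hp
    refine ⟨C c⁻¹ * p, ?_⟩
    have hc' : algebraMap ℂ (LaurentSeries ℂ) c ≠ 0 := by
      rw [Ne, map_eq_zero]
      exact hc
    have hd := pow_ne_zero (CP.Lexp N) (CP.dT_ne_zero N)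
    rw [mul_assoc] at hp
    have hp' := mul_left_cancel₀ hd hp
    show aeval (CP.jT N) (C c⁻¹ * p) = _
    rw [map_mul, aeval_C, ← hp', map_inv₀, inv_mul_cancel_left₀ hc']
  obtain ⟨P, h1, -, h2⟩ := lifts_and_natDegree_eq_and_monic hl (monic_prod_X_sub_C _ _)
  exact ⟨P, h2, h1⟩

end

end Fermat.Agent.S28Aux
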