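/-
S28 helper library (T6a, T6b): the algebraic part of CORE.
-/
import Fermat.Agent.S28.Nice

set_option autoImplicit false
set_option linter.unusedSectionVars false

namespace Fermat.Agent.S28Aux

open ModularCurve Polynomial

noncomputable section

namespace CoreAlg

section lead

variable (R : Type*) [CommRing R] (N : ℕ) [NeZero N]

theorem algebraMap_L_eq (r : R) : algebraMap R (LaurentSeries R) r = HahnSeries.C r := by
  have h1 : algebraMap R (PowerSeries R) r = PowerSeries.C r := by simp
  rw [HahnSeries.algebraMap_apply', h1, HahnSeries.ofPowerSeries_C]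

theorem coeff_algebraMap_mul (r : R) (x : LaurentSeries R) (k : ℤ) :
    (algebraMap R (LaurentSeries R) r * x).coeff k = r * x.coeff k := by
  rw [algebraMap_L_eq, HahnSeries.C_mul_eq_smul]
  rfl

theorem coeff_JN_pow_self (b : ℕ) :
    ((qExpand R N (jqModC R)) ^ b).coeff ((N : ℤ) * (-(b : ℤ))) = 1 := by
  rw [← map_pow, qExpand_coeff_mul, coeff_jqModC_pow_self]

theorem coeff_JN_pow_of_lt {b d : ℕ} (h : b < d) :
    ((qExpand R N (jqModC R)) ^ b).coeff ((N : ℤ) * (-(d : ℤ))) = 0 := by
  rw [← map_pow, qExpand_coeff_mul, coeff_jqModC_pow_of_lt]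
  omega

theorem coeff_aeval_JN (p : R[X]) :
    (aeval (qExpand R N (jqModC R)) p).coeff ((N : ℤ) * (-(p.natDegree : ℤ))) = p.leadingCoeff := by
  rw [aeval_def, eval₂_eq_sum_range, Finset.sum_range_succ]
  rw [HahnSeries.coeff_add, HahnSeries.coeff_sum, coeff_algebraMap_mul, coeff_JN_pow_self]
  rw [Finset.sum_eq_zero]
  · simp
  · intro i hi
    rw [coeff_algebraMap_mul, coeff_JN_pow_of_lt R N (Finset.mem_range.mp hi), mul_zero]

theorem aeval_JN_injective : Function.Injective (aeval (R := R) (qExpand R N (jqModC R))) := by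
  rw [injective_iff_map_eq_zero]
  intro p hp
  have := coeff_aeval_JN R N p
  rw [hp, HahnSeries.coeff_zero] at this
  exact leadingCoeff_eq_zero.mp this.symm

end lead

section pos

variable {κ : Type*} [Field κ]

/-- series in `t κ[[t]]` -/
def PosL (w : LaurentSeries κ) : Prop :=
  ∃ v : PowerSeries κ, w = HahnSeries.ofPowerSeries ℤ κ (PowerSeries.X * v)

theorem PosL.coeff_eq_zero {w : LaurentSeries κ} (hw : PosL w) {k : ℤ} (hk : k ≤ 0) :
    w.coeff k = 0 := by
  obtain ⟨v, rfl⟩ := hw
  rcases hk.lt_or_eq with hk | rfl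
  · exact ofPowerSeries_coeff_of_neg _ hk
  · have := HahnSeries.ofPowerSeries_apply_coeff (Γ := ℤ) (PowerSeries.X * v) 0
    rw [Nat.cast_zero] at this
    rw [this]
    simp

theorem PosL.neg {w : LaurentSeries κ} (hw : PosL w) : PosL (-w) := by
  obtain ⟨v, rfl⟩ := hw
  exact ⟨-v, by rw [mul_neg, map_neg]⟩

theorem exists_prod_eq_ofPowerSeries (s : Multiset (LaurentSeries κ)) (hs : ∀ r ∈ s, PosL r) :
    ∃ v : PowerSeries κ, s.prod = HahnSeries.ofPowerSeries ℤ κ v := by
  induction s using Multiset.induction_on with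
  | empty => exact ⟨1, by simp⟩
  | cons r s ih =>
    obtain ⟨v, hv⟩ := ih fun r' hr' => hs r' (Multiset.mem_cons_of_mem hr')
    obtain ⟨u, hu⟩ := hs r (Multiset.mem_cons_self r s)
    exact ⟨PowerSeries.X * u * v, by rw [Multiset.prod_cons, hv, hu, ← map_mul]⟩

theorem PosL.multiset_prod (s : Multiset (LaurentSeries κ)) (hs : ∀ r ∈ s, PosL r) (h0 : s ≠ 0) :
    PosL s.prod := by
  obtain ⟨r, hr⟩ := Multiset.exists_mem_of_ne_zero h0
  obtain ⟨s', rfl⟩ := Multiset.exists_cons_of_mem hr
  obtain ⟨v, hv⟩ := exists_prod_eq_ofPowerSeries s' fun r' hr' => hs r' (Multiset.mem_cons_of_mem hr')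
  obtain ⟨u, hu⟩ := hs r hr
  exact ⟨u * v, by rw [Multiset.prod_cons, hv, hu, ← map_mul, mul_assoc]⟩

/-- a nonzero polynomial in `j(t^N)` is not in `t κ[[t]]`. -/
theorem not_posL_aeval_JN (N : ℕ) [NeZero N] {c : κ[X]} (hc : c ≠ 0) :
    ¬ PosL (aeval (qExpand κ N (jqModC κ)) c) := by
  intro h
  have h1 := coeff_aeval_JN κ N c
  rw [h.coeff_eq_zero (by
    have : (0 : ℤ) ≤ (N : ℤ) * c.natDegree := by positivity
    linarith)] at h1
  exact hc (leadingCoeff_eq_zero.mp h1.symm)

end pos

section alg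

variable {κ : Type*} [Field κ] (N : ℕ) [NeZero N] {ι : Type*} [Fintype ι] (i0 : ι)
  (y : ι → LaurentSeries κ) (hy0 : ∀ i, y i ≠ 0) (hpos : ∀ i, i ≠ i0 → PosL (y i))

include hy0 hpos in
theorem natDegree_eq_zero_of_mul_eq [DecidableEq ι] (f h : κ[X][X]) (hf : f.Monic) (hh : h.Monic)
    (hfh : (f * h).map (aeval (qExpand κ N (jqModC κ))).toRingHom = ∏ i, (X - C (y i)))
    (hroot : (f.map (aeval (qExpand κ N (jqModC κ))).toRingHom).IsRoot (y i0)) :
    h.natDegree = 0 := by
  classical
  set ev : κ[X] →+* LaurentSeries κ := (aeval (qExpand κ N (jqModC κ))).toRingHom with hev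
  set f' := f.map ev with hf'
  set h' := h.map ev with hh'
  have hf'm : f'.Monic := hf.map ev
  have hh'm : h'.Monic := hh.map ev
  have hmul : f' * h' = ((Finset.univ.val.map y).map fun a => X - C a).prod := by
    rw [hf', hh', ← Polynomial.map_mul, hfh, Finset.prod_eq_multiset_prod, Multiset.map_map]
    rfl
  have hroots : f'.roots + h'.roots = Finset.univ.val.map y := by
    rw [← roots_mul (hf'm.mul hh'm).ne_zero, hmul, roots_multiset_prod_X_sub_C]
  have hcard : f'.roots.card + h'.roots.card = f'.natDegree + h'.natDegree := by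
    rw [← Multiset.card_add, hroots, ← hf'm.natDegree_mul hh'm, hmul,
      natDegree_multiset_prod_X_sub_C_eq_card]
  have hcardh : h'.roots.card = h'.natDegree := by
    have h1 := card_roots' f'
    have h2 := card_roots' h'
    omega
  have hmem : y i0 ∈ f'.roots := (mem_roots hf'm.ne_zero).mpr hroot
  obtain ⟨F, hF⟩ := Multiset.exists_cons_of_mem hmem
  have huniv : (Finset.univ : Finset ι).val = i0 ::ₘ (Finset.univ.erase i0).val := by
    rw [← Finset.insert_val_of_notMem (Finset.notMem_erase _ _),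
      Finset.insert_erase (Finset.mem_univ i0)]
  have hsub : F + h'.roots = (Finset.univ.erase i0).val.map y := by
    rw [hF, Multiset.cons_add, huniv, Multiset.map_cons] at hroots
    exact (Multiset.cons_inj_right _).mp hroots
  have hr : ∀ r ∈ h'.roots, r ≠ 0 ∧ PosL r := by
    intro r hr
    have : r ∈ (Finset.univ.erase i0).val.map y := by
      rw [← hsub]
      exact Multiset.mem_add.mpr (Or.inr hr)
    obtain ⟨i, hi, rfl⟩ := Multiset.mem_map.mp this
    exact ⟨hy0 i, hpos i (Finset.ne_of_mem_erase hi)⟩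
  by_contra hne
  have hne' : h'.roots ≠ 0 := by
    intro h0
    rw [h0, Multiset.card_zero, hh', hh.natDegree_map] at hcardh
    exact hne hcardh.symm
  have hprod := prod_multiset_X_sub_C_of_monic_of_roots_card_eq hh'm hcardh
  have hc0 : ev (h.coeff 0) = (h'.roots.map fun a => -a).prod := by
    rw [← coeff_map, ← hh', coeff_zero_eq_eval_zero]
    conv_lhs => rw [← hprod]
    rw [eval_multiset_prod, Multiset.map_map]
    congr 1
    apply Multiset.map_congr rfl
    intro a _
    simp
  have hP : PosL (ev (h.coeff 0)) := by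
    rw [hc0]
    apply PosL.multiset_prod
    · intro r hr'
      obtain ⟨a, ha, rfl⟩ := Multiset.mem_map.mp hr'
      exact (hr a ha).2.neg
    · intro h0
      exact hne' (Multiset.map_eq_zero.mp h0)
  have hne0 : h.coeff 0 ≠ 0 := by
    intro h0
    rw [h0, map_zero] at hc0
    have := Multiset.prod_eq_zero_iff.mp hc0.symm
    obtain ⟨a, ha, ha0⟩ := Multiset.mem_map.mp this
    exact (hr a ha).1 (neg_eq_zero.mp ha0)
  exact not_posL_aeval_JN N hne0 hP

include hy0 hpos in
theorem irreducible_of_map_eq (P : κ[X][X]) (hP : P.Monic)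
    (hPy : P.map (aeval (qExpand κ N (jqModC κ))).toRingHom = ∏ i, (X - C (y i))) :
    Irreducible P := by
  classical
  rw [hP.irreducible_iff_natDegree]
  refine ⟨?_, ?_⟩
  · rintro rfl
    have h1 := congrArg natDegree hPy
    rw [Polynomial.map_one, natDegree_one, natDegree_finsetProd_X_sub_C_eq_card] at h1
    exact Finset.card_ne_zero.mpr ⟨i0, Finset.mem_univ i0⟩ h1.symm
  · intro f h hf hh hfh
    have hroot : ((f * h).map (aeval (qExpand κ N (jqModC κ))).toRingHom).IsRoot (y i0) := by
      rw [hfh, hPy, IsRoot.def, eval_prod]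
      exact Finset.prod_eq_zero (Finset.mem_univ i0) (by simp)
    rw [Polynomial.map_mul, root_mul] at hroot
    rcases hroot with hroot | hroot
    · right
      exact natDegree_eq_zero_of_mul_eq N i0 y hy0 hpos f h hf hh (by rw [hfh, hPy]) hroot
    · left
      exact natDegree_eq_zero_of_mul_eq N i0 y hy0 hpos h f hh hf (by rw [mul_comm, hfh, hPy]) hroot

include hy0 hpos in
/-- the algebraic core: `1, y, …, y^(n-1)` are independent over `κ[j(t^N)]`. -/
theorem core_alg (P : κ[X][X]) (hP : P.Monic)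
    (hPy : P.map (aeval (qExpand κ N (jqModC κ))).toRingHom = ∏ i, (X - C (y i)))
    (a : Fin (Fintype.card ι) → κ[X])
    (h : ∑ i, aeval (qExpand κ N (jqModC κ)) (a i) * y i0 ^ (i : ℕ) = 0) : a = 0 := by
  classical
  have hirr := irreducible_of_map_eq N i0 y hy0 hpos P hP hPy
  set ev : κ[X] →+* LaurentSeries κ := (aeval (qExpand κ N (jqModC κ))).toRingHom with hev
  have hinj : Function.Injective ev := aeval_JN_injective κ N
  let F := FractionRing κ[X]
  let φ : F →+* LaurentSeries κ := IsFractionRing.lift hinj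
  let _ : Algebra F (LaurentSeries κ) := φ.toAlgebra
  have hφ : ∀ c : κ[X], φ (algebraMap κ[X] F c) = ev c := IsFractionRing.lift_algebraMap hinj
  have hcomp : φ.comp (algebraMap κ[X] F) = ev := RingHom.ext hφ
  have hirrF : Irreducible (P.map (algebraMap κ[X] F)) :=
    (hP.irreducible_iff_irreducible_map_fraction_map (K := F)).mp hirr
  have haev : ∀ Q : κ[X][X], aeval (y i0) (Q.map (algebraMap κ[X] F)) = eval (y i0) (Q.map ev) := by
    intro Q
    rw [aeval_def, eval₂_map, eval_map]
    congr 1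
  have hmin : P.map (algebraMap κ[X] F) = minpoly F (y i0) := by
    apply minpoly.eq_of_irreducible_of_monic hirrF _ (hP.map _)
    rw [haev, hPy, eval_prod]
    exact Finset.prod_eq_zero (Finset.mem_univ i0) (by simp)
  set Q : κ[X][X] := ∑ i : Fin (Fintype.card ι), C (a i) * X ^ (i : ℕ) with hQ
  have hQ0 : aeval (y i0) (Q.map (algebraMap κ[X] F)) = 0 := by
    rw [haev, hQ, Polynomial.map_sum, eval_finsetSum, ← h]
    apply Finset.sum_congr rfl
    intro i _
    simp [hev]
  have hdegP : P.natDegree = Fintype.card ι := by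
    have h1 := congrArg natDegree hPy
    rwa [hP.natDegree_map, natDegree_finsetProd_X_sub_C_eq_card, Finset.card_univ] at h1
  have hQdeg : Q.degree < (Fintype.card ι : ℕ) := by
    rw [hQ]
    refine lt_of_le_of_lt (degree_sum_le _ _) ?_
    rw [Finset.sup_lt_iff (by exact WithBot.bot_lt_coe _)]
    intro i _
    exact lt_of_le_of_lt (degree_C_mul_X_pow_le _ _) (by exact_mod_cast i.2)
  have hQF : Q.map (algebraMap κ[X] F) = 0 := by
    apply eq_zero_of_dvd_of_degree_lt (minpoly.dvd F (y i0) hQ0)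
    rw [← hmin, degree_eq_natDegree (hP.map _).ne_zero, hP.natDegree_map, hdegP]
    exact lt_of_le_of_lt degree_map_le hQdeg
  have hQz : Q = 0 := by
    apply Polynomial.map_injective _ (IsFractionRing.injective κ[X] F)
    rw [hQF, Polynomial.map_zero]
  funext i
  have h1 := congrArg (fun q => coeff q (i : ℕ)) hQz
  simp only [hQ, finsetSum_coeff, coeff_C_mul, coeff_X_pow, coeff_zero] at h1
  rw [Finset.sum_eq_single i] at h1
  · simpa using h1
  · intro b _ hb
    rw [if_neg, mul_zero]
    exact fun hh => hb (Fin.ext hh.symm)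
  · intro hi
    exact absurd (Finset.mem_univ i) hi

end alg

section descend

variable {R S : Type*} [CommRing R] [CommRing S] (f : R →+* S)

theorem coeffMap_injective' (hf : Function.Injective f) : Function.Injective (coeffMap f) := by
  intro x y h
  ext k
  apply hf
  have := congrArg (fun z => z.coeff k) h
  simpa using this

theorem coeffMap_algebraMap' (r : R) :
    coeffMap f (algebraMap R (LaurentSeries R) r) = algebraMap S (LaurentSeries S) (f r) := by
  rw [algebraMap_L_eq, algebraMap_L_eq]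
  exact coeffMap_single f 0 r

theorem coeffMap_JN (N : ℕ) [NeZero N] :
    coeffMap f (qExpand R N (jqModC R)) = qExpand S N (jqModC S) := by
  rw [coeffMap_qExpand, coeffMap_jqModC]

theorem coeffMap_aeval (x : LaurentSeries R) (p : R[X]) :
    coeffMap f (aeval x p) = aeval (coeffMap f x) (p.map f) := by
  rw [aeval_def, aeval_def, eval₂_map, hom_eval₂]
  congr 1
  exact RingHom.ext fun r => coeffMap_algebraMap' f r

theorem exists_aeval_JN_eq (hf : Function.Injective f) (N : ℕ) [NeZero N] (n : ℕ) :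
    ∀ (p : S[X]) (c : LaurentSeries R), p.support.card ≤ n →
      coeffMap f c = aeval (qExpand S N (jqModC S)) p →
      ∃ p' : R[X], aeval (qExpand R N (jqModC R)) p' = c := by
  have hzero : ∀ c : LaurentSeries R, coeffMap f c = aeval (qExpand S N (jqModC S)) (0 : S[X]) →
      ∃ p' : R[X], aeval (qExpand R N (jqModC R)) p' = c := by
    intro c h
    refine ⟨0, ?_⟩
    rw [map_zero] at h ⊢
    exact (coeffMap_injective' f hf (by rw [h, map_zero])).symm
  induction n with
  | zero =>
    intro p c hp h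
    have hp0 : p = 0 := by
      rw [← card_support_eq_zero]
      omega
    subst hp0
    exact hzero c h
  | succ n ih =>
    intro p c hp h
    by_cases hp0 : p = 0
    · subst hp0
      exact hzero c h
    · have ha : f (c.coeff ((N : ℤ) * (-(p.natDegree : ℤ)))) = p.leadingCoeff := by
        rw [← coeffMap_coeff, h, coeff_aeval_JN]
      obtain ⟨p1, hp1⟩ := ih p.eraseLead
        (c - algebraMap R _ (c.coeff ((N : ℤ) * (-(p.natDegree : ℤ)))) *
          (qExpand R N (jqModC R)) ^ p.natDegree)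
        (by have := eraseLead_support_card_lt hp0; omega)
        (by
          rw [map_sub, map_mul, map_pow, coeffMap_JN, h, coeffMap_algebraMap', ha]
          have h2 := congrArg (aeval (qExpand S N (jqModC S))) (eraseLead_add_C_mul_X_pow p)
          rw [map_add, map_mul, aeval_C, map_pow, aeval_X] at h2
          rw [← h2, add_sub_cancel_right])
      exact ⟨p1 + C (c.coeff ((N : ℤ) * (-(p.natDegree : ℤ)))) * X ^ p.natDegree, by simp [hp1]⟩

/-- a polynomial over `R((t))` which becomes a polynomial over `S[j]` is a polynomial over `R[j]`. -/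
theorem exists_monic_map_eq (hf : Function.Injective f) (N : ℕ) [NeZero N] (P : S[X][X])
    (Q : (LaurentSeries R)[X]) (hQ : Q.Monic)
    (h : P.map (aeval (qExpand S N (jqModC S))).toRingHom = Q.map (coeffMap f)) :
    ∃ P' : R[X][X], P'.Monic ∧ P'.map (aeval (qExpand R N (jqModC R))).toRingHom = Q := by
  have hl : Q ∈ lifts (aeval (R := R) (qExpand R N (jqModC R))).toRingHom := by
    rw [lifts_iff_coeff_lifts]
    intro n
    have h1 := congrArg (fun q => coeff q n) h
    simp only [coeff_map] at h1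
    obtain ⟨p', hp'⟩ := exists_aeval_JN_eq f hf N _ (P.coeff n) (Q.coeff n) le_rfl h1.symm
    exact ⟨p', hp'⟩
  obtain ⟨P', h1, -, h2⟩ := lifts_and_natDegree_eq_and_monic hl hQ
  exact ⟨P', h2, h1⟩

end descend

section nice

variable {A : Subring ℂ} {κ : Type*} [Field κ] (π : A →+* κ)

theorem exists_lift_of_isNice {x : LaurentSeries ℂ} {m : ℤ} (hx : IsNice A x m) :
    ∃ x' : LaurentSeries A, coeffMap A.subtype x' = x ∧ coeffMap π x' ≠ 0 ∧
      (0 < m → PosL (coeffMap π x')) := by
  obtain ⟨k, u, hk, hk', hk0, hu, hu0, rfl⟩ := hx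
  set u' : PowerSeries A := PowerSeries.mk fun n => ⟨u.coeff n, hu n⟩ with hu'
  have hπk : π ⟨k, hk⟩ ≠ 0 := by
    intro h0
    have h1 : (⟨k, hk⟩ : A) * ⟨k⁻¹, hk'⟩ = 1 := by
      apply Subtype.ext
      exact mul_inv_cancel₀ hk0
    have h2 := congrArg π h1
    rw [map_mul, h0, zero_mul, map_one] at h2
    exact zero_ne_one h2
  have hu1 : PowerSeries.constantCoeff (u'.map π) = 1 := by
    rw [← PowerSeries.coeff_zero_eq_constantCoeff_apply, PowerSeries.coeff_map, hu',
      PowerSeries.coeff_mk]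
    have : (⟨u.coeff 0, hu 0⟩ : A) = 1 := by
      apply Subtype.ext
      simpa using hu0
    rw [this, map_one]
  refine ⟨HahnSeries.single m ⟨k, hk⟩ * HahnSeries.ofPowerSeries ℤ A u', ?_, ?_, ?_⟩
  · rw [map_mul, coeffMap_single, coeffMap_ofPowerSeries]
    congr 2
    ext n
    simp [hu']
  · rw [map_mul, coeffMap_single, coeffMap_ofPowerSeries]
    apply mul_ne_zero
    · exact HahnSeries.single_ne_zero hπk
    · intro h0
      have : u'.map π = 0 := HahnSeries.ofPowerSeries_injective (by rw [h0, map_zero])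
      rw [this, map_zero] at hu1
      exact zero_ne_one hu1
  · intro hm
    obtain ⟨m', rfl⟩ : ∃ m' : ℕ, m = ((m' + 1 : ℕ) : ℤ) := ⟨(m - 1).toNat, by push_cast; omega⟩
    refine ⟨PowerSeries.C (π ⟨k, hk⟩) * PowerSeries.X ^ m' * u'.map π, ?_⟩
    rw [map_mul, coeffMap_single, coeffMap_ofPowerSeries]
    have : PowerSeries.X * (PowerSeries.C (π ⟨k, hk⟩) * PowerSeries.X ^ m' * u'.map π) =
        PowerSeries.C (π ⟨k, hk⟩) * PowerSeries.X ^ (m' + 1) * u'.map π := by ring
    rw [this, map_mul, map_mul, HahnSeries.ofPowerSeries_C, HahnSeries.ofPowerSeries_X_pow,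
      HahnSeries.C_apply, HahnSeries.single_mul_single]
    simp

end nice

theorem qExpand_aeval {R : Type*} [CommRing R] (N : ℕ) [NeZero N] (x : LaurentSeries R) (p : R[X]) :
    qExpand R N (aeval x p) = aeval (qExpand R N x) p := by
  rw [aeval_def, aeval_def, hom_eval₂]
  congr 1
  refine RingHom.ext fun r => ?_
  rw [RingHom.comp_apply, algebraMap_L_eq, qExpand_C]

end CoreAlg

open CoreAlg

/-- purely algebraic version (T6a): `A` a subring of `ℂ`, `π : A → κ` a ring hom to a field. -/
theorem core_of_charPoly (N : ℕ) [NeZero N] (A : Subring ℂ) (κ : Type*) [Field κ] (π : A →+* κ)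
    (ι : Type) [Fintype ι] (i0 : ι) (x : ι → LaurentSeries ℂ) (m : ι → ℤ)
    (hnice : ∀ i, IsNice A (x i) (m i)) (hpos : ∀ i, i ≠ i0 → 0 < m i)
    (g : LaurentSeries ℤ) (hx0 : x i0 = qExpand ℂ N (coeffMap (Int.castRingHom ℂ) g))
    (P : ℂ[X][X]) (_hP : P.Monic)
    (hPx : P.map (aeval (qExpand ℂ N (jqModC ℂ))).toRingHom = ∏ i, (X - C (x i)))
    (a : Fin (Fintype.card ι) → κ[X])
    (h : ∑ i, aeval (jqModC κ) (a i) * (coeffMap (Int.castRingHom κ) g) ^ (i : ℕ) = 0) : a = 0 := by
  choose x' hx'1 hx'2 hx'3 using fun i => exists_lift_of_isNice π (hnice i)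
  have hQ : (∏ i, (X - C (x' i))).Monic := monic_prod_of_monic _ _ fun i _ => monic_X_sub_C _
  obtain ⟨P', hP'm, hP'⟩ := exists_monic_map_eq A.subtype Subtype.val_injective N P
    (∏ i, (X - C (x' i))) hQ (by
      rw [hPx, Polynomial.map_prod]
      simp [hx'1])
  have hcomp : ((aeval (qExpand κ N (jqModC κ))).toRingHom : κ[X] →+* LaurentSeries κ).comp
      (mapRingHom π) = (coeffMap π).comp (aeval (R := A) (qExpand A N (jqModC A))).toRingHom := by
    refine RingHom.ext fun p => ?_
    have := coeffMap_aeval π (qExpand A N (jqModC A)) p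
    rw [coeffMap_JN] at this
    exact this.symm
  have hPb : (P'.map (mapRingHom π)).map (aeval (qExpand κ N (jqModC κ))).toRingHom =
      ∏ i, (X - C (coeffMap π (x' i))) := by
    rw [Polynomial.map_map, hcomp, ← Polynomial.map_map, hP', Polynomial.map_prod]
    simp
  have hy0 : coeffMap π (x' i0) = qExpand κ N (coeffMap (Int.castRingHom κ) g) := by
    have h1 : x' i0 = qExpand A N (coeffMap (Int.castRingHom A) g) := by
      apply coeffMap_injective' A.subtype Subtype.val_injective
      rw [hx'1, hx0, coeffMap_qExpand, coeffMap_coeffMap,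
        RingHom.ext_int (A.subtype.comp (Int.castRingHom A)) (Int.castRingHom ℂ)]
    rw [h1, coeffMap_qExpand, coeffMap_coeffMap,
      RingHom.ext_int (π.comp (Int.castRingHom A)) (Int.castRingHom κ)]
  apply core_alg N i0 (fun i => coeffMap π (x' i)) hx'2 (fun i hi => hx'3 i (hpos i hi))
    (P'.map (mapRingHom π)) (hP'm.map _) hPb a
  have h2 := congrArg (qExpand κ N) h
  rw [map_zero, map_sum] at h2
  rw [← h2]
  apply Finset.sum_congr rfl
  intro i _
  rw [map_mul, map_pow, hy0, qExpand_aeval]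

section change

namespace CoreAlg

/-- coefficients of `p(j) g^i` for series `j, g` with integer coefficients -/
theorem coeff_aeval_mul_pow (K : Type*) [CommRing K] (j g : LaurentSeries ℤ) (c : ℕ → K) (d i : ℕ)
    (r : ℤ) :
    (aeval (coeffMap (Int.castRingHom K) j) (∑ k ∈ Finset.range d, C (c k) * X ^ k) *
      (coeffMap (Int.castRingHom K) g) ^ i).coeff r =
      ∑ k ∈ Finset.range d, c k * (((j ^ k * g ^ i).coeff r : ℤ) : K) := by
  rw [map_sum, Finset.sum_mul, HahnSeries.coeff_sum]
  apply Finset.sum_congr rfl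
  intro k _
  rw [map_mul, aeval_C, map_pow, aeval_X, mul_assoc, coeff_algebraMap_mul, ← map_pow, ← map_pow,
    ← map_mul, coeffMap_coeff]
  rfl

theorem exists_addHom_ne_zero (ℓ : ℕ) [Fact ℓ.Prime] (κ : Type*) [Field κ] [CharP κ ℓ]
    (K : Type*) [Field K] [CharP K ℓ] (c : K) (hc : c ≠ 0) : ∃ lam : K →+ κ, lam c ≠ 0 := by
  let _ := ZMod.algebra K ℓ
  let _ := ZMod.algebra κ ℓ
  have h1 : ¬ ∀ φ : Module.Dual (ZMod ℓ) K, φ c = 0 := by
    rw [Module.forall_dual_apply_eq_zero_iff]
    exact hc
  push Not at h1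
  obtain ⟨φ, hφ⟩ := h1
  refine ⟨(algebraMap (ZMod ℓ) κ).toAddMonoidHom.comp φ.toAddMonoidHom, ?_⟩
  intro h0
  apply hφ
  apply (algebraMap (ZMod ℓ) κ).injective
  rw [map_zero]
  exact h0

end CoreAlg

/-- (T6b) change of the field: independence over `κ(j)` for ONE field `κ` of characteristic `ℓ`
implies independence over `K(j)` for all fields `K` of characteristic `ℓ`. -/
theorem core_change_field (ℓ : ℕ) [Fact ℓ.Prime] (κ : Type*) [Field κ] [CharP κ ℓ]
    (K : Type*) [Field K] [CharP K ℓ] (n : ℕ) (j g : LaurentSeries ℤ)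
    (hκ : ∀ a : Fin n → κ[X], ∑ i, aeval (coeffMap (Int.castRingHom κ) j) (a i) *
      (coeffMap (Int.castRingHom κ) g) ^ (i : ℕ) = 0 → a = 0)
    (a : Fin n → K[X]) (h : ∑ i, aeval (coeffMap (Int.castRingHom K) j) (a i) *
      (coeffMap (Int.castRingHom K) g) ^ (i : ℕ) = 0) : a = 0 := by
  by_contra hne
  obtain ⟨i1, hi1⟩ : ∃ i, a i ≠ 0 := by
    by_contra hall
    push Not at hall
    exact hne (funext hall)
  obtain ⟨k1, hk1⟩ : ∃ k, (a i1).coeff k ≠ 0 := by
    by_contra hall
    push Not at hall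
    exact hi1 (Polynomial.ext hall)
  obtain ⟨lam, hlam⟩ := exists_addHom_ne_zero ℓ κ K _ hk1
  have ha : ∀ i, a i = ∑ k ∈ Finset.range ((a i).natDegree + 1), C ((a i).coeff k) * X ^ k :=
    fun i => (a i).as_sum_range_C_mul_X_pow
  set a' : Fin n → κ[X] := fun i =>
    ∑ k ∈ Finset.range ((a i).natDegree + 1), C (lam ((a i).coeff k)) * X ^ k with ha'
  have hrel : ∑ i, aeval (coeffMap (Int.castRingHom κ) j) (a' i) *
      (coeffMap (Int.castRingHom κ) g) ^ (i : ℕ) = 0 := by
    ext r
    have h1 := congrArg (fun z => lam (z.coeff r)) h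
    simp only [HahnSeries.coeff_sum, HahnSeries.coeff_zero, map_zero, map_sum] at h1
    rw [HahnSeries.coeff_sum, HahnSeries.coeff_zero, ← h1]
    apply Finset.sum_congr rfl
    intro i _
    conv_rhs => rw [ha i]
    rw [ha', coeff_aeval_mul_pow, coeff_aeval_mul_pow, map_sum]
    apply Finset.sum_congr rfl
    intro k _
    rw [mul_comm, mul_comm ((a i).coeff k), ← zsmul_eq_mul, ← zsmul_eq_mul, map_zsmul]
  have h0 := congrFun (hκ a' hrel) i1
  have h2 := congrArg (fun p => coeff p k1) h0
  simp only [ha', finsetSum_coeff, coeff_C_mul, coeff_X_pow, Pi.zero_apply, coeff_zero] at h2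
  have hk1' : k1 ∈ Finset.range ((a i1).natDegree + 1) := by
    rw [Finset.mem_range, Nat.lt_succ_iff]
    exact le_natDegree_of_ne_zero hk1
  rw [Finset.sum_eq_single k1] at h2
  · simp at h2
    exact hlam h2
  · intro b _ hb
    rw [if_neg (fun hh => hb hh.symm), mul_zero]
  · intro hh
    exact absurd hk1' hh

end change

end

end Fermat.Agent.S28Aux
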