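/-
S28 helper library (T6): `1, g, …, g^(ψ(N)-1)` are linearly independent over `K(j)`, `char K = ℓ ∤ N`.
(`core_of_charPoly` and `core_change_field` are in `CoreAlg.lean`.)
-/
import Fermat.Agent.S28.CoreAlg
import Fermat.Agent.S28.CharPoly
import Fermat.Agent.S16.Val

set_option autoImplicit false
set_option linter.unusedSectionVars false

namespace Fermat.Agent.S28Aux

open ModularCurve Polynomial
open Fermat.Agent.S24Aux

noncomputable section

/-- **CORE** -/
theorem core (N : ℕ) [NeZero N] (ℓ : ℕ) [Fact ℓ.Prime] (hℓN : ¬ ℓ ∣ N) (K : Type*) [Field K]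
    [CharP K ℓ] (a : Fin (dedekindPsi N) → K[X])
    (h : ∑ i, aeval (jqModC K) (a i) * (gU K N : LaurentSeries K) ^ (i : ℕ) = 0) : a = 0 := by
  obtain ⟨V, hV⟩ := Fermat.Agent.S16Aux.exists_val ℓ
  have hℓ : ℓ.Prime := Fact.out
  have hA1 : ∀ (ζ : ℂ) (n : ℕ), 0 < n → ζ ^ n = 1 → ζ ∈ V.toSubring := fun ζ n hn h =>
    (V.valuation_le_one_iff ζ).mp (Fermat.Agent.S16Aux.val_eq_one_of_pow_eq_one hn.ne' h).le
  have hA2 : ∀ d : ℕ, d ∣ N → ((d : ℂ))⁻¹ ∈ V.toSubring := fun d hd => by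
    have hcop : Nat.Coprime d ℓ := by
      rw [Nat.coprime_comm, hℓ.coprime_iff_not_dvd]
      exact fun h' => hℓN (h'.trans hd)
    have h1 : V.valuation (d : ℂ) = 1 := Fermat.Agent.S16Aux.val_natCast_eq_one_of_coprime hV hcop
    exact (V.valuation_le_one_iff _).mp (by rw [map_inv₀, h1, inv_one])
  have hchar : CharP (IsLocalRing.ResidueField V) ℓ := by
    rw [CharP.charP_iff_prime_eq_zero hℓ]
    have h1 : ((ℓ : V) : ℂ) = (ℓ : ℂ) := by simp
    have h2 : (ℓ : V) ∈ IsLocalRing.maximalIdeal V := by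
      rw [IsLocalRing.mem_maximalIdeal, mem_nonunits_iff]
      intro hu
      have h3 := (V.valuation_eq_one_iff (ℓ : V)).mp hu
      rw [h1] at h3
      exact hV.ne h3
    rw [← map_natCast (IsLocalRing.residue V)]
    exact (IsLocalRing.residue_eq_zero_iff _).mpr h2
  choose m hm1 hm2 using isNice_gs N V.toSubring hA1 hA2
  obtain ⟨P, hP, hPx⟩ := exists_charPoly N
  have hκ : ∀ a : Fin (Fintype.card (XN N)) → (IsLocalRing.ResidueField V)[X],
      ∑ i, aeval (coeffMap (Int.castRingHom (IsLocalRing.ResidueField V)) (jqModC ℤ)) (a i) *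
        (coeffMap (Int.castRingHom (IsLocalRing.ResidueField V))
          (gU ℤ N : LaurentSeries ℤ)) ^ (i : ℕ) = 0 → a = 0 := by
    intro a ha
    rw [coeffMap_jqModC] at ha
    exact core_of_charPoly N V.toSubring (IsLocalRing.ResidueField V) (IsLocalRing.residue V)
      (XN N) (s0 N) (gs N) m hm1 hm2 (gU ℤ N : LaurentSeries ℤ) (by rw [gs_s0, coeffMap_gU])
      P hP hPx a ha
  rw [card_XN] at hκ
  exact core_change_field ℓ (IsLocalRing.ResidueField V) K _ (jqModC ℤ) (gU ℤ N : LaurentSeries ℤ)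
    hκ a (by rw [coeffMap_jqModC, coeffMap_gU]; exact h)

end

end Fermat.Agent.S28Aux
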