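/-
S28 helper library (T3): `[F⁺ : ℚ(j)] ≤ ψ(N)` for `F⁺ = ℚ(j(q^d), g)`, in elementary form.
-/
import Fermat.Agent.S28.Defs
import Fermat.Agent.S28.Arith
import Fermat.Agent.S24.ModDeg
import Fermat.Agent.Lib.Dim_Count

set_option autoImplicit false
set_option linter.unusedSectionVars false
set_option linter.style.haveILetI false

namespace Fermat.Agent.S28Aux

open ModularCurve Polynomial
open UpperHalfPlane ModularForm CongruenceSubgroup
open scoped MatrixGroups Manifold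
open Fermat.Agent.DimAux Fermat.Agent.S23Aux Fermat.Agent.S24Aux

noncomputable section

variable {N : ℕ} [NeZero N]

/-- the `q`-expansion of `Δ` is `DeltaU`. -/
theorem PS_qExpansion_discriminant :
    PS (qExpansion 1 discriminant) = (DeltaU ℂ : LaurentSeries ℂ) := by
  rw [qExpansion_discriminant, DeltaU]
  simp only [psL, dedekindEtaUnit]
  rw [map_mul, PowerSeries.map_X, PS, map_mul, HahnSeries.ofPowerSeries_X]

theorem PS_twist_discriminant {d : ℕ} (hd : d ≠ 0) :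
    PS (twist (qExpansion 1 discriminant) d 1) = (DdU ℂ d : LaurentSeries ℂ) := by
  haveI : NeZero d := ⟨hd⟩
  rw [PS_twist, PS_qExpansion_discriminant, DdU, dif_neg hd]
  rfl

theorem prod_mem_MFun' {Γ : Subgroup SL(2, ℤ)} {ι : Type*} (s : Finset ι) (f : ι → ℍ → ℂ)
    (k : ι → ℤ) (h : ∀ i ∈ s, f i ∈ MFun Γ (k i)) : ∏ i ∈ s, f i ∈ MFun Γ (∑ i ∈ s, k i) := by
  classical
  induction s using Finset.induction_on with
  | empty => simpa using one_mem_MFun
  | insert a s ha ih =>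
    rw [Finset.prod_insert ha, Finset.sum_insert ha]
    exact mul_mem_MFun (h a (Finset.mem_insert_self a s))
      (ih fun i hi => h i (Finset.mem_insert_of_mem hi))

/-- the numerator of `g`. -/
def Gg (N : ℕ) : ℍ → ℂ := ∏ d ∈ N.divisors, (rs d discriminant) ^ ((N : ℤ) + rExp N d).toNat

theorem toNat_rExp {d : ℕ} (hd : d ∈ N.divisors) :
    ((((N : ℤ) + rExp N d).toNat : ℕ) : ℤ) = N + rExp N d :=
  Int.toNat_of_nonneg (by have := neg_N_le_rExp N d hd; omega)

theorem Gg_mem : Gg N ∈ MFun (Gamma0 N) (kB N * N) := by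
  have h := prod_mem_MFun' (Γ := Gamma0 N) N.divisors
    (fun d => (rs d discriminant) ^ ((N : ℤ) + rExp N d).toNat)
    (fun d => ((((N : ℤ) + rExp N d).toNat : ℕ) : ℤ) * 12)
    (fun d hd => pow_mem_MFun (rs_mem_MFun (Nat.dvd_of_mem_divisors hd)
      (SFun_le_MFun Delta_mem)) _)
  refine MFun_cast ?_ h
  rw [Finset.sum_congr rfl fun d hd => by rw [toNat_rExp hd], ← Finset.sum_mul,
    Finset.sum_add_distrib, sum_rExp N (NeZero.ne N), kB]
  simp
  ring

theorem rel_gU : Rel N (coeffEmb Kb (gU ℚ N : LaurentSeries ℚ)) N (Gg N) := by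
  refine ⟨Gg_mem, ?_⟩
  have h1 : HasQExp 1 (Gg N) (∏ d ∈ N.divisors,
      (twist (qExpansion 1 discriminant) d 1) ^ ((N : ℤ) + rExp N d).toNat) :=
    hasQExp_prod _ _ _ fun d hd =>
      (hasQExp_rs_discriminant (Nat.pos_of_mem_divisors hd).ne').pow one_pos _
  rw [h1.qExpansion_eq one_pos, hasQExp_Bf.qExpansion_eq one_pos, PS_prod, PS_prod, cC_coeffEmb,
    coeffEmb, coeffMap_gU, gU]
  have h2 : ∀ d ∈ N.divisors, PS ((twist (qExpansion 1 discriminant) d 1) ^
      ((N : ℤ) + rExp N d).toNat) = ((DdU ℂ d ^ rExp N d * DdU ℂ d ^ N : (LaurentSeries ℂ)ˣ) :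
        LaurentSeries ℂ) := by
    intro d hd
    rw [PS_pow, PS_twist_discriminant (Nat.pos_of_mem_divisors hd).ne', ← Units.val_pow_eq_pow_val,
      ← zpow_natCast (DdU ℂ d) N, ← zpow_add, ← zpow_natCast, toNat_rExp hd, add_comm]
  rw [Finset.prod_congr rfl h2,
    Finset.prod_congr rfl fun d hd => PS_twist_discriminant (Nat.pos_of_mem_divisors hd).ne']
  push_cast
  rw [Finset.prod_mul_distrib, Finset.prod_pow]
/-- (LinRel) `μ + 1` functions `G_i / B^{M_i}` are linearly dependent over `ℚ̄[j]`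
(Sturm bound + counting). -/
theorem exists_table_Kb {μ : ℕ} (hμ : μ = (Gamma0 N).index) (y : Fin (μ + 1) → LaurentSeries Kb)
    (hy : ∀ i, ∃ (M : ℕ) (G : ℍ → ℂ), Rel N (y i) M G) :
    ∃ (m : ℕ) (v : Fin (μ + 1) × Fin (m + 1) → Kb), v ≠ 0 ∧
      ∑ p, algebraMap Kb (LaurentSeries Kb) (v p) * (y p.1 * Jd 1 ^ (p.2 : ℕ)) = 0 := by
  classical
  choose Mi G hrel using hy
  obtain ⟨Bq, hBq⟩ := exists_Bq (N := N)
  obtain ⟨Dq, hDq⟩ := exists_Dq
  have hμpos : 0 < μ := by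
    rw [hμ]
    exact Nat.pos_of_ne_zero Subgroup.FiniteIndex.index_ne_zero
  obtain ⟨M, hM⟩ : ∃ M, M = ∑ i, Mi i := ⟨_, rfl⟩
  have hMi : ∀ i, Mi i ≤ M := fun i =>
    hM ▸ Finset.single_le_sum (f := Mi) (fun _ _ => Nat.zero_le _) (Finset.mem_univ i)
  obtain ⟨m, hm⟩ : ∃ m, m = N.divisors.card * M * μ := ⟨_, rfl⟩
  obtain ⟨W, hW⟩ : ∃ W : ℤ, W = kB N * M + 12 * m := ⟨_, rfl⟩
  let z : Fin (μ + 1) × Fin (m + 1) → LaurentSeries Kb := fun x =>
    (y x.1 * Jd 1 ^ (x.2 : ℕ)) * (Bq ^ M * Dq ^ m)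
  let F : Fin (μ + 1) × Fin (m + 1) → ℍ → ℂ := fun x =>
    G x.1 * (Bf N) ^ (M - Mi x.1) * ((E₄ : ℍ → ℂ) ^ 3) ^ (x.2 : ℕ) * discriminant ^ (m - x.2)
  have hQR : ∀ x, QR N W (z x) (F x) := by
    intro x
    have ha : (x.2 : ℕ) ≤ m := Nat.lt_succ_iff.mp x.2.2
    have h1 := QR.of_rel hBq (hrel x.1)
    have h2 := (QR.Bf hBq).pow (M - Mi x.1)
    have h3 := (QR.E4_cube (N := N) hDq).pow (x.2 : ℕ)
    have h4 := (QR.Delta (N := N) hDq).pow (m - x.2)
    refine ((((h1.mul h2).mul h3).mul h4).cast ?_).cast_left ?_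
    · rw [hW]
      push_cast [Nat.cast_sub (hMi x.1), Nat.cast_sub ha]
      ring
    · have e1 : Bq ^ (Mi x.1) * Bq ^ (M - Mi x.1) = Bq ^ M := by
        rw [← pow_add, Nat.add_sub_cancel' (hMi x.1)]
      have e2 : Dq ^ (x.2 : ℕ) * Dq ^ (m - x.2) = Dq ^ m := by
        rw [← pow_add, Nat.add_sub_cancel' ha]
      change y x.1 * Bq ^ (Mi x.1) * Bq ^ (M - Mi x.1) * (Jd 1 * Dq) ^ (x.2 : ℕ)
        * Dq ^ (m - x.2) = (y x.1 * Jd 1 ^ (x.2 : ℕ)) * (Bq ^ M * Dq ^ m)
      rw [← e1, ← e2, mul_pow]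
      ring
  -- the linear system
  let Φ : (Fin (μ + 1) × Fin (m + 1) → Kb) →ₗ[Kb] (Fin (m * (μ + 1) + 1) → Kb) :=
    { toFun := fun l n => ∑ x, l x * (z x).coeff ((n : ℕ) : ℤ)
      map_add' := by
        intro a b
        funext n
        simp [add_mul, Finset.sum_add_distrib]
      map_smul' := by
        intro c a
        funext n
        simp [Finset.mul_sum, mul_assoc] }
  have hker : LinearMap.ker Φ ≠ ⊥ := LinearMap.ker_ne_bot_of_finrank_lt (by
    rw [Module.finrank_fintype_fun_eq_card, Module.finrank_fintype_fun_eq_card, Fintype.card_prod,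
      Fintype.card_fin, Fintype.card_fin, Fintype.card_fin]
    nlinarith)
  obtain ⟨l, hl, hl0⟩ := (Submodule.ne_bot_iff _).mp hker
  have hΦ : ∀ n : ℕ, n ≤ m * (μ + 1) → ∑ x, l x * (z x).coeff (n : ℤ) = 0 := by
    intro n hn
    have := congrFun (LinearMap.mem_ker.mp hl) ⟨n, Nat.lt_succ_iff.mpr hn⟩
    exact this
  have hZ : QR N W (∑ x, algebraMap Kb (LaurentSeries Kb) (l x) * z x)
      (∑ x, (fun _ => algebraMap Kb ℂ (l x)) * F x) :=
    QR.sum _ _ _ fun x _ => ((QR.const (l x)).mul (hQR x)).cast (zero_add W)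
  have hbound : (W * ((Gamma0 N).index : ℤ)).toNat / 12 = m * (μ + 1) := by
    have : W * ((Gamma0 N).index : ℤ) = ((12 * (m * (μ + 1)) : ℕ) : ℤ) := by
      rw [← hμ, hW, kB]
      push_cast
      rw [hm]
      push_cast
      ring
    rw [this, Int.toNat_natCast, Nat.mul_div_cancel_left _ (by norm_num)]
  have hZ0 := hZ.eq_zero_of_coeff (fun n hn => by
    rw [hbound] at hn
    rw [HahnSeries.coeff_sum, ← hΦ n hn]
    refine Finset.sum_congr rfl fun x _ => ?_
    rw [algebraMap_laurentSeries_eq_single, HahnSeries.coeff_single_mul, sub_zero])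
  refine ⟨m, l, hl0, ?_⟩
  have h1 : (∑ x, algebraMap Kb (LaurentSeries Kb) (l x) * z x)
      = (∑ x : Fin (μ + 1) × Fin (m + 1), algebraMap Kb (LaurentSeries Kb) (l x)
        * (y x.1 * Jd 1 ^ (x.2 : ℕ))) * (Bq ^ M * Dq ^ m) := by
    rw [Finset.sum_mul]
    refine Finset.sum_congr rfl fun x _ => ?_
    rw [mul_assoc]
  rw [h1] at hZ0
  exact (mul_eq_zero.mp hZ0).resolve_right
    (mul_ne_zero (pow_ne_zero _ (Bq_ne_zero hBq)) (pow_ne_zero _ (Dq_ne_zero hDq)))
theorem Jd_one_eq : Jd 1 = coeffEmb Kb jq := by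
  rw [Jd, dif_neg one_ne_zero, qExpand_one_apply]

/-- descent of (LinRel) to `ℚ`, by a `ℚ`-linear functional on `ℚ̄`. -/
theorem exists_table_Q {μ : ℕ} (hμ : μ = (Gamma0 N).index) (x : Fin (μ + 1) → LaurentSeries ℚ)
    (hx : ∀ i, ∃ (M : ℕ) (G : ℍ → ℂ), Rel N (coeffEmb Kb (x i)) M G) :
    ∃ (m : ℕ) (w : Fin (μ + 1) × Fin (m + 1) → ℚ), w ≠ 0 ∧
      ∑ p, algebraMap ℚ (LaurentSeries ℚ) (w p) * (x p.1 * jq ^ (p.2 : ℕ)) = 0 := by
  obtain ⟨m, v, hv0, hv⟩ := exists_table_Kb hμ (fun i => coeffEmb Kb (x i)) hx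
  obtain ⟨p₀, hp₀⟩ := Function.ne_iff.mp hv0
  obtain ⟨π, hπ⟩ : ∃ π : Module.Dual ℚ Kb, π (v p₀) ≠ 0 := by
    by_contra hcon
    push Not at hcon
    exact hp₀ ((Module.forall_dual_apply_eq_zero_iff ℚ (v p₀)).mp hcon)
  refine ⟨m, fun p => π (v p), fun h => hπ (congrFun h p₀), ?_⟩
  ext n
  have h1 := congrArg (fun z => HahnSeries.coeff z n) hv
  simp only [HahnSeries.coeff_sum, HahnSeries.coeff_zero] at h1 ⊢
  have h2 : ∀ p : Fin (μ + 1) × Fin (m + 1),
      (algebraMap Kb (LaurentSeries Kb) (v p) * (coeffEmb Kb (x p.1) * Jd 1 ^ (p.2 : ℕ))).coeff n =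
        ((x p.1 * jq ^ (p.2 : ℕ)).coeff n) • v p := by
    intro p
    rw [algebraMap_laurentSeries_eq_single, HahnSeries.coeff_single_mul, sub_zero, Jd_one_eq,
      ← map_pow, ← map_mul, coeffEmb_coeff, Algebra.smul_def, mul_comm]
  rw [Finset.sum_congr rfl fun p _ => h2 p] at h1
  have h3 := congrArg π h1
  rw [map_sum, map_zero] at h3
  rw [← h3]
  refine Finset.sum_congr rfl fun p _ => ?_
  rw [algebraMap_laurentSeries_eq_single, HahnSeries.coeff_single_mul, sub_zero, map_smul,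
    smul_eq_mul, mul_comm]

theorem coeffEmb_algebraMap (c : ℚ) : coeffEmb Kb (algebraMap ℚ (LaurentSeries ℚ) c) =
    algebraMap Kb (LaurentSeries Kb) (algebraMap ℚ Kb c) := by
  rw [algebraMap_laurentSeries_eq_single, algebraMap_laurentSeries_eq_single, coeffEmb,
    coeffMap_single]

/-- every element of the `ℚ`-algebra generated by the `j(q^d)` and `g` is `G / B^M`. -/
theorem exists_rel_of_mem_adjoin_Q {y : LaurentSeries ℚ}
    (hy : y ∈ Algebra.adjoin ℚ (divisorExpansions N ∪ {(gU ℚ N : LaurentSeries ℚ)})) :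
    ∃ (M : ℕ) (G : ℍ → ℂ), Rel N (coeffEmb Kb y) M G := by
  induction hy using Algebra.adjoin_induction with
  | mem x hx =>
    rcases hx with ⟨d, hne, hd, rfl⟩ | hx
    · have h := rel_gen (N := N) hd
      rw [Jd, dif_neg (NeZero.ne d)] at h
      exact ⟨1, _, h⟩
    · rw [Set.mem_singleton_iff.mp hx]
      exact ⟨N, _, rel_gU⟩
  | algebraMap c =>
    rw [coeffEmb_algebraMap]
    exact ⟨0, _, rel_const _⟩
  | add x y _ _ hx hy =>
    obtain ⟨M, G, h⟩ := hx
    obtain ⟨M', G', h'⟩ := hy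
    rw [map_add]
    exact ⟨_, _, h.add h'⟩
  | mul x y _ _ hx hy =>
    obtain ⟨M, G, h⟩ := hx
    obtain ⟨M', G', h'⟩ := hy
    rw [map_mul]
    exact ⟨_, _, h.mul h'⟩
/-- the field `F⁺ = ℚ(j(q^d) (d ∣ N), g)` -/
def Fplus (N : ℕ) : IntermediateField ℚ (LaurentSeries ℚ) :=
  IntermediateField.adjoin ℚ (divisorExpansions N ∪ {(gU ℚ N : LaurentSeries ℚ)})

theorem full_le_Fplus (N : ℕ) : modularFunctionFieldFull N ≤ Fplus N :=
  IntermediateField.adjoin.mono ℚ _ _ Set.subset_union_left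

theorem gU_mem_Fplus (N : ℕ) : (gU ℚ N : LaurentSeries ℚ) ∈ Fplus N :=
  IntermediateField.subset_adjoin ℚ _ (Set.mem_union_right _ rfl)

/-- the polynomial with prescribed coefficients -/
def rowPoly {m : ℕ} (w : Fin (m + 1) → ℚ) : ℚ[X] := ∑ a : Fin (m + 1), C (w a) * X ^ (a : ℕ)

theorem rowPoly_coeff {m : ℕ} (w : Fin (m + 1) → ℚ) (a : Fin (m + 1)) :
    (rowPoly w).coeff a = w a := by
  rw [rowPoly, finsetSum_coeff, Finset.sum_eq_single a, coeff_C_mul_X_pow, if_pos rfl]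
  · intro b _ hb
    rw [coeff_C_mul_X_pow, if_neg (fun h => hb (Fin.ext h.symm))]
  · intro h; exact absurd (Finset.mem_univ _) h

theorem aeval_rowPoly {m : ℕ} (w : Fin (m + 1) → ℚ) :
    aeval jq (rowPoly w) = ∑ a : Fin (m + 1), algebraMap ℚ (LaurentSeries ℚ) (w a) * jq ^ (a : ℕ) := by
  simp [rowPoly, map_sum]

/-- **(N1')**: `ψ(N) + 1` elements `x, 1, g, …, g^(ψ-1)` of `F⁺` are linearly dependent over
`ℚ(j)`. -/
theorem exists_lin_rel (N : ℕ) [NeZero N] (x : LaurentSeries ℚ) (hx : x ∈ Fplus N) :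
    ∃ (b : ℚ[X]) (a : Fin (dedekindPsi N) → ℚ[X]), (b ≠ 0 ∨ a ≠ 0) ∧
      aeval jq b * x = ∑ i, aeval jq (a i) * (gU ℚ N : LaurentSeries ℚ) ^ (i : ℕ) := by
  obtain ⟨r, hr, s, hs, rfl⟩ := IntermediateField.mem_adjoin_iff_div.mp hx
  by_cases hs0 : s = 0
  · exact ⟨1, 0, Or.inl one_ne_zero, by simp [hs0]⟩
  have hμ : dedekindPsi N = (Gamma0 N).index := (card_X N).symm
  have hg : (gU ℚ N : LaurentSeries ℚ) ∈
      Algebra.adjoin ℚ (divisorExpansions N ∪ {(gU ℚ N : LaurentSeries ℚ)}) :=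
    Algebra.subset_adjoin (Set.mem_union_right _ rfl)
  obtain ⟨m, w, hw0, hw⟩ := exists_table_Q hμ
    (Fin.cons r fun i : Fin (dedekindPsi N) => s * (gU ℚ N : LaurentSeries ℚ) ^ (i : ℕ)) (by
      intro i
      refine Fin.cases ?_ (fun i => ?_) i
      · simpa using exists_rel_of_mem_adjoin_Q hr
      · simpa using exists_rel_of_mem_adjoin_Q (mul_mem hs (pow_mem hg _)))
  refine ⟨rowPoly fun a => w (0, a), fun i => -rowPoly fun a => w (i.succ, a), ?_, ?_⟩
  · obtain ⟨⟨i, a⟩, hia⟩ := Function.ne_iff.mp hw0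
    refine Fin.cases (fun hia => ?_) (fun i hia => ?_) i hia
    · left
      intro h
      apply hia
      have := rowPoly_coeff (fun a => w (0, a)) a
      rw [h] at this
      simpa using this.symm
    · right
      intro h
      apply hia
      have h1 := congrFun h i
      simp only [Pi.zero_apply, neg_eq_zero] at h1
      have := rowPoly_coeff (fun a => w (i.succ, a)) a
      rw [h1] at this
      simpa using this.symm
  · rw [Fintype.sum_prod_type, Fin.sum_univ_succ] at hw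
    simp only [Fin.cons_zero, Fin.cons_succ] at hw
    have h1 : aeval jq (rowPoly fun a => w (0, a)) * r +
        (∑ i : Fin (dedekindPsi N), aeval jq (rowPoly fun a => w (i.succ, a)) *
          (gU ℚ N : LaurentSeries ℚ) ^ (i : ℕ)) * s = 0 := by
      rw [← hw, aeval_rowPoly, Finset.sum_mul, Finset.sum_mul]
      congr 1
      · exact Finset.sum_congr rfl fun a _ => by ring
      · refine Finset.sum_congr rfl fun i _ => ?_
        rw [aeval_rowPoly, Finset.sum_mul, Finset.sum_mul]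
        exact Finset.sum_congr rfl fun a _ => by ring
    simp only [map_neg, neg_mul, Finset.sum_neg_distrib]
    field_simp
    linear_combination h1

end

end Fermat.Agent.S28Aux
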