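/-
S28 helper library (T2a): the Gauss valuation ring `V ⊆ ℚ((q))` (localisation of `ℤ_(ℓ)((q))` at `ℓ`)
and the reduction map `red : V → K((q))`.
-/
import Fermat.Agent.S28.Defs

set_option autoImplicit false
set_option linter.unusedSectionVars false
set_option linter.style.haveILetI false

namespace Fermat.Agent.S28Aux

open ModularCurve

noncomputable section

/-- `ℤ_(ℓ)` -/
abbrev Zl (ℓ : ℕ) : Type := ↥(GaloisRep.ratLocalizedAt ℓ)

variable (ℓ : ℕ) [Fact ℓ.Prime] (K : Type*) [Field K] [CharP K ℓ] [Algebra (Zl ℓ) K]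

/-- `ℤ_(ℓ)((q)) → ℚ((q))` -/
def iotaL : LaurentSeries (Zl ℓ) →+* LaurentSeries ℚ := coeffMap (GaloisRep.ratLocalizedAt ℓ).subtype

/-- `ℤ_(ℓ)((q)) → K((q))` -/
def piL : LaurentSeries (Zl ℓ) →+* LaurentSeries K := coeffMap (algebraMap (Zl ℓ) K)

theorem iotaL_injective : Function.Injective (iotaL ℓ) := by
  intro a b h
  ext n
  have := congrArg (fun x => x.coeff n) h
  simpa [iotaL] using this

theorem mem_Zl_iff (q : ℚ) : q ∈ GaloisRep.ratLocalizedAt ℓ ↔ q.den.Coprime ℓ := Iff.rfl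

/-- the inverse of a natural number prime to `ℓ` -/
def invZl (b : ℕ) (hb : b.Coprime ℓ) : Zl ℓ := ⟨(b : ℚ)⁻¹, by
  rw [mem_Zl_iff]
  rcases Nat.eq_zero_or_pos b with rfl | h
  · simp
  · rw [Rat.inv_natCast_den_of_pos h]; exact hb⟩

theorem natCast_mul_invZl (b : ℕ) (hb : b.Coprime ℓ) : (b : Zl ℓ) * invZl ℓ b hb = 1 := by
  have hb0 : b ≠ 0 := by
    rintro rfl
    have : ℓ = 1 := by simpa using hb
    exact (Fact.out : ℓ.Prime).one_lt.ne' this
  apply Subtype.ext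
  simp [invZl, hb0]

theorem natCast_K_ne_zero (b : ℕ) (hb : b.Coprime ℓ) : (b : K) ≠ 0 := by
  intro h
  rw [CharP.cast_eq_zero_iff K ℓ] at h
  have := Nat.Coprime.eq_one_of_dvd hb.symm h
  exact (Fact.out : ℓ.Prime).one_lt.ne' this

theorem Zl_eq (c : Zl ℓ) : c = ((c : ℚ).num : Zl ℓ) * invZl ℓ (c : ℚ).den c.2 := by
  apply Subtype.ext
  simp only [invZl, Subring.coe_mul, Subring.coe_intCast]
  rw [← div_eq_mul_inv, Rat.num_div_den]

theorem algebraMap_Zl_eq_zero_iff (c : Zl ℓ) :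
    algebraMap (Zl ℓ) K c = 0 ↔ ∃ c' : Zl ℓ, c = (ℓ : Zl ℓ) * c' := by
  constructor
  · intro h
    have h1 : (((c : ℚ).den : ℕ) : Zl ℓ) * c = ((c : ℚ).num : Zl ℓ) := by
      apply Subtype.ext
      simp only [Subring.coe_mul, Subring.coe_intCast, Subring.coe_natCast]
      exact Rat.den_mul_eq_num _
    have h2 := congrArg (algebraMap (Zl ℓ) K) h1
    rw [map_mul, h, mul_zero, map_intCast] at h2
    have h3 : ((ℓ : ℕ) : ℤ) ∣ (c : ℚ).num := (CharP.intCast_eq_zero_iff K ℓ _).mp h2.symm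
    obtain ⟨k, hk⟩ := h3
    obtain ⟨u, hu⟩ : ∃ u : Zl ℓ, c = ((c : ℚ).num : Zl ℓ) * u := ⟨_, Zl_eq ℓ c⟩
    refine ⟨(k : Zl ℓ) * u, ?_⟩
    calc c = ((c : ℚ).num : Zl ℓ) * u := hu
      _ = (((ℓ : ℤ) * k : ℤ) : Zl ℓ) * u := by rw [hk]
      _ = (ℓ : Zl ℓ) * ((k : Zl ℓ) * u) := by push_cast; ring
  · rintro ⟨c', rfl⟩
    rw [map_mul, map_natCast, CharP.cast_eq_zero, zero_mul]

/-- every nonzero rational is a power of `ℓ` times a unit of `ℤ_(ℓ)` -/
theorem exists_zpow_mul_rat (c : ℚ) (hc : c ≠ 0) :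
    ∃ (n : ℤ) (u : Zl ℓ), algebraMap (Zl ℓ) K u ≠ 0 ∧ (ℓ : ℚ) ^ n * c = (u : ℚ) := by
  have hℓ : ℓ.Prime := Fact.out
  have hℓ0 : (ℓ : ℚ) ≠ 0 := by exact_mod_cast hℓ.ne_zero
  have hnum : c.num.natAbs ≠ 0 := by simpa using hc
  obtain ⟨α, a', ha', hα⟩ := Nat.exists_eq_pow_mul_and_not_dvd hnum ℓ hℓ.ne_one
  obtain ⟨β, b', hb', hβ⟩ := Nat.exists_eq_pow_mul_and_not_dvd c.den_ne_zero ℓ hℓ.ne_one
  have hb'c : b'.Coprime ℓ := ((Nat.Prime.coprime_iff_not_dvd hℓ).mpr hb').symm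
  have ha'c : a'.Coprime ℓ := ((Nat.Prime.coprime_iff_not_dvd hℓ).mpr ha').symm
  refine ⟨(β : ℤ) - α, ((c.num.sign : ℤ) : Zl ℓ) * (a' : Zl ℓ) * invZl ℓ b' hb'c, ?_, ?_⟩
  · intro h
    have h1 : ((c.num.sign : ℤ) : Zl ℓ) * (a' : Zl ℓ) * invZl ℓ b' hb'c * (b' : Zl ℓ) =
        ((c.num.sign : ℤ) : Zl ℓ) * (a' : Zl ℓ) := by
      rw [mul_assoc, mul_comm (invZl ℓ b' hb'c), natCast_mul_invZl, mul_one]
    have h2 := congrArg (algebraMap (Zl ℓ) K) h1
    rw [map_mul, h, zero_mul, map_mul, map_intCast, map_natCast] at h2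
    rcases mul_eq_zero.mp h2.symm with h3 | h3
    · have hs : c.num.sign = 1 ∨ c.num.sign = -1 := by
        rcases lt_trichotomy c.num 0 with h | h | h
        · right; exact Int.sign_eq_neg_one_of_neg h
        · exact absurd h (by simpa using hc)
        · left; exact Int.sign_eq_one_of_pos h
      rcases hs with hs | hs <;> simp [hs] at h3
    · exact natCast_K_ne_zero ℓ K a' ha'c h3
  · have hb'0 : (b' : ℚ) ≠ 0 := by
      intro h
      have : b' = 0 := by exact_mod_cast h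
      exact hb' (this ▸ dvd_zero _)
    have e1 : (c.num : ℚ) = (c.num.sign : ℚ) * ((ℓ : ℚ) ^ α * a') := by
      have : c.num = c.num.sign * (c.num.natAbs : ℤ) := (Int.sign_mul_natAbs c.num).symm
      conv_lhs => rw [this, hα]
      push_cast
      ring
    have e2 : (c.den : ℚ) = (ℓ : ℚ) ^ β * b' := by
      conv_lhs => rw [hβ]
      push_cast
      ring
    conv_lhs => rw [← Rat.num_div_den c, e1, e2]
    simp only [invZl, Subring.coe_mul, Subring.coe_intCast, Subring.coe_natCast]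
    rw [zpow_sub₀ hℓ0, zpow_natCast, zpow_natCast]
    field_simp


theorem iotaL_ne_zero {b : LaurentSeries (Zl ℓ)} (hb : b ≠ 0) : iotaL ℓ b ≠ 0 :=
  (map_ne_zero_iff _ (iotaL_injective ℓ)).mpr hb

theorem ne_zero_of_piL {b : LaurentSeries (Zl ℓ)} (hb : piL ℓ K b ≠ 0) : b ≠ 0 := by
  rintro rfl
  exact hb (map_zero _)

/-- the Gauss valuation ring -/
def Vring : Subring (LaurentSeries ℚ) where
  carrier := {x | ∃ a b : LaurentSeries (Zl ℓ), piL ℓ K b ≠ 0 ∧ x * iotaL ℓ b = iotaL ℓ a}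
  mul_mem' := by
    rintro x y ⟨a, b, hb, h⟩ ⟨a', b', hb', h'⟩
    refine ⟨a * a', b * b', by rw [map_mul]; exact mul_ne_zero hb hb', ?_⟩
    rw [map_mul, map_mul, ← h, ← h']; ring
  one_mem' := ⟨1, 1, by simp, by simp⟩
  add_mem' := by
    rintro x y ⟨a, b, hb, h⟩ ⟨a', b', hb', h'⟩
    refine ⟨a * b' + a' * b, b * b', by rw [map_mul]; exact mul_ne_zero hb hb', ?_⟩
    rw [map_add, map_mul, map_mul, map_mul, ← h, ← h']; ring
  zero_mem' := ⟨0, 1, by simp, by simp⟩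
  neg_mem' := by
    rintro x ⟨a, b, hb, h⟩
    exact ⟨-a, b, hb, by rw [map_neg, ← h]; ring⟩

theorem mem_Vring_iff {x : LaurentSeries ℚ} : x ∈ Vring ℓ K ↔
    ∃ a b : LaurentSeries (Zl ℓ), piL ℓ K b ≠ 0 ∧ x * iotaL ℓ b = iotaL ℓ a := Iff.rfl

theorem iotaL_mem_Vring (a : LaurentSeries (Zl ℓ)) : iotaL ℓ a ∈ Vring ℓ K :=
  ⟨a, 1, by simp, by simp⟩

/-- the underlying function of the reduction map -/
def redFun (x : Vring ℓ K) : LaurentSeries K :=
  piL ℓ K x.2.choose / piL ℓ K x.2.choose_spec.choose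

theorem redFun_mul_piL (x : Vring ℓ K) (a b : LaurentSeries (Zl ℓ))
    (h : (x : LaurentSeries ℚ) * iotaL ℓ b = iotaL ℓ a) : redFun ℓ K x * piL ℓ K b = piL ℓ K a := by
  obtain ⟨hb0, h0⟩ := x.2.choose_spec.choose_spec
  unfold redFun
  set a0 := x.2.choose
  set b0 := x.2.choose_spec.choose
  have h1 : a0 * b = a * b0 := by
    apply iotaL_injective ℓ
    rw [map_mul, map_mul, ← h0, ← h]; ring
  have h2 := congrArg (piL ℓ K) h1
  rw [map_mul, map_mul] at h2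
  rw [div_mul_eq_mul_div, h2, mul_div_assoc, div_self hb0, mul_one]

/-- the reduction map -/
def red : Vring ℓ K →+* LaurentSeries K where
  toFun := redFun ℓ K
  map_one' := by
    simpa using redFun_mul_piL ℓ K 1 1 1 (by simp)
  map_zero' := by
    simpa using redFun_mul_piL ℓ K 0 0 1 (by simp)
  map_mul' := by
    intro x y
    obtain ⟨a, b, hb, h⟩ := x.2
    obtain ⟨a', b', hb', h'⟩ := y.2
    have h1 := redFun_mul_piL ℓ K x a b h
    have h2 := redFun_mul_piL ℓ K y a' b' h'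
    have h3 := redFun_mul_piL ℓ K (x * y) (a * a') (b * b') (by
      rw [map_mul, map_mul, ← h, ← h', Subring.coe_mul]; ring)
    rw [map_mul, map_mul, ← h1, ← h2] at h3
    have hbb : piL ℓ K b * piL ℓ K b' ≠ 0 := mul_ne_zero hb hb'
    apply mul_right_cancel₀ hbb
    rw [h3]; ring
  map_add' := by
    intro x y
    obtain ⟨a, b, hb, h⟩ := x.2
    obtain ⟨a', b', hb', h'⟩ := y.2
    have h1 := redFun_mul_piL ℓ K x a b h
    have h2 := redFun_mul_piL ℓ K y a' b' h'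
    have h3 := redFun_mul_piL ℓ K (x + y) (a * b' + a' * b)
      (b * b') (by
        rw [map_add, map_mul, map_mul, map_mul, ← h, ← h', Subring.coe_add]; ring)
    rw [map_add, map_mul, map_mul, map_mul, ← h1, ← h2] at h3
    have hbb : piL ℓ K b * piL ℓ K b' ≠ 0 := mul_ne_zero hb hb'
    apply mul_right_cancel₀ hbb
    rw [h3]; ring

theorem red_mul_piL (x : Vring ℓ K) (a b : LaurentSeries (Zl ℓ))
    (h : (x : LaurentSeries ℚ) * iotaL ℓ b = iotaL ℓ a) : red ℓ K x * piL ℓ K b = piL ℓ K a :=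
  redFun_mul_piL ℓ K x a b h

theorem red_iotaL (a : LaurentSeries (Zl ℓ)) :
    red ℓ K ⟨iotaL ℓ a, iotaL_mem_Vring ℓ K a⟩ = piL ℓ K a := by
  simpa using red_mul_piL ℓ K ⟨iotaL ℓ a, iotaL_mem_Vring ℓ K a⟩ a 1 (by simp)


theorem natCast_mul_coeff {R : Type*} [CommRing R] (n : ℕ) (a : LaurentSeries R) (k : ℤ) :
    ((n : LaurentSeries R) * a).coeff k = (n : R) * a.coeff k := by
  rw [← nsmul_eq_mul, ← nsmul_eq_mul]
  induction n with
  | zero => simp
  | succ n ih => rw [succ_nsmul, succ_nsmul, HahnSeries.coeff_add, ih]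

theorem natCast_laurent_ne_zero {R : Type*} [CommRing R] [CharZero R] {n : ℕ} (hn : n ≠ 0) :
    (n : LaurentSeries R) ≠ 0 := by
  intro h
  have h1 := natCast_mul_coeff n (1 : LaurentSeries R) 0
  rw [h, zero_mul, HahnSeries.coeff_zero, HahnSeries.coeff_one, if_pos rfl, mul_one] at h1
  exact hn (by exact_mod_cast h1.symm)

/-- a series which vanishes mod `ℓ` is divisible by `ℓ`. -/
theorem exists_eq_mul_of_piL_eq_zero (a : LaurentSeries (Zl ℓ)) (ha : piL ℓ K a = 0) :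
    ∃ a' : LaurentSeries (Zl ℓ), a = (ℓ : LaurentSeries (Zl ℓ)) * a' := by
  have h : ∀ n : ℤ, ∃ c' : Zl ℓ, a.coeff n = (ℓ : Zl ℓ) * c' := by
    intro n
    rw [← algebraMap_Zl_eq_zero_iff ℓ K]
    have := congrArg (fun x => x.coeff n) ha
    simpa [piL] using this
  choose c hc using h
  have hℓ0 : (ℓ : Zl ℓ) ≠ 0 := by
    have : ℓ ≠ 0 := (Fact.out : ℓ.Prime).ne_zero
    exact_mod_cast this
  have hsupp : Function.support c ⊆ a.support := by
    intro n hn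
    rw [HahnSeries.mem_support, hc n]
    exact mul_ne_zero hℓ0 hn
  refine ⟨⟨c, a.isPWO_support.mono hsupp⟩, ?_⟩
  ext n
  rw [natCast_mul_coeff, hc n]

theorem padicValRat_Zl_nonneg (c : Zl ℓ) : 0 ≤ padicValRat ℓ (c : ℚ) := by
  rw [padicValRat_def]
  have h : ¬ ℓ ∣ (c : ℚ).den := by
    intro h
    have := Nat.Coprime.eq_one_of_dvd (Nat.Coprime.symm c.2) h
    exact (Fact.out : ℓ.Prime).one_lt.ne' this
  rw [padicValNat.eq_zero_of_not_dvd h]
  simp

/-- every nonzero series is a power of `ℓ` times a series which is nonzero mod `ℓ`. -/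
theorem exists_eq_pow_mul (a : LaurentSeries (Zl ℓ)) (ha : a ≠ 0) :
    ∃ (k : ℕ) (a' : LaurentSeries (Zl ℓ)), a = (ℓ : LaurentSeries (Zl ℓ)) ^ k * a' ∧
      piL ℓ K a' ≠ 0 := by
  obtain ⟨n0, hn0⟩ : ∃ n0, a.coeff n0 ≠ 0 := by
    by_contra h
    push Not at h
    exact ha (HahnSeries.ext (funext h))
  have key : ∀ (m : ℕ) (a : LaurentSeries (Zl ℓ)), a.coeff n0 ≠ 0 →
      padicValRat ℓ ((a.coeff n0 : Zl ℓ) : ℚ) < m →
      ∃ (k : ℕ) (a' : LaurentSeries (Zl ℓ)), a = (ℓ : LaurentSeries (Zl ℓ)) ^ k * a' ∧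
        piL ℓ K a' ≠ 0 := by
    intro m
    induction m with
    | zero =>
      intro a _ h
      have := padicValRat_Zl_nonneg ℓ (a.coeff n0)
      simp at h
      omega
    | succ m ih =>
      intro a h0 h
      by_cases hp : piL ℓ K a = 0
      · obtain ⟨a', rfl⟩ := exists_eq_mul_of_piL_eq_zero ℓ K a hp
        rw [natCast_mul_coeff] at h0 h
        have h0' : a'.coeff n0 ≠ 0 := right_ne_zero_of_mul h0
        have hq : ((a'.coeff n0 : Zl ℓ) : ℚ) ≠ 0 := by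
          intro h; exact h0' (Subtype.ext h)
        have hℓq : (ℓ : ℚ) ≠ 0 := by
          have : ℓ ≠ 0 := (Fact.out : ℓ.Prime).ne_zero
          exact_mod_cast this
        rw [Subring.coe_mul, Subring.coe_natCast, padicValRat.mul hℓq hq,
          padicValRat.self (Fact.out : ℓ.Prime).one_lt] at h
        obtain ⟨k, a'', h1, h2⟩ := ih a' h0' (by push_cast at h; omega)
        exact ⟨k + 1, a'', by rw [h1]; ring, h2⟩
      · exact ⟨0, a, by simp, hp⟩
  exact key (padicValRat ℓ ((a.coeff n0 : Zl ℓ) : ℚ)).toNat.succ a hn0 (by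
    have := Int.self_le_toNat (padicValRat ℓ ((a.coeff n0 : Zl ℓ) : ℚ))
    push_cast
    omega)

theorem natCast_L_ne_zero : (ℓ : LaurentSeries ℚ) ≠ 0 :=
  natCast_laurent_ne_zero (Fact.out : ℓ.Prime).ne_zero

theorem natCast_LK_eq_zero : (ℓ : LaurentSeries K) = 0 := by
  rw [← map_natCast (algebraMap K (LaurentSeries K)), CharP.cast_eq_zero, map_zero]

theorem natCast_mem_Vring : (ℓ : LaurentSeries ℚ) ∈ Vring ℓ K := natCast_mem _ _

theorem red_natCast : red ℓ K ⟨(ℓ : LaurentSeries ℚ), natCast_mem_Vring ℓ K⟩ = 0 := by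
  have : (⟨(ℓ : LaurentSeries ℚ), natCast_mem_Vring ℓ K⟩ : Vring ℓ K) = ((ℓ : ℕ) : Vring ℓ K) :=
    Subtype.ext (by simp)
  rw [this, map_natCast, natCast_LK_eq_zero]

/-- the kernel of the reduction is generated by `ℓ` -/
theorem red_eq_zero_iff (x : Vring ℓ K) :
    red ℓ K x = 0 ↔ (x : LaurentSeries ℚ) * (ℓ : LaurentSeries ℚ)⁻¹ ∈ Vring ℓ K := by
  constructor
  · intro h
    obtain ⟨a, b, hb, hab⟩ := x.2
    have h1 := red_mul_piL ℓ K x a b hab
    rw [h, zero_mul] at h1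
    obtain ⟨a', rfl⟩ := exists_eq_mul_of_piL_eq_zero ℓ K a h1.symm
    refine ⟨a', b, hb, ?_⟩
    rw [map_mul, map_natCast] at hab
    rw [mul_right_comm, hab, mul_comm, ← mul_assoc, inv_mul_cancel₀ (natCast_L_ne_zero ℓ), one_mul]
  · intro h
    have : x = ⟨_, h⟩ * ⟨(ℓ : LaurentSeries ℚ), natCast_mem_Vring ℓ K⟩ := by
      apply Subtype.ext
      rw [Subring.coe_mul]
      simp only
      rw [mul_assoc, inv_mul_cancel₀ (natCast_L_ne_zero ℓ), mul_one]
    rw [this, map_mul, red_natCast, mul_zero]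

theorem inv_mem_Vring (x : Vring ℓ K) (hx : red ℓ K x ≠ 0) :
    (x : LaurentSeries ℚ)⁻¹ ∈ Vring ℓ K := by
  obtain ⟨a, b, hb, hab⟩ := x.2
  have h1 := red_mul_piL ℓ K x a b hab
  have hx0 : (x : LaurentSeries ℚ) ≠ 0 := by
    intro h
    apply hx
    have : x = 0 := Subtype.ext h
    rw [this, map_zero]
  refine ⟨b, a, by rw [← h1]; exact mul_ne_zero hx hb, ?_⟩
  rw [← hab, ← mul_assoc, inv_mul_cancel₀ hx0, one_mul]

/-- the fraction field of `ℤ_(ℓ)((q))` inside `ℚ((q))` -/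
def Wfield : IntermediateField ℚ (LaurentSeries ℚ) where
  carrier := {x | ∃ a b : LaurentSeries (Zl ℓ), b ≠ 0 ∧ x * iotaL ℓ b = iotaL ℓ a}
  mul_mem' := by
    rintro x y ⟨a, b, hb, h⟩ ⟨a', b', hb', h'⟩
    refine ⟨a * a', b * b', mul_ne_zero hb hb', ?_⟩
    rw [map_mul, map_mul, ← h, ← h']; ring
  one_mem' := ⟨1, 1, one_ne_zero, by simp⟩
  add_mem' := by
    rintro x y ⟨a, b, hb, h⟩ ⟨a', b', hb', h'⟩
    refine ⟨a * b' + a' * b, b * b', mul_ne_zero hb hb', ?_⟩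
    rw [map_add, map_mul, map_mul, map_mul, ← h, ← h']; ring
  zero_mem' := ⟨0, 1, one_ne_zero, by simp⟩
  algebraMap_mem' := by
    intro r
    refine ⟨(r.num : LaurentSeries (Zl ℓ)), (r.den : LaurentSeries (Zl ℓ)), ?_, ?_⟩
    · exact natCast_laurent_ne_zero r.den_ne_zero
    · rw [map_intCast, map_natCast, ← map_natCast (algebraMap ℚ (LaurentSeries ℚ)),
        ← map_intCast (algebraMap ℚ (LaurentSeries ℚ)), ← map_mul, Rat.mul_den_eq_num]
  inv_mem' := by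
    rintro x ⟨a, b, hb, h⟩
    by_cases hx : x = 0
    · subst hx
      exact ⟨0, 1, one_ne_zero, by simp⟩
    · refine ⟨b, a, ?_, ?_⟩
      · rintro rfl
        rw [map_zero] at h
        rcases mul_eq_zero.mp h with h | h
        · exact hx h
        · exact iotaL_ne_zero ℓ hb h
      · rw [← h, ← mul_assoc, inv_mul_cancel₀ hx, one_mul]

theorem mem_Wfield_iff {x : LaurentSeries ℚ} : x ∈ Wfield ℓ ↔
    ∃ a b : LaurentSeries (Zl ℓ), b ≠ 0 ∧ x * iotaL ℓ b = iotaL ℓ a := Iff.rfl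

theorem iotaL_mem_Wfield (a : LaurentSeries (Zl ℓ)) : iotaL ℓ a ∈ Wfield ℓ :=
  ⟨a, 1, one_ne_zero, by simp⟩

/-- `V` is a discrete valuation ring of `W` with uniformiser `ℓ`. -/
theorem exists_zpow_mul_mem {x : LaurentSeries ℚ} (hx : x ∈ Wfield ℓ) (h0 : x ≠ 0) :
    ∃ (n : ℤ) (h : (ℓ : LaurentSeries ℚ) ^ n * x ∈ Vring ℓ K), red ℓ K ⟨_, h⟩ ≠ 0 := by
  obtain ⟨a, b, hb, hab⟩ := hx
  have ha : a ≠ 0 := by
    rintro rfl
    rw [map_zero] at hab
    rcases mul_eq_zero.mp hab with h | h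
    · exact h0 h
    · exact iotaL_ne_zero ℓ hb h
  obtain ⟨k, a', rfl, ha'⟩ := exists_eq_pow_mul ℓ K a ha
  obtain ⟨m, b', rfl, hb'⟩ := exists_eq_pow_mul ℓ K b hb
  have hL := natCast_L_ne_zero ℓ
  have key : (ℓ : LaurentSeries ℚ) ^ ((m : ℤ) - k) * x * iotaL ℓ b' = iotaL ℓ a' := by
    rw [map_mul, map_mul, map_pow, map_pow, map_natCast] at hab
    rw [zpow_sub₀ hL, zpow_natCast, zpow_natCast]
    field_simp
    linear_combination hab
  have hmem : (ℓ : LaurentSeries ℚ) ^ ((m : ℤ) - k) * x ∈ Vring ℓ K := ⟨a', b', hb', key⟩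
  refine ⟨(m : ℤ) - k, hmem, ?_⟩
  intro h
  have := red_mul_piL ℓ K ⟨_, hmem⟩ a' b' key
  rw [h, zero_mul] at this
  exact ha' this.symm


/-- `V` is integrally closed in `W`. -/
theorem mem_Vring_of_isIntegral {x : LaurentSeries ℚ} (hx : x ∈ Wfield ℓ)
    (h : IsIntegral (Vring ℓ K) x) : x ∈ Vring ℓ K := by
  by_cases hx0 : x = 0
  · rw [hx0]; exact zero_mem _
  obtain ⟨n, hmem, hred⟩ := exists_zpow_mul_mem ℓ K hx hx0
  have hL := natCast_L_ne_zero ℓ
  rcases le_or_gt n 0 with hn | hn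
  · obtain ⟨k, rfl⟩ : ∃ k : ℕ, n = -(k : ℤ) := ⟨n.natAbs, by omega⟩
    have : x = (ℓ : LaurentSeries ℚ) ^ k * ((ℓ : LaurentSeries ℚ) ^ (-(k : ℤ)) * x) := by
      rw [← mul_assoc, zpow_neg, zpow_natCast, mul_inv_cancel₀ (pow_ne_zero k hL), one_mul]
    rw [this]
    exact mul_mem (pow_mem (natCast_mem_Vring ℓ K) k) hmem
  · exfalso
    obtain ⟨k, rfl⟩ : ∃ k : ℕ, n = ((k + 1 : ℕ) : ℤ) := ⟨(n - 1).toNat, by push_cast; omega⟩
    set z : Vring ℓ K := ⟨_, hmem⟩ with hz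
    set zi : Vring ℓ K := ⟨_, inv_mem_Vring ℓ K z hred⟩ with hzi
    set w : Vring ℓ K := ⟨(ℓ : LaurentSeries ℚ), natCast_mem_Vring ℓ K⟩ ^ (k + 1) * zi with hw
    have hwx : (w : LaurentSeries ℚ) = x⁻¹ := by
      have e1 : (zi : LaurentSeries ℚ) = ((ℓ : LaurentSeries ℚ) ^ ((k + 1 : ℕ) : ℤ) * x)⁻¹ := rfl
      rw [hw, Subring.coe_mul, Subring.coe_pow, e1]
      simp only
      rw [zpow_natCast, mul_inv, ← mul_assoc, mul_inv_cancel₀ (pow_ne_zero _ hL), one_mul]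
    have hwr : red ℓ K w = 0 := by
      rw [hw, map_mul, map_pow, red_natCast, zero_pow (Nat.succ_ne_zero k), zero_mul]
    obtain ⟨p, hp, hpx⟩ := h
    letI : Invertible x := invertibleOfNonzero hx0
    have h1 := Polynomial.eval₂_reverse_mul_pow (algebraMap (Vring ℓ K) (LaurentSeries ℚ)) x p
    rw [hpx, invOf_eq_inv] at h1
    have h2 : Polynomial.eval₂ (algebraMap (Vring ℓ K) (LaurentSeries ℚ)) x⁻¹ p.reverse = 0 := by
      rcases mul_eq_zero.mp h1 with h | h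
      · exact h
      · exact absurd h (pow_ne_zero _ hx0)
    rw [← hwx, show (w : LaurentSeries ℚ) = algebraMap (Vring ℓ K) (LaurentSeries ℚ) w from rfl,
      Polynomial.eval₂_at_apply] at h2
    have h3 : p.reverse.eval w = 0 := Subtype.ext h2
    have h4 := congrArg (red ℓ K) h3
    rw [map_zero, ← Polynomial.eval₂_id, Polynomial.hom_eval₂, hwr, RingHom.comp_id,
      Polynomial.eval₂_at_zero, Polynomial.coeff_zero_reverse, hp.leadingCoeff, map_one] at h4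
    exact one_ne_zero h4

end

end Fermat.Agent.S28Aux
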