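/-
S28 helper library (T2n): normalisation of rational polynomials at `ℓ`, Gauss lemma.
-/
import Fermat.Agent.S28.Gauss

set_option autoImplicit false
set_option linter.unusedSectionVars false

namespace Fermat.Agent.S28Aux

open ModularCurve Polynomial

noncomputable section

variable (ℓ : ℕ) [Fact ℓ.Prime] (K : Type*) [Field K] [CharP K ℓ] [Algebra (Zl ℓ) K]

/-- `ℤ_(ℓ)[X] → ℚ[X]` -/
abbrev toQ (p : (Zl ℓ)[X]) : ℚ[X] := p.map (GaloisRep.ratLocalizedAt ℓ).subtype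

/-- `ℤ_(ℓ)[X] → K[X]` -/
abbrev toK (p : (Zl ℓ)[X]) : K[X] := p.map (algebraMap (Zl ℓ) K)

theorem algebraMap_laurent_eq_C {R : Type*} [CommRing R] (c : R) :
    algebraMap R (LaurentSeries R) c = HahnSeries.C c := by
  rw [HahnSeries.algebraMap_apply']
  have : algebraMap R (PowerSeries R) c = PowerSeries.C c := rfl
  rw [this, HahnSeries.ofPowerSeries_C]

theorem coeffMap_comp_algebraMap {R S : Type*} [CommRing R] [CommRing S] (f : R →+* S) :
    (coeffMap f).comp (algebraMap R (LaurentSeries R)) = (algebraMap S (LaurentSeries S)).comp f := by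
  ext c n
  simp only [RingHom.comp_apply, algebraMap_laurent_eq_C, HahnSeries.C_apply]
  simp [coeffMap, HahnSeries.coeff_single, apply_ite f]

theorem aeval_coeffMap {R S : Type*} [CommRing R] [CommRing S] (f : R →+* S)
    (s : LaurentSeries R) (p : R[X]) :
    aeval (coeffMap f s) (p.map f) = coeffMap f (aeval s p) := by
  rw [aeval_def, aeval_def, eval₂_map, hom_eval₂, coeffMap_comp_algebraMap]

theorem aeval_iotaL (s : LaurentSeries (Zl ℓ)) (p : (Zl ℓ)[X]) :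
    aeval (iotaL ℓ s) (toQ ℓ p) = iotaL ℓ (aeval s p) :=
  aeval_coeffMap _ s p

theorem aeval_piL (s : LaurentSeries (Zl ℓ)) (p : (Zl ℓ)[X]) :
    aeval (piL ℓ K s) (toK ℓ K p) = piL ℓ K (aeval s p) :=
  aeval_coeffMap _ s p

/-- a finite family of rational polynomials, not all zero, can be scaled by a power of `ℓ` to
a family of `ℓ`-integral polynomials, not all zero mod `ℓ`. -/
theorem exists_normalize {ι : Type*} [Finite ι] (p : ι → ℚ[X]) (hp : p ≠ 0) :
    ∃ (m : ℤ) (p' : ι → (Zl ℓ)[X]), (∀ i, toQ ℓ (p' i) = C ((ℓ : ℚ) ^ m) * p i) ∧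
      ∃ i, toK ℓ K (p' i) ≠ 0 := by
  classical
  cases nonempty_fintype ι
  have hℓ0 : (ℓ : ℚ) ≠ 0 := by exact_mod_cast (Fact.out : ℓ.Prime).ne_zero
  -- the exponent attached to a coefficient
  have hex : ∀ c : ℚ, ∃ (n : ℤ) (u : Zl ℓ), c ≠ 0 →
      (algebraMap (Zl ℓ) K u ≠ 0 ∧ (ℓ : ℚ) ^ n * c = (u : ℚ)) := by
    intro c
    by_cases hc : c = 0
    · exact ⟨0, 0, fun h => absurd hc h⟩
    · obtain ⟨n, u, h1, h2⟩ := exists_zpow_mul_rat ℓ K c hc
      exact ⟨n, u, fun _ => ⟨h1, h2⟩⟩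
  choose e u heu using hex
  let T : Finset (Σ _ : ι, ℕ) := Finset.univ.sigma fun i => (p i).support
  have hT : T.Nonempty := by
    by_contra hne
    rw [Finset.not_nonempty_iff_eq_empty] at hne
    apply hp
    funext i
    by_contra hi
    have hi' : p i ≠ 0 := hi
    obtain ⟨n, hn⟩ := Polynomial.support_nonempty.mpr hi'
    have : (⟨i, n⟩ : Σ _ : ι, ℕ) ∈ T := Finset.mem_sigma.mpr ⟨Finset.mem_univ _, hn⟩
    rw [hne] at this
    exact absurd this (Finset.notMem_empty _)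
  obtain ⟨⟨i0, n0⟩, h0T, hmax⟩ := Finset.exists_max_image T
    (fun x => e ((p x.1).coeff x.2)) hT
  have hc0 : (p i0).coeff n0 ≠ 0 := by
    have := (Finset.mem_sigma.mp h0T).2
    exact Polynomial.mem_support_iff.mp this
  set m : ℤ := e ((p i0).coeff n0) with hm
  have hlift : ∀ i, C ((ℓ : ℚ) ^ m) * p i ∈ Polynomial.lifts (GaloisRep.ratLocalizedAt ℓ).subtype := by
    intro i
    rw [Polynomial.lifts_iff_coeff_lifts]
    intro n
    rw [Polynomial.coeff_C_mul]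
    by_cases hc : (p i).coeff n = 0
    · exact ⟨0, by rw [hc, mul_zero, map_zero]⟩
    · have hle : e ((p i).coeff n) ≤ m := hmax ⟨i, n⟩
        (Finset.mem_sigma.mpr ⟨Finset.mem_univ _, Polynomial.mem_support_iff.mpr hc⟩)
      obtain ⟨k, hk⟩ := Int.eq_ofNat_of_zero_le (sub_nonneg.mpr hle)
      refine ⟨(ℓ : Zl ℓ) ^ k * u ((p i).coeff n), ?_⟩
      have h2 := (heu _ hc).2
      have : m = k + e ((p i).coeff n) := by omega
      simp only [Subring.subtype_apply, Subring.coe_mul, Subring.coe_pow, Subring.coe_natCast]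
      rw [← h2, this, zpow_add₀ hℓ0, zpow_natCast]
      ring
  choose p' hp' using fun i => (Polynomial.mem_lifts _).mp (hlift i)
  refine ⟨m, p', hp', i0, ?_⟩
  intro h
  have h1 := congrArg (fun q => q.coeff n0) h
  simp only [Polynomial.coeff_map, Polynomial.coeff_zero] at h1
  have h2 : (p' i0).coeff n0 = u ((p i0).coeff n0) := by
    apply Subtype.ext
    have h3 := congrArg (fun q => q.coeff n0) (hp' i0)
    simp only [Polynomial.coeff_map, Polynomial.coeff_C_mul, Subring.subtype_apply] at h3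
    rw [h3, ← (heu _ hc0).2]
  rw [h2] at h1
  exact (heu _ hc0).1 h1

/-- Gauss lemma: `V ∩ ℚ[s] = ℤ_(ℓ)[s]`. -/
theorem exists_toQ_eq_of_aeval_mem (s : LaurentSeries (Zl ℓ)) (hs : Transcendental K (piL ℓ K s))
    (p : ℚ[X]) (h : aeval (iotaL ℓ s) p ∈ Vring ℓ K) : ∃ p' : (Zl ℓ)[X], toQ ℓ p' = p := by
  have hℓ0 : (ℓ : ℚ) ≠ 0 := by exact_mod_cast (Fact.out : ℓ.Prime).ne_zero
  by_cases hp : p = 0
  · exact ⟨0, by rw [hp]; simp⟩
  obtain ⟨m, p', hp', ⟨⟩, hK⟩ := exists_normalize ℓ K (fun _ : Unit => p)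
    (fun h0 => hp (congrFun h0 ()))
  have hp1 := hp' ()
  rcases le_or_gt m 0 with hm | hm
  · obtain ⟨k, hk⟩ := Int.eq_ofNat_of_zero_le (neg_nonneg.mpr hm)
    refine ⟨C ((ℓ : Zl ℓ) ^ k) * p' (), ?_⟩
    have hp2 : (p' ()).map (GaloisRep.ratLocalizedAt ℓ).subtype = C ((ℓ : ℚ) ^ m) * p := hp1
    rw [toQ, Polynomial.map_mul, hp2, Polynomial.map_C, ← mul_assoc, ← C_mul]
    have : (GaloisRep.ratLocalizedAt ℓ).subtype ((ℓ : Zl ℓ) ^ k) * (ℓ : ℚ) ^ m = 1 := by
      have hmk : m = -(k : ℤ) := by omega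
      simp only [Subring.subtype_apply, Subring.coe_pow, Subring.coe_natCast]
      rw [hmk, zpow_neg, zpow_natCast, mul_inv_cancel₀ (pow_ne_zero _ hℓ0)]
    rw [this, C_1, one_mul]
  · exfalso
    obtain ⟨k, hk⟩ := Int.eq_ofNat_of_zero_le (show 0 ≤ m - 1 by omega)
    have hmk : m = ((k + 1 : ℕ) : ℤ) := by push_cast; omega
    have h1 : iotaL ℓ (aeval s (p' ())) = (ℓ : LaurentSeries ℚ) ^ (k + 1) * aeval (iotaL ℓ s) p := by
      rw [← aeval_iotaL, hp1, map_mul, aeval_C, hmk, zpow_natCast, map_pow, map_natCast]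
    have h2 : (⟨iotaL ℓ (aeval s (p' ())), iotaL_mem_Vring ℓ K _⟩ : Vring ℓ K)
        = ⟨(ℓ : LaurentSeries ℚ), natCast_mem_Vring ℓ K⟩ ^ (k + 1) * ⟨_, h⟩ :=
      Subtype.ext h1
    have h3 := congrArg (red ℓ K) h2
    rw [red_iotaL, map_mul, map_pow, red_natCast, zero_pow (Nat.succ_ne_zero k), zero_mul,
      ← aeval_piL] at h3
    exact hK ((transcendental_iff.mp hs) _ h3)

end

end Fermat.Agent.S28Aux
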