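/-
S28 helper library (T2b): the descent step `y ∈ B, red y = 0 ⟹ y / ℓ ∈ B`.
-/
import Fermat.Agent.S28.Norm

set_option autoImplicit false
set_option linter.unusedSectionVars false

namespace Fermat.Agent.S28Aux

open ModularCurve Polynomial

noncomputable section

/-- coefficients of the minimal polynomial over a field `E` of an `R`-integral element are
`R`-integral. -/
theorem isIntegral_coeff_minpoly' {R E L : Type*} [CommRing R] [Field E] [Field L] [Algebra R E]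
    [Algebra E L] [Algebra R L] [IsScalarTower R E L] {x : L} (hx : IsIntegral R x) (i : ℕ) :
    IsIntegral R ((minpoly E x).coeff i) := by
  obtain ⟨f, hf, hfx⟩ := hx
  have hxE : IsIntegral E x := ⟨f.map (algebraMap R E), hf.map _, by
    rw [eval₂_map, ← IsScalarTower.algebraMap_eq]; exact hfx⟩
  have hd : minpoly E x ∣ f.map (algebraMap R E) := by
    apply minpoly.dvd
    rw [aeval_def, eval₂_map, ← IsScalarTower.algebraMap_eq]
    exact hfx
  have := integralClosure.mem_lifts_of_monic_of_dvd_map E hf (minpoly.monic hxE) hd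
  rw [lifts_iff_coeff_lifts] at this
  obtain ⟨c, hc⟩ := this i
  rw [← hc]
  exact c.2

/-- a monic polynomial all of whose coefficients are in the range of `f` lifts to a monic one. -/
theorem exists_monic_lift {R S : Type*} [CommRing R] [CommRing S] (f : R →+* S) {p : S[X]}
    (hp : p.Monic) (h : ∀ i, p.coeff i ∈ Set.range f) : ∃ q : R[X], q.Monic ∧ q.map f = p := by
  obtain ⟨q, hq, -, hm⟩ := lifts_and_natDegree_eq_and_monic ((lifts_iff_coeff_lifts p).2 h) hp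
  exact ⟨q, hm, hq⟩

theorem isIntegral_of_monic_lift {R S : Type*} [CommRing R] [CommRing S] [Algebra R S] {p : S[X]}
    (hp : p.Monic) (h : ∀ i, p.coeff i ∈ Set.range (algebraMap R S)) {x : S}
    (hx : p.eval x = 0) : IsIntegral R x := by
  obtain ⟨q, hm, hq⟩ := exists_monic_lift (algebraMap R S) hp h
  exact ⟨q, hm, by rw [← eval_map, hq, hx]⟩

theorem isIntegral_subring_of_monic {S : Type*} [CommRing S] (V : Subring S) {p : S[X]}
    (hp : p.Monic) (h : ∀ i, p.coeff i ∈ V) {x : S} (hx : p.eval x = 0) : IsIntegral V x :=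
  isIntegral_of_monic_lift hp (fun i => ⟨⟨_, h i⟩, rfl⟩) hx

open IntermediateField IntermediateField.algebraAdjoinAdjoin in
/-- The abstract form of the descent. -/
theorem abstract_descent {F L : Type*} [Field F] [Field L] [Algebra F L] (σ γ : L)
    (hσ : Transcendental F σ) (V : Subring L) (Fp : IntermediateField F L) (hσF : σ ∈ Fp)
    (hγF : γ ∈ Fp) (hγV : γ ∈ V)
    (hV : ∀ z ∈ Fp, IsIntegral V z → z ∈ V) (n : ℕ) (hn : 0 < n)
    (hspan : ∀ z ∈ Fp, z ∈ V → ∃ (B : F[X]) (A : Fin n → F[X]), aeval σ B ≠ 0 ∧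
      (aeval σ B)⁻¹ ∈ V ∧ (∀ i, aeval σ (A i) ∈ V) ∧
      z * aeval σ B = ∑ i, aeval σ (A i) * γ ^ (i : ℕ))
    (x : L) (hxF : x ∈ Fp) (hxV : x ∈ V) (y : L) (c : F) (hxy : x = y * algebraMap F L c)
    (hy : ∃ p : L[X], p.Monic ∧ p.eval y = 0 ∧ ∀ i, ∃ r : F[X], p.coeff i = aeval σ r) :
    ∃ p : L[X], p.Monic ∧ p.eval x = 0 ∧
      ∀ i, p.coeff i ∈ V ∧ ∃ r : F[X], p.coeff i = aeval σ r := by
  classical
  have hEF : F⟮σ⟯ ≤ Fp := IntermediateField.adjoin_simple_le_iff.2 hσF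
  have hmemE : ∀ q : F[X], aeval σ q ∈ F⟮σ⟯ := fun q =>
    IntermediateField.algebra_adjoin_le_adjoin F {σ} (aeval_mem_adjoin_singleton F σ)
  have hx : IsIntegral (Algebra.adjoin F {σ}) x := by
    obtain ⟨p, hp, hpy, hc⟩ := hy
    have h1 : IsIntegral (Algebra.adjoin F {σ}) y :=
      isIntegral_of_monic_lift hp (fun i => by
        obtain ⟨r, hr⟩ := hc i
        exact ⟨⟨aeval σ r, aeval_mem_adjoin_singleton F σ⟩, hr.symm⟩) hpy
    rw [hxy, IsScalarTower.algebraMap_apply F (Algebra.adjoin F {σ}) L]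
    exact h1.mul isIntegral_algebraMap
  let O : Subring F⟮σ⟯ := V.comap (algebraMap F⟮σ⟯ L)
  let N : Submodule O L := Submodule.span O (Set.range fun i : Fin n => γ ^ (i : ℕ))
  have hN1 : ∀ m ∈ N, m ∈ Fp ∧ m ∈ V := by
    intro m hm
    induction hm using Submodule.span_induction with
    | mem m hm => obtain ⟨i, rfl⟩ := hm; exact ⟨pow_mem hγF _, pow_mem hγV _⟩
    | zero => exact ⟨zero_mem _, zero_mem _⟩
    | add a b _ _ ha hb => exact ⟨add_mem ha.1 hb.1, add_mem ha.2 hb.2⟩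
    | smul o a _ ha =>
      have : o • a = algebraMap F⟮σ⟯ L (o : F⟮σ⟯) * a := rfl
      rw [this]
      exact ⟨mul_mem (hEF (o : F⟮σ⟯).2) ha.1, mul_mem o.2 ha.2⟩
  have hN2 : ∀ z ∈ Fp, z ∈ V → z ∈ N := by
    intro z hzF hzV
    obtain ⟨B, A, hB0, hBV, hAV, hz⟩ := hspan z hzF hzV
    have hz' : z = ∑ i, (aeval σ (A i) * (aeval σ B)⁻¹) * γ ^ (i : ℕ) := by
      have : z = (z * aeval σ B) * (aeval σ B)⁻¹ := by field_simp
      rw [this, hz, Finset.sum_mul]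
      exact Finset.sum_congr rfl fun i _ => by ring
    rw [hz']
    refine Submodule.sum_mem _ fun i _ => ?_
    have : (aeval σ (A i) * (aeval σ B)⁻¹) * γ ^ (i : ℕ)
        = (⟨⟨aeval σ (A i) * (aeval σ B)⁻¹, mul_mem (hmemE _) (inv_mem (hmemE _))⟩,
            mul_mem (hAV i) hBV⟩ : O) • γ ^ (i : ℕ) := rfl
    rw [this]
    exact Submodule.smul_mem _ _ (Submodule.subset_span ⟨i, rfl⟩)
  have hN0 : N ≠ ⊥ := by
    intro h
    have h1 : (1 : L) ∈ N := Submodule.subset_span ⟨⟨0, hn⟩, by simp⟩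
    rw [h, Submodule.mem_bot] at h1
    exact one_ne_zero h1
  have hxO : IsIntegral O x := isIntegral_of_smul_mem_submodule N hN0
    (Submodule.fg_span (Set.finite_range _)) x
    (fun m hm => hN2 _ (mul_mem hxF (hN1 m hm).1) (mul_mem hxV (hN1 m hm).2))
  have hxE : IsIntegral F⟮σ⟯ x := hx.tower_top
  refine ⟨(minpoly F⟮σ⟯ x).map (algebraMap F⟮σ⟯ L), (minpoly.monic hxE).map _,
    by rw [eval_map_algebraMap, minpoly.aeval], fun i => ⟨?_, ?_⟩⟩
  · rw [coeff_map]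
    apply hV _ (hEF ((minpoly F⟮σ⟯ x).coeff i).2)
    have h1 := isIntegral_coeff_minpoly' (E := F⟮σ⟯) hxO i
    exact h1.map_of_comp_eq ((algebraMap F⟮σ⟯ L).restrict O V (fun o ho => ho))
      (algebraMap F⟮σ⟯ L) rfl
  · have h1 := isIntegral_coeff_minpoly' (R := Algebra.adjoin F {σ}) (E := F⟮σ⟯) hx i
    have : IsIntegrallyClosed (Algebra.adjoin F {σ}) :=
      IsIntegrallyClosed.of_equiv (Polynomial.algEquivOfTranscendental F σ hσ).toRingEquiv
    obtain ⟨r, hr⟩ := IsIntegrallyClosed.isIntegral_iff.1 h1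
    obtain ⟨r', hr'⟩ := Algebra.adjoin_mem_exists_aeval _ _ r.2
    refine ⟨r', ?_⟩
    rw [coeff_map, ← hr, hr']
    rfl

variable (ℓ : ℕ) [Fact ℓ.Prime] (K : Type*) [Field K] [CharP K ℓ] [Algebra (Zl ℓ) K]

/-- `y` is integral over `ℤ_(ℓ)[ι s]`. -/
def IntOver (s : LaurentSeries (Zl ℓ)) (y : LaurentSeries ℚ) : Prop :=
  ∃ P : (LaurentSeries (Zl ℓ))[X], P.Monic ∧ (∀ i, P.coeff i ∈ Algebra.adjoin (Zl ℓ) {s}) ∧
    eval₂ (iotaL ℓ) y P = 0

theorem intOver_iff (s : LaurentSeries (Zl ℓ)) (y : LaurentSeries ℚ) :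
    IntOver ℓ s y ↔ ∃ p : (LaurentSeries ℚ)[X], p.Monic ∧
      (∀ i, ∃ r : (Zl ℓ)[X], p.coeff i = iotaL ℓ (aeval s r)) ∧ p.eval y = 0 := by
  constructor
  · rintro ⟨P, hP, hc, hy⟩
    refine ⟨P.map (iotaL ℓ), hP.map _, fun i => ?_, by rw [eval_map]; exact hy⟩
    obtain ⟨r, hr⟩ := Algebra.adjoin_mem_exists_aeval _ _ (hc i)
    exact ⟨r, by rw [coeff_map, hr]⟩
  · rintro ⟨p, hp, hc, hy⟩
    let v : (Zl ℓ)[X] →+* LaurentSeries (Zl ℓ) := (aeval s).toRingHom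
    have hr' : ∀ i, p.coeff i ∈ Set.range ((iotaL ℓ).comp v) := fun i => by
      obtain ⟨r, hr⟩ := hc i
      exact ⟨r, hr.symm⟩
    obtain ⟨q, hm, hq⟩ := exists_monic_lift ((iotaL ℓ).comp v) hp hr'
    refine ⟨q.map v, hm.map _, fun i => ?_, ?_⟩
    · rw [coeff_map]
      exact aeval_mem_adjoin_singleton _ _
    · rw [eval₂_map, ← eval_map, hq, hy]

/-- transcendence of `π s` from the independence hypothesis -/
theorem transcendental_piL_of_core (s g : LaurentSeries (Zl ℓ)) (n : ℕ) (hn : 0 < n)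
    (hcore : ∀ a : Fin n → K[X],
      ∑ i, aeval (piL ℓ K s) (a i) * piL ℓ K g ^ (i : ℕ) = 0 → a = 0) :
    Transcendental K (piL ℓ K s) := by
  rw [transcendental_iff]
  intro p hp
  have := hcore (Pi.single ⟨0, hn⟩ p) (by
    rw [Finset.sum_eq_single (⟨0, hn⟩ : Fin n)]
    · simp [hp]
    · intro i _ hi
      simp [Pi.single_eq_of_ne hi]
    · simp)
  have h2 := congrFun this ⟨0, hn⟩
  simpa using h2

theorem transcendental_iotaL (s : LaurentSeries (Zl ℓ)) (hs : Transcendental K (piL ℓ K s)) :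
    Transcendental ℚ (iotaL ℓ s) := by
  rw [transcendental_iff]
  intro p hp
  by_contra hp0
  obtain ⟨m, p', hp', ⟨⟩, hi⟩ := exists_normalize ℓ K (fun _ : Unit => p)
    (fun h => hp0 (congrFun h ()))
  have h1 : iotaL ℓ (aeval s (p' ())) = 0 := by
    rw [← aeval_iotaL, hp' (), map_mul, hp, mul_zero]
  have h2 : aeval s (p' ()) = 0 := iotaL_injective ℓ (by rw [h1, map_zero])
  have h3 : aeval (piL ℓ K s) (toK ℓ K (p' ())) = 0 := by
    rw [aeval_piL, h2, map_zero]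
  exact hi ((transcendental_iff.1 hs) _ h3)

/-- Step A + B: elements of `F⁺ ∩ V` are combinations of the `g^i` with denominators prime to `ℓ`. -/
theorem exists_span_rel (s g : LaurentSeries (Zl ℓ)) (n : ℕ) (hn : 0 < n)
    (hcore : ∀ a : Fin n → K[X],
      ∑ i, aeval (piL ℓ K s) (a i) * piL ℓ K g ^ (i : ℕ) = 0 → a = 0)
    (z : LaurentSeries ℚ) (hzV : z ∈ Vring ℓ K)
    (hrel : ∃ (b : ℚ[X]) (a : Fin n → ℚ[X]), (b ≠ 0 ∨ a ≠ 0) ∧
      aeval (iotaL ℓ s) b * z = ∑ i, aeval (iotaL ℓ s) (a i) * iotaL ℓ g ^ (i : ℕ)) :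
    ∃ (B : ℚ[X]) (A : Fin n → ℚ[X]), aeval (iotaL ℓ s) B ≠ 0 ∧
      (aeval (iotaL ℓ s) B)⁻¹ ∈ Vring ℓ K ∧ (∀ i, aeval (iotaL ℓ s) (A i) ∈ Vring ℓ K) ∧
      z * aeval (iotaL ℓ s) B = ∑ i, aeval (iotaL ℓ s) (A i) * iotaL ℓ g ^ (i : ℕ) := by
  have hsK := transcendental_piL_of_core ℓ K s g n hn hcore
  obtain ⟨b, a, hne, hrel⟩ := hrel
  have hp : (fun o : Option (Fin n) => o.elim b a) ≠ 0 := by
    intro h
    rcases hne with hb | ha
    · exact hb (congrFun h none)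
    · exact ha (funext fun i => congrFun h (some i))
  obtain ⟨m, p', hp', i₀, hi₀⟩ := exists_normalize ℓ K _ hp
  have key : z * aeval (iotaL ℓ s) (toQ ℓ (p' none))
      = ∑ i, aeval (iotaL ℓ s) (toQ ℓ (p' (some i))) * iotaL ℓ g ^ (i : ℕ) := by
    rw [hp' none]
    simp only [hp' (some _), Option.elim, map_mul, mul_assoc]
    rw [← Finset.mul_sum, ← hrel]
    ring
  have key' : z * iotaL ℓ (aeval s (p' none))
      = iotaL ℓ (∑ i, aeval s (p' (some i)) * g ^ (i : ℕ)) := by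
    rw [map_sum]
    simp only [map_mul, map_pow, ← aeval_iotaL]
    exact key
  have hred := red_mul_piL ℓ K ⟨z, hzV⟩ _ _ key'
  have hBne : piL ℓ K (aeval s (p' none)) ≠ 0 := by
    intro h0
    rw [h0, mul_zero, map_sum] at hred
    simp only [map_mul, map_pow, ← aeval_piL] at hred
    have h1 := hcore (fun i => toK ℓ K (p' (some i))) hred.symm
    have h2 : toK ℓ K (p' none) = 0 := (transcendental_iff.1 hsK) _ (by rw [aeval_piL, h0])
    cases i₀ with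
    | none => exact hi₀ h2
    | some i => exact hi₀ (congrFun h1 i)
  refine ⟨toQ ℓ (p' none), fun i => toQ ℓ (p' (some i)), ?_, ?_, fun i => ?_, key⟩
  · rw [aeval_iotaL]
    intro h0
    apply hBne
    rw [iotaL_injective ℓ (h0.trans (map_zero _).symm), map_zero]
  · rw [aeval_iotaL]
    exact inv_mem_Vring ℓ K ⟨_, iotaL_mem_Vring ℓ K _⟩ (by rw [red_iotaL]; exact hBne)
  · rw [aeval_iotaL]
    exact iotaL_mem_Vring ℓ K _

/-- **Descent.** -/
theorem descent (s g : LaurentSeries (Zl ℓ)) (n : ℕ) (hn : 0 < n)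
    (Fp : IntermediateField ℚ (LaurentSeries ℚ)) (hFp : Fp ≤ Wfield ℓ)
    (hs : iotaL ℓ s ∈ Fp) (hg : iotaL ℓ g ∈ Fp)
    (hrel : ∀ x ∈ Fp, ∃ (b : ℚ[X]) (a : Fin n → ℚ[X]), (b ≠ 0 ∨ a ≠ 0) ∧
      aeval (iotaL ℓ s) b * x = ∑ i, aeval (iotaL ℓ s) (a i) * iotaL ℓ g ^ (i : ℕ))
    (hcore : ∀ a : Fin n → K[X],
      ∑ i, aeval (piL ℓ K s) (a i) * piL ℓ K g ^ (i : ℕ) = 0 → a = 0)
    (y : LaurentSeries ℚ) (hy : y ∈ Fp) (hint : IntOver ℓ s y) :
    ∃ hyV : y ∈ Vring ℓ K,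
      (red ℓ K ⟨y, hyV⟩ = 0 → IntOver ℓ s (y * (ℓ : LaurentSeries ℚ)⁻¹)) := by
  have hsK := transcendental_piL_of_core ℓ K s g n hn hcore
  have hsQ := transcendental_iotaL ℓ K s hsK
  obtain ⟨p, hp, hc, hpy⟩ := (intOver_iff ℓ s y).1 hint
  have hyV : y ∈ Vring ℓ K := mem_Vring_of_isIntegral ℓ K (hFp hy)
    (isIntegral_subring_of_monic _ hp (fun i => by
      obtain ⟨r, hr⟩ := hc i
      rw [hr]
      exact iotaL_mem_Vring ℓ K _) hpy)
  refine ⟨hyV, fun hred => ?_⟩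
  have hxV := (red_eq_zero_iff ℓ K ⟨y, hyV⟩).1 hred
  have hcast : (ℓ : LaurentSeries ℚ)⁻¹ = algebraMap ℚ (LaurentSeries ℚ) ((ℓ : ℚ)⁻¹) := by
    rw [map_inv₀, map_natCast]
  have hxF : y * (ℓ : LaurentSeries ℚ)⁻¹ ∈ Fp := by
    rw [hcast]
    exact mul_mem hy (Fp.algebraMap_mem _)
  obtain ⟨P, hP, hPx, hPc⟩ := abstract_descent (iotaL ℓ s) (iotaL ℓ g) hsQ (Vring ℓ K) Fp hs hg
    (iotaL_mem_Vring ℓ K g) (fun z hz h => mem_Vring_of_isIntegral ℓ K (hFp hz) h) n hn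
    (fun z hz hzV => exists_span_rel ℓ K s g n hn hcore z hzV (hrel z hz))
    (y * (ℓ : LaurentSeries ℚ)⁻¹) hxF hxV y ((ℓ : ℚ)⁻¹) (by rw [hcast])
    ⟨p, hp, hpy, fun i => by
      obtain ⟨r, hr⟩ := hc i
      exact ⟨toQ ℓ r, by rw [hr, aeval_iotaL]⟩⟩
  refine (intOver_iff ℓ s _).2 ⟨P, hP, fun i => ?_, hPx⟩
  obtain ⟨hV, r, hr⟩ := hPc i
  obtain ⟨r', hr'⟩ := exists_toQ_eq_of_aeval_mem ℓ K s hsK r (hr ▸ hV)
  exact ⟨r', by rw [hr, ← hr', aeval_iotaL]⟩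

end

end Fermat.Agent.S28Aux
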