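/-
S28 helper library (T2c): `B_S ⊗ K` is a domain.
-/
import Fermat.Agent.S28.Descent
import Fermat.Agent.S28.Degree
import Fermat.Agent.S28.Core

set_option autoImplicit false
set_option linter.unusedSectionVars false

namespace Fermat.Agent.S28Aux

open ModularCurve ModularCurve.IgusaScheme Polynomial
open scoped TensorProduct

noncomputable section

variable (N : ℕ) [NeZero N] (ℓ : ℕ) [Fact ℓ.Prime] (hℓN : ¬ ℓ ∣ N)
  (K : Type) [Field K] [CharP K ℓ] [Algebra (Zl ℓ) K]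

theorem aeval_inv_reflect_mul_pow {k L : Type*} [Field k] [Field L] [Algebra k L] (x : L)
    (hx : x ≠ 0) (D : ℕ) (p : k[X]) (hp : p.natDegree ≤ D) :
    aeval x⁻¹ (p.reflect D) * x ^ D = aeval x p := by
  let _ : Invertible x := invertibleOfNonzero hx
  have := Polynomial.eval₂_reflect_mul_pow (algebraMap k L) x D p hp
  rwa [invOf_eq_inv] at this

theorem aeval_reflect_mul_pow {k L : Type*} [Field k] [Field L] [Algebra k L] (x : L)
    (hx : x ≠ 0) (D : ℕ) (p : k[X]) (hp : p.natDegree ≤ D) :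
    aeval x (p.reflect D) * x⁻¹ ^ D = aeval x⁻¹ p := by
  have := aeval_inv_reflect_mul_pow x⁻¹ (inv_ne_zero hx) D p hp
  rwa [inv_inv] at this

theorem dedekindPsi_pos' (N : ℕ) [NeZero N] : 0 < dedekindPsi N := by
  unfold dedekindPsi
  apply Finset.sum_pos'
  · intro i _
    exact Nat.zero_le _
  · refine ⟨1, ?_, ?_⟩
    · simp [NeZero.ne N]
    · simpa using Nat.pos_of_ne_zero (NeZero.ne N)

theorem lin_rel_inv' (N : ℕ) [NeZero N] (x : LaurentSeries ℚ) (hx : x ∈ Fplus N) :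
    ∃ (b : ℚ[X]) (a : Fin (dedekindPsi N) → ℚ[X]), (b ≠ 0 ∨ a ≠ 0) ∧
      aeval jq⁻¹ b * x = ∑ i, aeval jq⁻¹ (a i) * (gU ℚ N : LaurentSeries ℚ) ^ (i : ℕ) := by
  obtain ⟨b, a, hne, h⟩ := exists_lin_rel N x hx
  set D : ℕ := b.natDegree + ∑ i, (a i).natDegree with hD
  have hbD : b.natDegree ≤ D := Nat.le_add_right _ _
  have haD : ∀ i, (a i).natDegree ≤ D := fun i =>
    (Finset.single_le_sum (f := fun i => (a i).natDegree) (fun _ _ => Nat.zero_le _)
      (Finset.mem_univ i)).trans (Nat.le_add_left _ _)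
  refine ⟨b.reflect D, fun i => (a i).reflect D, ?_, ?_⟩
  · rcases hne with hb | ha
    · left
      rwa [Ne, Polynomial.reflect_eq_zero_iff]
    · right
      intro h0
      apply ha
      funext i
      have := congrFun h0 i
      simpa [Polynomial.reflect_eq_zero_iff] using this
  · have hj : jq ^ D ≠ 0 := pow_ne_zero _ jq_ne_zero
    apply mul_right_cancel₀ hj
    rw [mul_right_comm, aeval_inv_reflect_mul_pow jq jq_ne_zero D b hbD, h, Finset.sum_mul]
    apply Finset.sum_congr rfl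
    intro i _
    rw [mul_right_comm, aeval_inv_reflect_mul_pow jq jq_ne_zero D (a i) (haD i)]

theorem core_inv' (N : ℕ) [NeZero N] (ℓ : ℕ) [Fact ℓ.Prime] (hℓN : ¬ ℓ ∣ N) (K : Type*) [Field K]
    [CharP K ℓ] (a : Fin (dedekindPsi N) → K[X])
    (h : ∑ i, aeval (jqModC K)⁻¹ (a i) * (gU K N : LaurentSeries K) ^ (i : ℕ) = 0) : a = 0 := by
  set D : ℕ := ∑ i, (a i).natDegree with hD
  have haD : ∀ i, (a i).natDegree ≤ D := fun i =>
    Finset.single_le_sum (f := fun i => (a i).natDegree) (fun _ _ => Nat.zero_le _)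
      (Finset.mem_univ i)
  have hj0 : jqModC K ≠ 0 := jqModC_ne_zero_of_nontrivial K
  have h1 : (fun i => (a i).reflect D) = 0 := by
    apply core N ℓ hℓN K
    have hj : (jqModC K)⁻¹ ^ D ≠ 0 := pow_ne_zero _ (inv_ne_zero hj0)
    apply mul_right_cancel₀ hj
    rw [zero_mul, ← h, Finset.sum_mul]
    apply Finset.sum_congr rfl
    intro i _
    rw [mul_right_comm, aeval_reflect_mul_pow (jqModC K) hj0 D (a i) (haD i)]
  funext i
  have := congrFun h1 i
  simpa [Polynomial.reflect_eq_zero_iff] using this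


/-- `1/j` as an integral Laurent series -/
def jInvL (R : Type*) [CommRing R] : LaurentSeries R :=
  HahnSeries.single (1 : ℤ) 1 * psL R (jNum.invOfUnit 1)

theorem jqModC_mul_jInvL (R : Type*) [CommRing R] : jqModC R * jInvL R = 1 := by
  have h : jNum * jNum.invOfUnit 1 = 1 := PowerSeries.mul_invOfUnit _ _ (by simp)
  have h2 : jqModC R = HahnSeries.single (-1 : ℤ) 1 * psL R jNum := rfl
  rw [h2, jInvL, mul_mul_mul_comm, ← psL_mul, h, psL_one, HahnSeries.single_mul_single]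
  simp

theorem coeffMap_jInvL {R S : Type*} [CommRing R] [CommRing S] (f : R →+* S) :
    coeffMap f (jInvL R) = jInvL S := by
  simp [jInvL, coeffMap_psL]

theorem iotaL_jqModC : iotaL ℓ (jqModC (Zl ℓ)) = jq := coeffMap_jqModC _

theorem piL_jqModC : piL ℓ K (jqModC (Zl ℓ)) = jqModC K := coeffMap_jqModC _

theorem iotaL_gU : iotaL ℓ (gU (Zl ℓ) N : LaurentSeries (Zl ℓ)) = (gU ℚ N : LaurentSeries ℚ) :=
  coeffMap_gU _ _

theorem piL_gU : piL ℓ K (gU (Zl ℓ) N : LaurentSeries (Zl ℓ)) = (gU K N : LaurentSeries K) :=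
  coeffMap_gU _ _

theorem iotaL_jInvL : iotaL ℓ (jInvL (Zl ℓ)) = jq⁻¹ := by
  have h := jqModC_mul_jInvL ℚ
  rw [jqModC_rat] at h
  rw [iotaL, coeffMap_jInvL]
  exact eq_inv_of_mul_eq_one_right h

theorem piL_jInvL : piL ℓ K (jInvL (Zl ℓ)) = (jqModC K)⁻¹ := by
  have h := jqModC_mul_jInvL K
  rw [piL, coeffMap_jInvL]
  exact eq_inv_of_mul_eq_one_right h

theorem Fplus_le_Wfield : Fplus N ≤ Wfield ℓ := by
  rw [Fplus, IntermediateField.adjoin_le_iff]
  rintro x (⟨d, hd, -, rfl⟩ | rfl)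
  · have : qExpand ℚ d jq = iotaL ℓ (qExpand (Zl ℓ) d (jqModC (Zl ℓ))) := by
      rw [iotaL, coeffMap_qExpand, coeffMap_jqModC, jqModC_rat]
    rw [this]
    exact iotaL_mem_Wfield ℓ _
  · rw [← iotaL_gU N ℓ]
    exact iotaL_mem_Wfield ℓ _

theorem algebraMap_laurent_eq {R A : Type*} [CommRing R] [CommRing A] [Algebra R A] (c : R) :
    algebraMap R (LaurentSeries A) c = HahnSeries.single 0 (algebraMap R A c) := by
  rw [HahnSeries.algebraMap_apply', PowerSeries.algebraMap_apply, HahnSeries.ofPowerSeries_C]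
  rfl

theorem iotaL_algebraMap (c : Zl ℓ) :
    iotaL ℓ (algebraMap (Zl ℓ) (LaurentSeries (Zl ℓ)) c) = algebraMap ℚ (LaurentSeries ℚ) (c : ℚ) := by
  rw [algebraMap_laurent_eq, algebraMap_laurent_eq, iotaL, coeffMap_single]
  rfl

theorem piL_algebraMap (c : Zl ℓ) :
    piL ℓ K (algebraMap (Zl ℓ) (LaurentSeries (Zl ℓ)) c) = algebraMap (Zl ℓ) (LaurentSeries K) c := by
  rw [algebraMap_laurent_eq, algebraMap_laurent_eq, piL, coeffMap_single]
  rfl

/-- the inclusion `F → ℚ((q))` -/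
abbrev Fval : ↥(modularFunctionFieldFull N) →+* LaurentSeries ℚ :=
  algebraMap ↥(modularFunctionFieldFull N) (LaurentSeries ℚ)

theorem coe_algebraMap_full (c : Zl ℓ) :
    ((algebraMap (Zl ℓ) ↥(modularFunctionFieldFull N) c : ↥(modularFunctionFieldFull N)) :
      LaurentSeries ℚ) = iotaL ℓ (algebraMap (Zl ℓ) (LaurentSeries (Zl ℓ)) c) := by
  rw [iotaL_algebraMap]
  have h : (Fval N).comp (algebraMap ℚ ↥(modularFunctionFieldFull N)) =
    algebraMap ℚ (LaurentSeries ℚ) := RingHom.ext_rat _ _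
  exact congrArg (fun f : ℚ →+* LaurentSeries ℚ => f (c : ℚ)) h

/-- the common source of the two notions of integrality -/
def evS (s : LaurentSeries (Zl ℓ)) : (Zl ℓ)[X] →+* LaurentSeries ℚ :=
  (iotaL ℓ).comp (aeval s).toRingHom

theorem intOver_iff_evS (s : LaurentSeries (Zl ℓ)) (y : LaurentSeries ℚ) :
    IntOver ℓ s y ↔ ∃ Q : (Zl ℓ)[X][X], Q.Monic ∧ eval₂ (evS ℓ s) y Q = 0 := by
  constructor
  · rintro ⟨P, hP, hc, h0⟩
    have hl : P ∈ Polynomial.lifts (aeval s : (Zl ℓ)[X] →ₐ[Zl ℓ] _).toRingHom := by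
      rw [Polynomial.lifts_iff_coeff_lifts]
      intro i
      have := hc i
      rw [Algebra.adjoin_singleton_eq_range_aeval] at this
      exact this
    obtain ⟨Q, hQ, -, hQm⟩ := Polynomial.lifts_and_natDegree_eq_and_monic hl hP
    refine ⟨Q, hQm, ?_⟩
    rw [evS, ← Polynomial.eval₂_map, hQ, h0]
  · rintro ⟨Q, hQ, h0⟩
    refine ⟨Q.map (aeval s : (Zl ℓ)[X] →ₐ[Zl ℓ] _).toRingHom, hQ.map _, ?_, ?_⟩
    · intro i
      rw [Polynomial.coeff_map, Algebra.adjoin_singleton_eq_range_aeval]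
      exact ⟨_, rfl⟩
    · rw [Polynomial.eval₂_map]
      exact h0

variable {N ℓ} in
/-- `ℤ_(ℓ)[X] → ℤ_(ℓ)[sF]` -/
def evF (sF : ↥(modularFunctionFieldFull N)) :
    (Zl ℓ)[X] →ₐ[Zl ℓ] ↥(Algebra.adjoin (Zl ℓ) {sF}) :=
  aeval (⟨sF, Algebra.subset_adjoin rfl⟩ : ↥(Algebra.adjoin (Zl ℓ) {sF}))

variable {N ℓ} in
theorem evF_surjective (sF : ↥(modularFunctionFieldFull N)) :
    Function.Surjective (evF (ℓ := ℓ) sF) := by
  rintro ⟨y, hy⟩
  have hy' := hy
  rw [Algebra.adjoin_singleton_eq_range_aeval] at hy'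
  obtain ⟨r, hr⟩ := hy'
  refine ⟨r, Subtype.ext ?_⟩
  rw [evF, Polynomial.aeval_subalgebra_coe]
  exact hr

variable {N ℓ} in
theorem evF_comp (s : LaurentSeries (Zl ℓ)) (sF : ↥(modularFunctionFieldFull N))
    (hsF : (sF : LaurentSeries ℚ) = iotaL ℓ s) :
    ((Fval N).comp
      (algebraMap ↥(Algebra.adjoin (Zl ℓ) {sF}) ↥(modularFunctionFieldFull N))).comp
        (evF (ℓ := ℓ) sF).toRingHom = evS ℓ s := by
  apply Polynomial.ringHom_ext
  · intro c
    simp only [evF, evS, RingHom.comp_apply, AlgHom.toRingHom_eq_coe, RingHom.coe_coe, aeval_C]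
    rw [← coe_algebraMap_full N ℓ c]
    rfl
  · simp only [evF, evS, RingHom.comp_apply, AlgHom.toRingHom_eq_coe, RingHom.coe_coe, aeval_X]
    exact hsF

variable {N ℓ} in
theorem mem_chartAlg_iff_intOver (s : LaurentSeries (Zl ℓ)) (sF : ↥(modularFunctionFieldFull N))
    (hsF : (sF : LaurentSeries ℚ) = iotaL ℓ s) (x : ↥(modularFunctionFieldFull N)) :
    x ∈ chartAlg N ℓ {sF} ↔ IntOver ℓ s (x : LaurentSeries ℚ) := by
  rw [mem_chartAlg_iff, intOver_iff_evS, ← evF_comp s sF hsF]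
  constructor
  · rintro ⟨p, hp, h0⟩
    have hl : p ∈ Polynomial.lifts (evF (ℓ := ℓ) sF).toRingHom := by
      rw [Polynomial.lifts_iff_coeff_lifts]
      intro i
      exact evF_surjective sF _
    obtain ⟨Q, hQ, -, hQm⟩ := Polynomial.lifts_and_natDegree_eq_and_monic hl hp
    refine ⟨Q, hQm, ?_⟩
    rw [← Polynomial.eval₂_map, hQ]
    have := congrArg (Fval N) h0
    rw [Polynomial.hom_eval₂, map_zero] at this
    exact this
  · rintro ⟨Q, hQ, h0⟩
    refine ⟨Q.map (evF (ℓ := ℓ) sF).toRingHom, hQ.map _, ?_⟩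
    rw [← Polynomial.eval₂_map] at h0
    have hinj : Function.Injective (Fval N) := Subtype.val_injective
    apply hinj
    rw [Polynomial.hom_eval₂, map_zero]
    exact h0

variable {N ℓ} in
theorem coe_mem_Vring_of_mem_adjoin (S : Set ↥(modularFunctionFieldFull N))
    (hS : ∀ x ∈ S, (x : LaurentSeries ℚ) ∈ Vring ℓ K) (x : ↥(modularFunctionFieldFull N))
    (hx : x ∈ Algebra.adjoin (Zl ℓ) S) : (x : LaurentSeries ℚ) ∈ Vring ℓ K := by
  induction hx using Algebra.adjoin_induction with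
  | mem y hy => exact hS y hy
  | algebraMap c =>
    rw [coe_algebraMap_full]
    exact iotaL_mem_Vring ℓ K _
  | add y z _ _ hy hz => exact add_mem hy hz
  | mul y z _ _ hy hz => exact mul_mem hy hz

variable {N ℓ} in
theorem coe_mem_Vring_of_mem_chartAlg (S : Set ↥(modularFunctionFieldFull N))
    (hS : ∀ x ∈ S, (x : LaurentSeries ℚ) ∈ Vring ℓ K) (x : ↥(modularFunctionFieldFull N))
    (hx : x ∈ chartAlg N ℓ S) : (x : LaurentSeries ℚ) ∈ Vring ℓ K := by
  apply mem_Vring_of_isIntegral ℓ K (Fplus_le_Wfield N ℓ (full_le_Fplus N x.2))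
  obtain ⟨p, hp, h0⟩ := (mem_chartAlg_iff N ℓ).mp hx
  have h1 := congrArg (Fval N) h0
  rw [Polynomial.hom_eval₂, map_zero, Polynomial.eval₂_eq_eval_map] at h1
  refine isIntegral_subring_of_monic (Vring ℓ K) (hp.map _) ?_ h1
  intro i
  rw [Polynomial.coeff_map]
  exact coe_mem_Vring_of_mem_adjoin K S hS _ (p.coeff i).2

variable {N ℓ} in
/-- the inclusion of a chart algebra in the Gauss valuation ring -/
def inclV (S : Set ↥(modularFunctionFieldFull N))
    (hS : ∀ x ∈ S, (x : LaurentSeries ℚ) ∈ Vring ℓ K) : ↥(chartAlg N ℓ S) →+* ↥(Vring ℓ K) where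
  toFun x := ⟨((x : ↥(modularFunctionFieldFull N)) : LaurentSeries ℚ),
    coe_mem_Vring_of_mem_chartAlg K S hS x x.2⟩
  map_one' := rfl
  map_zero' := rfl
  map_mul' _ _ := rfl
  map_add' _ _ := rfl

variable {N ℓ} in
/-- reduction on a chart algebra -/
def redB (S : Set ↥(modularFunctionFieldFull N))
    (hS : ∀ x ∈ S, (x : LaurentSeries ℚ) ∈ Vring ℓ K) :
    ↥(chartAlg N ℓ S) →ₐ[Zl ℓ] LaurentSeries K where
  __ := (red ℓ K).comp (inclV K S hS)
  commutes' c := by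
    show red ℓ K (inclV K S hS (algebraMap (Zl ℓ) ↥(chartAlg N ℓ S) c)) = _
    have : inclV K S hS (algebraMap (Zl ℓ) ↥(chartAlg N ℓ S) c) =
        ⟨iotaL ℓ (algebraMap (Zl ℓ) (LaurentSeries (Zl ℓ)) c), iotaL_mem_Vring ℓ K _⟩ :=
      Subtype.ext (coe_algebraMap_full N ℓ c)
    rw [this, red_iotaL, piL_algebraMap]

/-- `K → K((q))` as a `ℤ_(ℓ)`-algebra map -/
def constK : K →ₐ[Zl ℓ] LaurentSeries K where
  __ := algebraMap K (LaurentSeries K)
  commutes' c := by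
    show algebraMap K (LaurentSeries K) (algebraMap (Zl ℓ) K c) = _
    rw [algebraMap_laurent_eq, algebraMap_laurent_eq]
    rfl

variable {N ℓ} in
/-- the map `B ⊗ K → K((q))` -/
def PhiB (S : Set ↥(modularFunctionFieldFull N))
    (hS : ∀ x ∈ S, (x : LaurentSeries ℚ) ∈ Vring ℓ K) :
    ↥(chartAlg N ℓ S) ⊗[Zl ℓ] K →ₐ[Zl ℓ] LaurentSeries K :=
  Algebra.TensorProduct.productMap (redB K S hS) (constK ℓ K)

variable {N ℓ} in
theorem PhiB_tmul (S : Set ↥(modularFunctionFieldFull N))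
    (hS : ∀ x ∈ S, (x : LaurentSeries ℚ) ∈ Vring ℓ K) (b : ↥(chartAlg N ℓ S)) (c : K) :
    PhiB K S hS (b ⊗ₜ c) = red ℓ K (inclV K S hS b) * algebraMap K (LaurentSeries K) c := by
  rw [PhiB, Algebra.TensorProduct.productMap_apply_tmul]
  rfl

variable {N ℓ} in
theorem nontrivial_chart (S : Set ↥(modularFunctionFieldFull N))
    (hS : ∀ x ∈ S, (x : LaurentSeries ℚ) ∈ Vring ℓ K) :
    Nontrivial (↥(chartAlg N ℓ S) ⊗[Zl ℓ] K) :=
  (PhiB K S hS).toRingHom.domain_nontrivial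

theorem exists_mul_eq_one_of_algebraMap_ne_zero (c : Zl ℓ) (h : algebraMap (Zl ℓ) K c ≠ 0) :
    ∃ u : Zl ℓ, c * u = 1 := by
  have hc0 : (c : ℚ) ≠ 0 := by
    intro h0
    apply h
    have : c = 0 := Subtype.ext h0
    rw [this, map_zero]
  have hcop : ((c : ℚ)⁻¹).den.Coprime ℓ := by
    rw [Rat.den_inv_of_ne_zero hc0, Nat.coprime_comm,
      (Nat.Prime.coprime_iff_not_dvd (Fact.out : ℓ.Prime))]
    intro hd
    apply h
    rw [Zl_eq ℓ c, map_mul, map_intCast]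
    have : (((c : ℚ).num : ℤ) : K) = 0 := by
      rw [CharP.intCast_eq_zero_iff K ℓ]
      exact Int.natCast_dvd.mpr hd
    rw [this, zero_mul]
  exact ⟨⟨(c : ℚ)⁻¹, hcop⟩, Subtype.ext (mul_inv_cancel₀ hc0)⟩

theorem exists_common_den {ι : Type*} (t : Finset ι) (x : ι → Vring ℓ K) :
    ∃ d : LaurentSeries (Zl ℓ), piL ℓ K d ≠ 0 ∧
      ∀ i ∈ t, ∃ a : LaurentSeries (Zl ℓ), (x i : LaurentSeries ℚ) * iotaL ℓ d = iotaL ℓ a := by
  classical
  induction t using Finset.induction_on with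
  | empty => exact ⟨1, by simp, by simp⟩
  | insert j t hj ih =>
    obtain ⟨d, hd, h⟩ := ih
    obtain ⟨a, e, he, hae⟩ := (x j).2
    refine ⟨d * e, by rw [map_mul]; exact mul_ne_zero hd he, ?_⟩
    intro i hi
    rcases Finset.mem_insert.mp hi with rfl | hi
    · exact ⟨a * d, by rw [map_mul, map_mul, ← hae]; ring⟩
    · obtain ⟨a', ha'⟩ := h i hi
      exact ⟨a' * e, by rw [map_mul, map_mul, ← ha']; ring⟩

/-- if the `c i` are independent over the prime field, then `∑ c i • red (x i) = 0` implies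
`red (x i) = 0` for all `i`. -/
theorem red_eq_zero_of_indep {ι : Type*} (t : Finset ι) (x : ι → Vring ℓ K) (c : ι → K)
    (hind : ∀ lam : ι → Zl ℓ, ∑ i ∈ t, algebraMap (Zl ℓ) K (lam i) * c i = 0 →
      ∀ i ∈ t, algebraMap (Zl ℓ) K (lam i) = 0)
    (h : ∑ i ∈ t, red ℓ K (x i) * algebraMap K (LaurentSeries K) (c i) = 0) :
    ∀ i ∈ t, red ℓ K (x i) = 0 := by
  classical
  obtain ⟨d, hd, hx⟩ := exists_common_den ℓ K t x
  have hx' : ∀ i, ∃ a : LaurentSeries (Zl ℓ), i ∈ t →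
      (x i : LaurentSeries ℚ) * iotaL ℓ d = iotaL ℓ a := by
    intro i
    by_cases hi : i ∈ t
    · obtain ⟨a, ha⟩ := hx i hi
      exact ⟨a, fun _ => ha⟩
    · exact ⟨0, fun h => absurd h hi⟩
  choose a ha using hx'
  have h1 : ∑ i ∈ t, piL ℓ K (a i) * algebraMap K (LaurentSeries K) (c i) = 0 := by
    have h2 := congrArg (· * piL ℓ K d) h
    simp only [zero_mul, Finset.sum_mul] at h2
    rw [← h2]
    apply Finset.sum_congr rfl
    intro i hi
    rw [← red_mul_piL ℓ K (x i) (a i) d (ha i hi)]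
    ring
  have h3 : ∀ k : ℤ, ∀ i ∈ t, algebraMap (Zl ℓ) K ((a i).coeff k) = 0 := by
    intro k
    apply hind (fun i => (a i).coeff k)
    have h4 := congrArg (fun y : LaurentSeries K => y.coeff k) h1
    simp only [HahnSeries.coeff_sum, HahnSeries.coeff_zero] at h4
    rw [← h4]
    apply Finset.sum_congr rfl
    intro i _
    rw [algebraMap_laurent_eq, HahnSeries.coeff_mul_single, sub_zero, piL, coeffMap_coeff]
    rfl
  intro i hi
  have h5 : piL ℓ K (a i) = 0 := by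
    ext k
    rw [piL, coeffMap_coeff, h3 k i hi, HahnSeries.coeff_zero]
  have h6 := red_mul_piL ℓ K (x i) (a i) d (ha i hi)
  rw [h5] at h6
  exact (mul_eq_zero.mp h6).resolve_right hd

variable {N ℓ} in
theorem sum_tmul_eq_zero (S : Set ↥(modularFunctionFieldFull N))
    (hS : ∀ x ∈ S, (x : LaurentSeries ℚ) ∈ Vring ℓ K)
    (hdesc : ∀ b : ↥(chartAlg N ℓ S), red ℓ K (inclV K S hS b) = 0 →
      ∃ b' : ↥(chartAlg N ℓ S), b = (ℓ : Zl ℓ) • b')
    {ι : Type*} (n : ℕ) : ∀ (t : Finset ι) (b : ι → ↥(chartAlg N ℓ S)) (c : ι → K), t.card = n →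
      PhiB K S hS (∑ i ∈ t, b i ⊗ₜ[Zl ℓ] c i) = 0 → ∑ i ∈ t, b i ⊗ₜ[Zl ℓ] c i = 0 := by
  classical
  induction n with
  | zero =>
    intro t b c ht _
    rw [Finset.card_eq_zero.mp ht, Finset.sum_empty]
  | succ n ih =>
    intro t b c ht h
    by_cases hind : ∀ lam : ι → Zl ℓ, ∑ i ∈ t, algebraMap (Zl ℓ) K (lam i) * c i = 0 →
        ∀ i ∈ t, algebraMap (Zl ℓ) K (lam i) = 0
    · have h1 : ∑ i ∈ t, red ℓ K (inclV K S hS (b i)) * algebraMap K (LaurentSeries K) (c i) = 0 := by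
        rw [← h, map_sum]
        exact Finset.sum_congr rfl fun i _ => (PhiB_tmul K S hS _ _).symm
      have h2 := red_eq_zero_of_indep ℓ K t (fun i => inclV K S hS (b i)) c hind h1
      apply Finset.sum_eq_zero
      intro i hi
      obtain ⟨b', hb'⟩ := hdesc (b i) (h2 i hi)
      rw [hb', TensorProduct.smul_tmul]
      have : (ℓ : Zl ℓ) • c i = 0 := by
        rw [Algebra.smul_def, map_natCast, CharP.cast_eq_zero, zero_mul]
      rw [this, TensorProduct.tmul_zero]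
    · push Not at hind
      obtain ⟨lam, hlam, i0, hi0, hne⟩ := hind
      obtain ⟨u, hu⟩ := exists_mul_eq_one_of_algebraMap_ne_zero ℓ K (lam i0) hne
      have hc : c i0 = ∑ i ∈ t.erase i0, (-(u * lam i)) • c i := by
        rw [← Finset.add_sum_erase t _ hi0] at hlam
        have h3 := congrArg (algebraMap (Zl ℓ) K u * ·) hlam
        simp only [mul_zero, mul_add, ← mul_assoc, ← map_mul] at h3
        rw [mul_comm u, hu, map_one, one_mul] at h3
        rw [eq_neg_of_add_eq_zero_left h3, Finset.mul_sum, ← Finset.sum_neg_distrib]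
        apply Finset.sum_congr rfl
        intro i _
        rw [Algebra.smul_def, map_neg, map_mul, neg_mul, mul_assoc]
      have hE : ∑ i ∈ t, b i ⊗ₜ[Zl ℓ] c i =
          ∑ i ∈ t.erase i0, (b i + (-(u * lam i)) • b i0) ⊗ₜ[Zl ℓ] c i := by
        rw [← Finset.add_sum_erase t _ hi0]
        conv_lhs => rw [hc]
        rw [TensorProduct.tmul_sum, ← Finset.sum_add_distrib]
        apply Finset.sum_congr rfl
        intro i _
        rw [TensorProduct.add_tmul, TensorProduct.smul_tmul, add_comm]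
      rw [hE] at h ⊢
      apply ih _ _ _ _ h
      rw [Finset.card_erase_of_mem hi0, ht]
      rfl

variable {N ℓ} in
theorem PhiB_injective (S : Set ↥(modularFunctionFieldFull N))
    (hS : ∀ x ∈ S, (x : LaurentSeries ℚ) ∈ Vring ℓ K)
    (hdesc : ∀ b : ↥(chartAlg N ℓ S), red ℓ K (inclV K S hS b) = 0 →
      ∃ b' : ↥(chartAlg N ℓ S), b = (ℓ : Zl ℓ) • b') : Function.Injective (PhiB K S hS) := by
  rw [injective_iff_map_eq_zero]
  intro z hz
  obtain ⟨t, rfl⟩ := TensorProduct.exists_finset z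
  exact sum_tmul_eq_zero K S hS hdesc t.card t Prod.fst Prod.snd rfl hz

/-- abstract form: `s = j` or `s = 1/j` -/
theorem isDomain_chart_aux (s : LaurentSeries (Zl ℓ)) (sF : ↥(modularFunctionFieldFull N))
    (hsF : (sF : LaurentSeries ℚ) = iotaL ℓ s) (hpsi : 0 < dedekindPsi N)
    (hrel : ∀ x ∈ Fplus N, ∃ (b : ℚ[X]) (a : Fin (dedekindPsi N) → ℚ[X]), (b ≠ 0 ∨ a ≠ 0) ∧
      aeval (iotaL ℓ s) b * x =
        ∑ i, aeval (iotaL ℓ s) (a i) * iotaL ℓ (gU (Zl ℓ) N : LaurentSeries (Zl ℓ)) ^ (i : ℕ))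
    (hcore : ∀ a : Fin (dedekindPsi N) → K[X],
      ∑ i, aeval (piL ℓ K s) (a i) * piL ℓ K (gU (Zl ℓ) N : LaurentSeries (Zl ℓ)) ^ (i : ℕ) = 0 →
        a = 0) :
    IsDomain (↥(chartAlg N ℓ {sF}) ⊗[Zl ℓ] K) := by
  have hS : ∀ x ∈ ({sF} : Set ↥(modularFunctionFieldFull N)), (x : LaurentSeries ℚ) ∈ Vring ℓ K := by
    rintro x rfl
    rw [hsF]
    exact iotaL_mem_Vring ℓ K s
  have hg : iotaL ℓ (gU (Zl ℓ) N : LaurentSeries (Zl ℓ)) ∈ Fplus N := by
    have : iotaL ℓ (gU (Zl ℓ) N : LaurentSeries (Zl ℓ)) = (gU ℚ N : LaurentSeries ℚ) :=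
      coeffMap_gU _ _
    rw [this]
    exact gU_mem_Fplus N
  have hdesc : ∀ b : ↥(chartAlg N ℓ {sF}), red ℓ K (inclV K {sF} hS b) = 0 →
      ∃ b' : ↥(chartAlg N ℓ {sF}), b = (ℓ : Zl ℓ) • b' := by
    intro b hb
    obtain ⟨hyV, hd⟩ := descent ℓ K s (gU (Zl ℓ) N : LaurentSeries (Zl ℓ)) (dedekindPsi N) hpsi
      (Fplus N) (Fplus_le_Wfield N ℓ) (hsF ▸ full_le_Fplus N sF.2) hg hrel hcore
      ((b : ↥(modularFunctionFieldFull N)) : LaurentSeries ℚ) (full_le_Fplus N b.1.2)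
      ((mem_chartAlg_iff_intOver s sF hsF b.1).mp b.2)
    have h1 := hd hb
    set y : ↥(modularFunctionFieldFull N) := (b : ↥(modularFunctionFieldFull N)) * (ℓ : ↥(modularFunctionFieldFull N))⁻¹ with hy
    have hy1 : (y : LaurentSeries ℚ) = ((b : ↥(modularFunctionFieldFull N)) : LaurentSeries ℚ) * (ℓ : LaurentSeries ℚ)⁻¹ := by
      rw [hy]
      simp
    rw [← hy1] at h1
    refine ⟨⟨y, (mem_chartAlg_iff_intOver s sF hsF y).mpr h1⟩, Subtype.ext ?_⟩
    have hl0 : (ℓ : ↥(modularFunctionFieldFull N)) ≠ 0 :=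
      Nat.cast_ne_zero.mpr (Fact.out : ℓ.Prime).ne_zero
    rw [Subalgebra.coe_smul, Algebra.smul_def, map_natCast]
    simp only [hy]
    field_simp
  exact (PhiB_injective K {sF} hS hdesc).isDomain (PhiB K {sF} hS).toRingHom

include hℓN in
theorem isDomain_chartFin : IsDomain (↥(chartAlgFin N ℓ) ⊗[Zl ℓ] K) := by
  apply isDomain_chart_aux N ℓ K (jqModC (Zl ℓ)) (jFull N) (iotaL_jqModC ℓ).symm (dedekindPsi_pos' N)
  · intro x hx
    rw [iotaL_jqModC, iotaL_gU]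
    exact exists_lin_rel N x hx
  · intro a h
    rw [piL_jqModC, piL_gU] at h
    exact core N ℓ hℓN K a h

include hℓN in
theorem isDomain_chartInf : IsDomain (↥(chartAlgInf N ℓ) ⊗[Zl ℓ] K) := by
  apply isDomain_chart_aux N ℓ K (jInvL (Zl ℓ)) (jFull N)⁻¹ (iotaL_jInvL ℓ).symm (dedekindPsi_pos' N)
  · intro x hx
    rw [iotaL_jInvL, iotaL_gU]
    exact lin_rel_inv' N x hx
  · intro a h
    rw [piL_jInvL, piL_gU] at h
    exact core_inv' N ℓ hℓN K a h

theorem nontrivial_chartMid : Nontrivial (↥(chartAlgMid N ℓ) ⊗[Zl ℓ] K) := by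
  apply nontrivial_chart K
  rintro x (rfl | rfl)
  · rw [coe_jFull, ← iotaL_jqModC ℓ]
    exact iotaL_mem_Vring ℓ K _
  · have : (((jFull N)⁻¹ : ↥(modularFunctionFieldFull N)) : LaurentSeries ℚ) = jq⁻¹ := rfl
    rw [this, ← iotaL_jInvL ℓ]
    exact iotaL_mem_Vring ℓ K _

end

end Fermat.Agent.S28Aux
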