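/-
S28 helper library (T6b): change of the coefficient field for the independence statement.
-/
import Fermat.Agent.S28.Norm

set_option autoImplicit false
set_option linter.unusedSectionVars false

namespace Fermat.Agent.S28Aux

open ModularCurve Polynomial

noncomputable section

/-- independence descends along a field extension. -/
theorem core_descend {F κ : Type*} [Field F] [Field κ] (φ : F →+* κ) (n : ℕ)
    (j g : LaurentSeries ℤ)
    (hκ : ∀ a : Fin n → κ[X], ∑ i, aeval (coeffMap (Int.castRingHom κ) j) (a i) *
      (coeffMap (Int.castRingHom κ) g) ^ (i : ℕ) = 0 → a = 0)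
    (a : Fin n → F[X]) (h : ∑ i, aeval (coeffMap (Int.castRingHom F) j) (a i) *
      (coeffMap (Int.castRingHom F) g) ^ (i : ℕ) = 0) : a = 0 := by
  have hc : ∀ x : LaurentSeries ℤ, coeffMap φ (coeffMap (Int.castRingHom F) x)
      = coeffMap (Int.castRingHom κ) x := by
    intro x
    rw [coeffMap_coeffMap]
    exact coeffMap_congr (RingHom.ext_int _ _) x
  have h1 := congrArg (coeffMap φ) h
  rw [map_sum, map_zero] at h1
  have h2 := hκ (fun i => (a i).map φ) (by
    rw [← h1]
    refine Finset.sum_congr rfl fun i _ => ?_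
    rw [map_mul, map_pow, hc, ← aeval_coeffMap, hc])
  funext i
  exact Polynomial.map_injective φ φ.injective (by
    have := congrFun h2 i
    simpa using this)

/-- independence ascends along a field extension (functional trick). -/
theorem core_ascend {F K : Type*} [Field F] [Field K] [Algebra F K] (n : ℕ)
    (j g : LaurentSeries ℤ)
    (hF : ∀ a : Fin n → F[X], ∑ i, aeval (coeffMap (Int.castRingHom F) j) (a i) *
      (coeffMap (Int.castRingHom F) g) ^ (i : ℕ) = 0 → a = 0)
    (a : Fin n → K[X]) (h : ∑ i, aeval (coeffMap (Int.castRingHom K) j) (a i) *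
      (coeffMap (Int.castRingHom K) g) ^ (i : ℕ) = 0) : a = 0 := by
  classical
  set jF := coeffMap (Int.castRingHom F) j with hjF
  set gF := coeffMap (Int.castRingHom F) g with hgF
  have hc : ∀ x : LaurentSeries ℤ, coeffMap (algebraMap F K) (coeffMap (Int.castRingHom F) x)
      = coeffMap (Int.castRingHom K) x := by
    intro x
    rw [coeffMap_coeffMap]
    exact coeffMap_congr (RingHom.ext_int _ _) x
  -- a common degree bound
  set D : ℕ := (Finset.univ.sup fun i => (a i).natDegree) + 1 with hD
  have hdeg : ∀ i, (a i).natDegree < D := fun i =>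
    Nat.lt_succ_of_le (Finset.le_sup (f := fun i => (a i).natDegree) (Finset.mem_univ i))
  -- coefficientwise form of the relation
  have hrel : ∀ m : ℤ, ∑ i, ∑ k ∈ Finset.range D,
      (a i).coeff k * algebraMap F K ((jF ^ k * gF ^ (i : ℕ)).coeff m) = 0 := by
    intro m
    have h1 := congrArg (fun x => x.coeff m) h
    simp only [HahnSeries.coeff_zero] at h1
    rw [← h1, HahnSeries.coeff_sum]
    refine Finset.sum_congr rfl fun i _ => ?_
    rw [aeval_eq_sum_range' (hdeg i), Finset.sum_mul, HahnSeries.coeff_sum]
    refine Finset.sum_congr rfl fun k _ => ?_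
    have e : coeffMap (Int.castRingHom K) j ^ k * coeffMap (Int.castRingHom K) g ^ (i : ℕ)
        = coeffMap (algebraMap F K) (jF ^ k * gF ^ (i : ℕ)) := by
      rw [map_mul, map_pow, map_pow, hjF, hgF, hc, hc]
    rw [Algebra.smul_def, mul_assoc, algebraMap_laurent_eq_C, HahnSeries.C_mul_eq_smul,
      HahnSeries.coeff_smul, smul_eq_mul, e, coeffMap_coeff]
  -- apply a functional
  have key : ∀ lam : K →ₗ[F] F, ∀ i k, k < D → lam ((a i).coeff k) = 0 := by
    intro lam
    let b : Fin n → F[X] := fun i => ∑ k ∈ Finset.range D, monomial k (lam ((a i).coeff k))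
    have hb : b = 0 := by
      apply hF
      ext m
      rw [HahnSeries.coeff_sum, HahnSeries.coeff_zero]
      have h2 := congrArg lam (hrel m)
      rw [map_zero, map_sum] at h2
      rw [← h2]
      refine Finset.sum_congr rfl fun i _ => ?_
      rw [map_sum, map_sum, Finset.sum_mul, HahnSeries.coeff_sum]
      refine Finset.sum_congr rfl fun k _ => ?_
      rw [aeval_monomial, mul_assoc, algebraMap_laurent_eq_C, HahnSeries.C_mul_eq_smul,
        HahnSeries.coeff_smul, smul_eq_mul, mul_comm ((a i).coeff k), ← Algebra.smul_def,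
        map_smul, smul_eq_mul, mul_comm]
    intro i k hk
    have h3 := congrArg (fun q => q.coeff k) (congrFun hb i)
    simp only [b, Pi.zero_apply, coeff_zero, finsetSum_coeff, coeff_monomial] at h3
    rw [Finset.sum_ite_eq' (Finset.range D) k, if_pos (Finset.mem_range.mpr hk)] at h3
    exact h3
  funext i
  ext k
  rw [Pi.zero_apply, coeff_zero]
  by_cases hk : k < D
  · exact (Module.forall_dual_apply_eq_zero_iff F _).mp fun lam => key lam i k hk
  · exact coeff_eq_zero_of_natDegree_lt (lt_of_lt_of_le (hdeg i) (not_lt.mp hk))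

/-- (T6b) change of the field: independence over `κ(j)` for ONE field `κ` of characteristic `ℓ`
implies independence over `K(j)` for all fields `K` of characteristic `ℓ`. -/
theorem core_change_field' (ℓ : ℕ) [Fact ℓ.Prime] (κ : Type*) [Field κ] [CharP κ ℓ]
    (K : Type*) [Field K] [CharP K ℓ] (n : ℕ) (j g : LaurentSeries ℤ)
    (hκ : ∀ a : Fin n → κ[X], ∑ i, aeval (coeffMap (Int.castRingHom κ) j) (a i) *
      (coeffMap (Int.castRingHom κ) g) ^ (i : ℕ) = 0 → a = 0)
    (a : Fin n → K[X]) (h : ∑ i, aeval (coeffMap (Int.castRingHom K) j) (a i) *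
      (coeffMap (Int.castRingHom K) g) ^ (i : ℕ) = 0) : a = 0 := by
  let _ := ZMod.algebra K ℓ
  exact core_ascend (F := ZMod ℓ) n j g
    (fun b hb => core_descend (ZMod.castHom (dvd_refl ℓ) κ) n j g hκ b hb) a h

end

end Fermat.Agent.S28Aux
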