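/-
S28 helper library (T2c, part (c)): passing from `s = j` to `s = 1/j` by reflecting polynomials.
-/
import Fermat.Agent.S28.Degree
import Fermat.Agent.S28.Core

set_option autoImplicit false
set_option linter.unusedSectionVars false

namespace Fermat.Agent.S28Aux

open ModularCurve Polynomial

noncomputable section

theorem aeval_inv_reflect_mul_pow {k M : Type*} [Field k] [Field M] [Algebra k M] {J : M}
    (hJ : J ≠ 0) (D : ℕ) (f : k[X]) (hf : f.natDegree ≤ D) :
    aeval J⁻¹ (reflect D f) * J ^ D = aeval J f := by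
  let _ := invertibleOfNonzero hJ
  have := eval₂_reflect_mul_pow (algebraMap k M) J D f hf
  rwa [invOf_eq_inv] at this

/-- abstract form of `lin_rel_inv` -/
theorem rel_inv_aux {k M : Type*} [Field k] [Field M] [Algebra k M] {J : M} (hJ : J ≠ 0)
    (G x : M) (n : ℕ) (b : k[X]) (a : Fin n → k[X]) (hne : b ≠ 0 ∨ a ≠ 0)
    (h : aeval J b * x = ∑ i, aeval J (a i) * G ^ (i : ℕ)) :
    ∃ (b' : k[X]) (a' : Fin n → k[X]), (b' ≠ 0 ∨ a' ≠ 0) ∧
      aeval J⁻¹ b' * x = ∑ i, aeval J⁻¹ (a' i) * G ^ (i : ℕ) := by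
  set D : ℕ := b.natDegree + ∑ i, (a i).natDegree with hD
  have hb : b.natDegree ≤ D := Nat.le_add_right _ _
  have ha : ∀ i, (a i).natDegree ≤ D := fun i =>
    (Finset.single_le_sum (f := fun i => (a i).natDegree) (fun _ _ => Nat.zero_le _)
      (Finset.mem_univ i)).trans (Nat.le_add_left _ _)
  refine ⟨reflect D b, fun i => reflect D (a i), ?_, ?_⟩
  · rcases hne with h0 | h0
    · exact Or.inl (by rwa [Ne, reflect_eq_zero_iff])
    · refine Or.inr fun h1 => h0 (funext fun i => ?_)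
      have := congrFun h1 i
      simpa [reflect_eq_zero_iff] using this
  · have hJD : J ^ D ≠ 0 := pow_ne_zero _ hJ
    apply mul_right_cancel₀ hJD
    rw [Finset.sum_mul]
    calc aeval J⁻¹ (reflect D b) * x * J ^ D = (aeval J⁻¹ (reflect D b) * J ^ D) * x := by ring
      _ = aeval J b * x := by rw [aeval_inv_reflect_mul_pow hJ D b hb]
      _ = ∑ i, aeval J (a i) * G ^ (i : ℕ) := h
      _ = ∑ i, aeval J⁻¹ (reflect D (a i)) * G ^ (i : ℕ) * J ^ D :=
        Finset.sum_congr rfl fun i _ => by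
          rw [← aeval_inv_reflect_mul_pow hJ D (a i) (ha i)]
          ring

/-- abstract form of `core_inv` -/
theorem core_inv_aux {k M : Type*} [Field k] [Field M] [Algebra k M] {J : M} (hJ : J ≠ 0)
    (G : M) (n : ℕ)
    (hcore : ∀ a : Fin n → k[X], ∑ i, aeval J (a i) * G ^ (i : ℕ) = 0 → a = 0)
    (a : Fin n → k[X]) (h : ∑ i, aeval J⁻¹ (a i) * G ^ (i : ℕ) = 0) : a = 0 := by
  set D : ℕ := ∑ i, (a i).natDegree with hD
  have ha : ∀ i, (a i).natDegree ≤ D := fun i =>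
    Finset.single_le_sum (f := fun i => (a i).natDegree) (fun _ _ => Nat.zero_le _)
      (Finset.mem_univ i)
  have hJD : J⁻¹ ^ D ≠ 0 := pow_ne_zero _ (inv_ne_zero hJ)
  have key : ∀ i, aeval J (reflect D (a i)) * J⁻¹ ^ D = aeval J⁻¹ (a i) := fun i => by
    have := aeval_inv_reflect_mul_pow (inv_ne_zero hJ) D (a i) (ha i)
    rwa [inv_inv] at this
  have h1 : ∑ i, aeval J (reflect D (a i)) * G ^ (i : ℕ) = 0 := by
    apply mul_right_cancel₀ hJD
    rw [zero_mul, Finset.sum_mul, ← h]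
    exact Finset.sum_congr rfl fun i _ => by
      rw [← key i]
      ring
  have h2 := hcore _ h1
  funext i
  have := congrFun h2 i
  simpa [reflect_eq_zero_iff] using this

theorem lin_rel_inv (N : ℕ) [NeZero N] (x : LaurentSeries ℚ) (hx : x ∈ Fplus N) :
    ∃ (b : ℚ[X]) (a : Fin (dedekindPsi N) → ℚ[X]), (b ≠ 0 ∨ a ≠ 0) ∧
      aeval jq⁻¹ b * x = ∑ i, aeval jq⁻¹ (a i) * (gU ℚ N : LaurentSeries ℚ) ^ (i : ℕ) := by
  obtain ⟨b, a, hne, h⟩ := exists_lin_rel N x hx
  exact rel_inv_aux jq_ne_zero _ x _ b a hne h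

theorem core_inv (N : ℕ) [NeZero N] (ℓ : ℕ) [Fact ℓ.Prime] (hℓN : ¬ ℓ ∣ N) (K : Type*) [Field K]
    [CharP K ℓ] (a : Fin (dedekindPsi N) → K[X])
    (h : ∑ i, aeval (jqModC K)⁻¹ (a i) * (gU K N : LaurentSeries K) ^ (i : ℕ) = 0) : a = 0 :=
  core_inv_aux (jqModC_ne_zero_of_nontrivial K) _ _ (fun a h => core N ℓ hℓN K a h) a h

theorem dedekindPsi_pos (N : ℕ) [NeZero N] : 0 < dedekindPsi N := by
  rw [dedekindPsi]
  apply Finset.sum_pos'
  · intro i _
    exact Nat.zero_le _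
  · refine ⟨1, ?_, ?_⟩
    · simp [NeZero.ne N]
    · simpa using Nat.pos_of_ne_zero (NeZero.ne N)

end

end Fermat.Agent.S28Aux
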